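/-
S18 block D, leaf D1 (helper28): the generic Gauss valuation.

`A` is a valuation subring of a field `L` with residue field `k`.  Integral Laurent series are the
elements of `LaurentSeries A`; `incl` embeds them into `LaurentSeries L` and `red` reduces them to
`LaurentSeries k` (both are the Prelude's `coeffMap`, the maps used by the frozen reduction
definitions).  A series `x` over `L` is Gauss-integral (`IsInt`) when `x * Q = P` for integral
`P`, `Q` with `red Q ≠ 0`.  These form a subring `gaussRing A` of `L((q))` carrying a residue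
homomorphism `res` to `k((q))` whose kernel is the set of non-units.  For a field `F` with a ring
homomorphism `φ : F →+* L((q))` all of whose nonzero values are `ScalableElt` (i.e. of the shape
`c * P / Q` with `c` a nonzero constant and `P`, `Q` integral of nonzero reduction) the preimage is a
valuation subring `gaussSubring A φ hφ` of `F`, with residue map `resMap`, `ker resMap` the maximal
ideal, value group equal to the one of `A` (`e = 1`), and restriction to the constants equal to `A`.
-/
import Mathlib
import Fermat.Prelude.Def_ModularCurve_LaurentCoeff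

set_option autoImplicit false

noncomputable section

open HahnSeries ModularCurve

namespace Fermat.Agent.S18.Gauss.Basic

variable {L : Type*} [Field L] (A : ValuationSubring L)

/-- The inclusion of integral Laurent series into Laurent series over the field. -/
def incl : LaurentSeries A →+* LaurentSeries L := coeffMap A.subtype

/-- Reduction of integral Laurent series modulo the maximal ideal. -/
def red : LaurentSeries A →+* LaurentSeries (IsLocalRing.ResidueField A) :=
  coeffMap (IsLocalRing.residue A)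

@[simp]
theorem incl_coeff (P : LaurentSeries A) (n : ℤ) : (incl A P).coeff n = (P.coeff n : L) := rfl

@[simp]
theorem red_coeff (P : LaurentSeries A) (n : ℤ) :
    (red A P).coeff n = IsLocalRing.residue A (P.coeff n) := rfl

theorem incl_injective : Function.Injective (incl A) := by
  intro P Q h
  ext n
  have := congrArg (fun x => x.coeff n) h
  simpa using this

theorem incl_eq_zero_iff {P : LaurentSeries A} : incl A P = 0 ↔ P = 0 := by
  rw [← map_zero (incl A)]
  exact (incl_injective A).eq_iff

theorem red_ne_zero_imp_ne_zero {P : LaurentSeries A} (h : red A P ≠ 0) : P ≠ 0 := by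
  rintro rfl
  exact h (map_zero _)

theorem incl_C (a : A) : incl A (HahnSeries.C a) = HahnSeries.C (a : L) := by
  rw [incl, HahnSeries.C_apply, coeffMap_single, HahnSeries.C_apply]
  rfl

theorem red_C (a : A) : red A (HahnSeries.C a) = HahnSeries.C (IsLocalRing.residue A a) := by
  rw [red, HahnSeries.C_apply, coeffMap_single, HahnSeries.C_apply]

/-- Gauss integrality: `x = P / Q` with `P`, `Q` integral and `Q` of nonzero reduction. -/
def IsInt (x : LaurentSeries L) : Prop :=
  ∃ P Q : LaurentSeries A, red A Q ≠ 0 ∧ x * incl A Q = incl A P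

theorem isInt_incl (P : LaurentSeries A) : IsInt A (incl A P) :=
  ⟨P, 1, by rw [map_one]; exact one_ne_zero, by rw [map_one, mul_one]⟩

theorem IsInt.add {x y : LaurentSeries L} (hx : IsInt A x) (hy : IsInt A y) : IsInt A (x + y) := by
  obtain ⟨P, Q, hQ, h⟩ := hx
  obtain ⟨P', Q', hQ', h'⟩ := hy
  refine ⟨P * Q' + P' * Q, Q * Q', ?_, ?_⟩
  · rw [map_mul]; exact mul_ne_zero hQ hQ'
  · rw [map_add, map_mul, map_mul, map_mul, ← h, ← h']; ring

theorem IsInt.mul {x y : LaurentSeries L} (hx : IsInt A x) (hy : IsInt A y) : IsInt A (x * y) := by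
  obtain ⟨P, Q, hQ, h⟩ := hx
  obtain ⟨P', Q', hQ', h'⟩ := hy
  refine ⟨P * P', Q * Q', ?_, ?_⟩
  · rw [map_mul]; exact mul_ne_zero hQ hQ'
  · rw [map_mul, map_mul, ← h, ← h']; ring

theorem IsInt.neg {x : LaurentSeries L} (hx : IsInt A x) : IsInt A (-x) := by
  obtain ⟨P, Q, hQ, h⟩ := hx
  exact ⟨-P, Q, hQ, by rw [map_neg, ← h]; ring⟩

/-- The Gauss ring: all Gauss-integral series. -/
def gaussRing : Subring (LaurentSeries L) where
  carrier := {x | IsInt A x}
  mul_mem' hx hy := hx.mul A hy
  one_mem' := by simpa using isInt_incl A 1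
  add_mem' hx hy := hx.add A hy
  zero_mem' := by simpa using isInt_incl A 0
  neg_mem' hx := hx.neg A

theorem mem_gaussRing {x : LaurentSeries L} : x ∈ gaussRing A ↔ IsInt A x := Iff.rfl

theorem incl_mem_gaussRing (P : LaurentSeries A) : incl A P ∈ gaussRing A := isInt_incl A P

/-- Two presentations of the same series have the same reduced quotient. -/
theorem red_div_eq {x : LaurentSeries L} {P Q P' Q' : LaurentSeries A}
    (hQ : red A Q ≠ 0) (h : x * incl A Q = incl A P)
    (hQ' : red A Q' ≠ 0) (h' : x * incl A Q' = incl A P') :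
    red A P / red A Q = red A P' / red A Q' := by
  have e : P * Q' = P' * Q := by
    apply incl_injective A
    rw [map_mul, map_mul, ← h, ← h']; ring
  rw [div_eq_div_iff hQ hQ', ← map_mul, ← map_mul, e]

/-- The residue function on Gauss-integral series. -/
def resFun (x : gaussRing A) : LaurentSeries (IsLocalRing.ResidueField A) :=
  red A x.2.choose / red A x.2.choose_spec.choose

theorem resFun_eq (x : gaussRing A) {P Q : LaurentSeries A}
    (hQ : red A Q ≠ 0) (h : (x : LaurentSeries L) * incl A Q = incl A P) :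
    resFun A x = red A P / red A Q :=
  red_div_eq A x.2.choose_spec.choose_spec.1 x.2.choose_spec.choose_spec.2 hQ h

/-- The residue homomorphism of the Gauss ring. -/
def res : gaussRing A →+* LaurentSeries (IsLocalRing.ResidueField A) where
  toFun := resFun A
  map_one' := by
    rw [resFun_eq A 1 (P := 1) (Q := 1) (by rw [map_one]; exact one_ne_zero) (by simp), map_one,
      div_one]
  map_mul' x y := by
    obtain ⟨P, Q, hQ, h⟩ := x.2
    obtain ⟨P', Q', hQ', h'⟩ := y.2
    rw [resFun_eq A x hQ h, resFun_eq A y hQ' h',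
      resFun_eq A (x * y) (P := P * P') (Q := Q * Q') (by rw [map_mul]; exact mul_ne_zero hQ hQ')
        (by rw [map_mul, map_mul, ← h, ← h', Subring.coe_mul]; ring),
      map_mul, map_mul, mul_div_mul_comm]
  map_zero' := by
    rw [resFun_eq A 0 (P := 0) (Q := 1) (by rw [map_one]; exact one_ne_zero) (by simp), map_zero,
      zero_div]
  map_add' x y := by
    obtain ⟨P, Q, hQ, h⟩ := x.2
    obtain ⟨P', Q', hQ', h'⟩ := y.2
    rw [resFun_eq A x hQ h, resFun_eq A y hQ' h',
      resFun_eq A (x + y) (P := P * Q' + P' * Q) (Q := Q * Q')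
        (by rw [map_mul]; exact mul_ne_zero hQ hQ')
        (by rw [map_add, map_mul, map_mul, map_mul, ← h, ← h', Subring.coe_add]; ring),
      map_add, map_mul, map_mul, map_mul, div_add_div _ _ hQ hQ']
    congr 1
    ring

theorem res_eq (x : gaussRing A) {P Q : LaurentSeries A}
    (hQ : red A Q ≠ 0) (h : (x : LaurentSeries L) * incl A Q = incl A P) :
    res A x = red A P / red A Q :=
  resFun_eq A x hQ h

theorem res_incl (P : LaurentSeries A) : res A ⟨incl A P, incl_mem_gaussRing A P⟩ = red A P := by
  rw [res_eq A _ (P := P) (Q := 1) (by rw [map_one]; exact one_ne_zero) (by simp), map_one, div_one]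

/-- A Gauss-integral series with nonzero residue has a Gauss-integral inverse. -/
theorem inv_mem_of_res_ne_zero (x : gaussRing A) (hx : res A x ≠ 0) :
    (x : LaurentSeries L)⁻¹ ∈ gaussRing A := by
  obtain ⟨P, Q, hQ, h⟩ := x.2
  rw [res_eq A x hQ h] at hx
  have hP : red A P ≠ 0 := fun h0 => hx (by rw [h0, zero_div])
  have hx0 : (x : LaurentSeries L) ≠ 0 := by
    intro h0
    rw [h0, zero_mul] at h
    exact red_ne_zero_imp_ne_zero A hP ((incl_eq_zero_iff A).1 h.symm)
  exact ⟨Q, P, hP, by rw [← h, ← mul_assoc, inv_mul_cancel₀ hx0, one_mul]⟩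

theorem res_ne_zero_of_inv_mem (x : gaussRing A) (hx0 : (x : LaurentSeries L) ≠ 0)
    (hx : (x : LaurentSeries L)⁻¹ ∈ gaussRing A) : res A x ≠ 0 := by
  intro h0
  have h1 : x * ⟨_, hx⟩ = 1 := Subtype.ext (by simp [hx0])
  have := congrArg (res A) h1
  rw [map_mul, h0, zero_mul, map_one] at this
  exact zero_ne_one this

theorem isUnit_iff_res_ne_zero (x : gaussRing A) : IsUnit x ↔ res A x ≠ 0 := by
  constructor
  · intro hu
    exact (hu.map (res A)).ne_zero
  · intro hx
    have hx' := inv_mem_of_res_ne_zero A x hx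
    have hx0 : (x : LaurentSeries L) ≠ 0 := by
      intro h0
      apply hx
      have : x = 0 := Subtype.ext h0
      rw [this, map_zero]
    exact IsUnit.of_mul_eq_one ⟨_, hx'⟩ (Subtype.ext (by simp [hx0]))

/-- A constant is Gauss-integral exactly when it lies in `A`. -/
theorem C_mem_gaussRing_iff (c : L) : (HahnSeries.C c : LaurentSeries L) ∈ gaussRing A ↔ c ∈ A := by
  constructor
  · rintro ⟨P, Q, hQ, h⟩
    by_contra hc
    have hc0 : c ≠ 0 := fun h0 => hc (h0 ▸ A.zero_mem)
    have hcinv : c⁻¹ ∈ A := (A.mem_or_inv_mem c).resolve_left hc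
    have hnu : (⟨c⁻¹, hcinv⟩ : A) ∈ IsLocalRing.maximalIdeal A := by
      rw [IsLocalRing.mem_maximalIdeal, mem_nonunits_iff]
      intro hu
      apply hc
      have := (ValuationSubring.valuation_eq_one_iff A _).1 hu
      have h2 : A.valuation c = 1 := by
        have h3 : A.valuation c * A.valuation c⁻¹ = 1 := by
          rw [← map_mul, mul_inv_cancel₀ hc0, map_one]
        simpa [show A.valuation c⁻¹ = 1 from this] using h3
      exact (ValuationSubring.valuation_le_one_iff A c).1 h2.le
    have e : Q = HahnSeries.C (⟨c⁻¹, hcinv⟩ : A) * P := by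
      apply incl_injective A
      rw [map_mul, incl_C, ← h, ← mul_assoc, ← map_mul]
      simp [hc0]
    apply hQ
    rw [e, map_mul, red_C, (IsLocalRing.residue_eq_zero_iff _).2 hnu, map_zero, zero_mul]
  · intro hc
    have := incl_mem_gaussRing A (HahnSeries.C (⟨c, hc⟩ : A))
    rwa [incl_C] at this

/-! ### Scalable elements and the Gauss valuation subring of a field of Laurent series -/

/-- `x = c * P / Q` with `c` a nonzero constant and `P`, `Q` integral of nonzero reduction. -/
def ScalableElt (x : LaurentSeries L) : Prop :=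
  ∃ (c : L) (P Q : LaurentSeries A), c ≠ 0 ∧ red A P ≠ 0 ∧ red A Q ≠ 0 ∧
    x * incl A Q = HahnSeries.C c * incl A P

theorem ScalableElt.ne_zero {x : LaurentSeries L} (hx : ScalableElt A x) : x ≠ 0 := by
  obtain ⟨c, P, Q, hc, hP, hQ, h⟩ := hx
  rintro rfl
  rw [zero_mul] at h
  rcases mul_eq_zero.1 h.symm with h1 | h1
  · exact hc (by simpa using h1)
  · exact red_ne_zero_imp_ne_zero A hP ((incl_eq_zero_iff A).1 h1)

theorem ScalableElt.mem_or_inv_mem {x : LaurentSeries L} (hx : ScalableElt A x) :
    x ∈ gaussRing A ∨ x⁻¹ ∈ gaussRing A := by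
  have hx0 := hx.ne_zero A
  obtain ⟨c, P, Q, hc, hP, hQ, h⟩ := hx
  rcases A.mem_or_inv_mem c with hcA | hcA
  · left
    exact ⟨HahnSeries.C (⟨c, hcA⟩ : A) * P, Q, hQ, by rw [map_mul, incl_C, h]⟩
  · right
    refine ⟨HahnSeries.C (⟨c⁻¹, hcA⟩ : A) * Q, P, hP, ?_⟩
    rw [map_mul, incl_C]
    have h2 : incl A P = HahnSeries.C c⁻¹ * (x * incl A Q) := by
      rw [h, ← mul_assoc, ← map_mul, inv_mul_cancel₀ hc, map_one, one_mul]
    rw [h2]
    field_simp

/-- A scalable element divided by its constant is a unit of the Gauss ring. -/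
theorem ScalableElt.exists_const {x : LaurentSeries L} (hx : ScalableElt A x) :
    ∃ c : L, c ≠ 0 ∧ (HahnSeries.C c : LaurentSeries L)⁻¹ * x ∈ gaussRing A ∧
      ((HahnSeries.C c : LaurentSeries L)⁻¹ * x)⁻¹ ∈ gaussRing A := by
  obtain ⟨c, P, Q, hc, hP, hQ, h⟩ := hx
  have hC : (HahnSeries.C c : LaurentSeries L) ≠ 0 := by
    intro h0
    exact hc ((map_eq_zero_iff _ HahnSeries.C_injective).1 h0)
  have h1 : (HahnSeries.C c : LaurentSeries L)⁻¹ * x * incl A Q = incl A P := by
    rw [mul_assoc, h, ← mul_assoc, inv_mul_cancel₀ hC, one_mul]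
  have hmem : (HahnSeries.C c : LaurentSeries L)⁻¹ * x ∈ gaussRing A := ⟨P, Q, hQ, h1⟩
  refine ⟨c, hc, hmem, ?_⟩
  have key : res A ⟨_, hmem⟩ ≠ 0 := by
    rw [res_eq A ⟨_, hmem⟩ hQ h1]
    exact div_ne_zero hP hQ
  exact inv_mem_of_res_ne_zero A ⟨_, hmem⟩ key

section Field

variable {F : Type*} [Field F] (φ : F →+* LaurentSeries L)

/-- Every nonzero element of `F` has a scalable expansion. -/
def Scalable : Prop := ∀ x : F, x ≠ 0 → ScalableElt A (φ x)

variable {A φ}

/-- The Gauss valuation subring of `F`. -/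
def gaussSubring (hφ : Scalable A φ) : ValuationSubring F where
  __ := (gaussRing A).comap φ
  mem_or_inv_mem' x := by
    by_cases hx : x = 0
    · left
      rw [hx]
      exact Subring.zero_mem _
    · rcases (hφ x hx).mem_or_inv_mem A with h | h
      · left; exact h
      · right
        show φ x⁻¹ ∈ gaussRing A
        rwa [map_inv₀]

theorem mem_gaussSubring_iff (hφ : Scalable A φ) {x : F} :
    x ∈ gaussSubring hφ ↔ IsInt A (φ x) := Iff.rfl

/-- The residue map of the Gauss valuation subring. -/
def resMap (hφ : Scalable A φ) :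
    gaussSubring hφ →+* LaurentSeries (IsLocalRing.ResidueField A) :=
  (res A).comp (φ.restrict (gaussSubring hφ).toSubring (gaussRing A) (fun _ hx => hx))

theorem resMap_eq (hφ : Scalable A φ) (x : gaussSubring hφ) {P Q : LaurentSeries A}
    (hQ : red A Q ≠ 0) (h : φ x * incl A Q = incl A P) :
    resMap hφ x = red A P / red A Q :=
  res_eq A _ hQ h

theorem resMap_of_incl (hφ : Scalable A φ) (x : gaussSubring hφ) {P : LaurentSeries A}
    (h : φ x = incl A P) : resMap hφ x = red A P := by
  rw [resMap_eq hφ x (P := P) (Q := 1) (by rw [map_one]; exact one_ne_zero) (by simp [h]),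
    map_one, div_one]

theorem isUnit_iff_resMap_ne_zero (hφ : Scalable A φ) (x : gaussSubring hφ) :
    IsUnit x ↔ resMap hφ x ≠ 0 := by
  constructor
  · intro hu
    exact (hu.map (resMap hφ)).ne_zero
  · intro hx
    have hx0 : (x : F) ≠ 0 := by
      intro h0
      apply hx
      have : x = 0 := Subtype.ext h0
      rw [this, map_zero]
    have hinv : (x : F)⁻¹ ∈ gaussSubring hφ := by
      show φ (x : F)⁻¹ ∈ gaussRing A
      rw [map_inv₀]
      exact inv_mem_of_res_ne_zero A ⟨φ x, x.2⟩ hx
    exact IsUnit.of_mul_eq_one ⟨_, hinv⟩ (Subtype.ext (by simp [hx0]))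

theorem resMap_eq_zero_iff (hφ : Scalable A φ) (x : gaussSubring hφ) :
    resMap hφ x = 0 ↔ x ∈ IsLocalRing.maximalIdeal (gaussSubring hφ) := by
  rw [IsLocalRing.mem_maximalIdeal, mem_nonunits_iff, isUnit_iff_resMap_ne_zero hφ, not_not]

theorem ker_resMap (hφ : Scalable A φ) :
    RingHom.ker (resMap hφ) = IsLocalRing.maximalIdeal (gaussSubring hφ) := by
  ext x
  rw [RingHom.mem_ker, resMap_eq_zero_iff]

instance isLocalHom_resMap (hφ : Scalable A φ) : IsLocalHom (resMap hφ) :=
  ⟨fun x hx => (isUnit_iff_resMap_ne_zero hφ x).2 hx.ne_zero⟩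

/-- The embedding of the residue field of the Gauss valuation into `k((q))`. -/
def resField (hφ : Scalable A φ) :
    IsLocalRing.ResidueField (gaussSubring hφ) →+* LaurentSeries (IsLocalRing.ResidueField A) :=
  IsLocalRing.ResidueField.lift (resMap hφ)

@[simp]
theorem resField_residue (hφ : Scalable A φ) (x : gaussSubring hφ) :
    resField hφ (IsLocalRing.residue _ x) = resMap hφ x :=
  IsLocalRing.ResidueField.lift_residue_apply _ x

theorem resField_injective (hφ : Scalable A φ) : Function.Injective (resField hφ) :=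
  (resField hφ).injective

/-- Restricting along a field homomorphism compatible with the expansions. -/
theorem comap_gaussSubring {F' : Type*} [Field F'] {φ' : F' →+* LaurentSeries L}
    (hφ : Scalable A φ) (hφ' : Scalable A φ') (ψ : F' →+* F) (hψ : φ.comp ψ = φ') :
    (gaussSubring hφ).comap ψ = gaussSubring hφ' := by
  ext x
  rw [ValuationSubring.mem_comap, mem_gaussSubring_iff, mem_gaussSubring_iff, ← hψ]
  rfl

theorem resMap_comap {F' : Type*} [Field F'] {φ' : F' →+* LaurentSeries L}
    (hφ : Scalable A φ) (hφ' : Scalable A φ') (ψ : F' →+* F) (hψ : φ.comp ψ = φ')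
    (x : gaussSubring hφ') (hx : ψ x ∈ gaussSubring hφ) :
    resMap hφ ⟨ψ x, hx⟩ = resMap hφ' x := by
  obtain ⟨P, Q, hQ, h⟩ := x.2
  rw [resMap_eq hφ' x hQ h]
  refine resMap_eq hφ _ hQ ?_
  have e : φ (ψ x) = φ' x := by
    have := RingHom.congr_fun hψ (x : F')
    simpa using this
  show φ (ψ x) * _ = _
  rw [e, h]

section Constants

variable [Algebra L F] (hconst : ∀ c : L, φ (algebraMap L F c) = HahnSeries.C c)

include hconst

/-- The Gauss valuation restricts to `A` on the constants. -/
theorem comap_algebraMap (hφ : Scalable A φ) : (gaussSubring hφ).comap (algebraMap L F) = A := by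
  ext c
  rw [ValuationSubring.mem_comap, mem_gaussSubring_iff, hconst, ← mem_gaussRing,
    C_mem_gaussRing_iff]

theorem resMap_algebraMap (hφ : Scalable A φ) (a : A) (ha : algebraMap L F a ∈ gaussSubring hφ) :
    resMap hφ ⟨algebraMap L F a, ha⟩ = HahnSeries.C (IsLocalRing.residue A a) := by
  rw [resMap_of_incl hφ _ (P := HahnSeries.C a) (by rw [incl_C]; exact hconst a), red_C]

/-- `e = 1`: every nonzero element is a constant times a unit. -/
theorem exists_const_mul_unit (hφ : Scalable A φ) (x : F) (hx : x ≠ 0) :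
    ∃ c : L, c ≠ 0 ∧ (algebraMap L F c)⁻¹ * x ∈ gaussSubring hφ ∧
      ((algebraMap L F c)⁻¹ * x)⁻¹ ∈ gaussSubring hφ := by
  obtain ⟨c, hc, h1, h2⟩ := (hφ x hx).exists_const A
  refine ⟨c, hc, ?_, ?_⟩
  · show φ _ ∈ gaussRing A
    rwa [map_mul, map_inv₀, hconst]
  · show φ _ ∈ gaussRing A
    rwa [map_inv₀, map_mul, map_inv₀, hconst]

theorem valuation_eq_const (hφ : Scalable A φ) (x : F) (hx : x ≠ 0) :
    ∃ c : L, c ≠ 0 ∧ (gaussSubring hφ).valuation x = (gaussSubring hφ).valuation (algebraMap L F c) := by
  obtain ⟨c, hc, h1, h2⟩ := exists_const_mul_unit hconst hφ x hx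
  refine ⟨c, hc, ?_⟩
  have hc' : algebraMap L F c ≠ 0 := by
    rw [Ne, map_eq_zero_iff _ (algebraMap L F).injective]
    exact hc
  have hu : (gaussSubring hφ).valuation ((algebraMap L F c)⁻¹ * x) = 1 := by
    apply le_antisymm ((ValuationSubring.valuation_le_one_iff _ _).2 h1)
    have h3 := (ValuationSubring.valuation_le_one_iff _ _).2 h2
    rw [map_inv₀] at h3
    by_contra hlt
    rw [not_le] at hlt
    have hne : (gaussSubring hφ).valuation ((algebraMap L F c)⁻¹ * x) ≠ 0 := by
      rw [Ne, map_eq_zero]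
      exact mul_ne_zero (inv_ne_zero hc') hx
    have := (one_lt_inv₀ (zero_lt_iff.2 hne)).2 hlt
    exact absurd h3 (not_le.2 this)
  have : x = algebraMap L F c * ((algebraMap L F c)⁻¹ * x) := by
    rw [← mul_assoc, mul_inv_cancel₀ hc', one_mul]
  conv_lhs => rw [this]
  rw [map_mul, hu, mul_one]

end Constants

end Field

end Fermat.Agent.S18.Gauss.Basic
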