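/-
S18 block D, leaf D1b part 1 (helper28): primitive scaling of polynomials over a valuation ring,
and the criterion "polynomial relation + independence of the reductions ⇒ scalable".

* `exists_primitive`, `exists_primitive₂` : a nonzero polynomial in one / two variables over the
  field `L` is a nonzero constant times a polynomial over the valuation ring `A` whose reduction is
  nonzero.
* `scalableElt_of_rel` : if `x * q(j) = G(j, j_N)` with `deg_Y G < n`, and relations of `Y`-degree
  `< n` between `j̄`, `j̄_N` over the residue field vanish, then `x` is scalable in the sense of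
  `Gauss/Basic.lean`.
-/
import Mathlib
import Fermat.Agent.S28.Export
import Fermat.Agent.S18.Gauss.Basic

set_option autoImplicit false

noncomputable section

open Polynomial ModularCurve Fermat.Agent.S28.Export Fermat.Agent.S18.Gauss.Basic

namespace Fermat.Agent.S18.Gauss.PolyScale

variable {L : Type*} [Field L] (A : ValuationSubring L)

/-- among finitely many elements of `L`, not all zero, one has the largest valuation. -/
theorem exists_max_val {ι : Type*} (s : Finset ι) (a : ι → L) (h : ∃ i ∈ s, a i ≠ 0) :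
    ∃ i₀ ∈ s, a i₀ ≠ 0 ∧ ∀ i ∈ s, a i / a i₀ ∈ A := by
  obtain ⟨j, hj, hj0⟩ := h
  obtain ⟨i₀, hi₀, hmax⟩ := Finset.exists_max_image s (fun i => A.valuation (a i)) ⟨j, hj⟩
  have h0 : a i₀ ≠ 0 := by
    intro h0
    have := hmax j hj
    simp only [h0, map_zero] at this
    exact hj0 ((map_eq_zero _).1 (le_antisymm this zero_le))
  refine ⟨i₀, hi₀, h0, fun i hi => ?_⟩
  rw [← ValuationSubring.valuation_le_one_iff, map_div₀]
  have hv0 : A.valuation (a i₀) ≠ 0 := by rwa [Ne, map_eq_zero]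
  exact (div_le_one₀ (zero_lt_iff.2 hv0)).2 (hmax i hi)

theorem subtype_injective' : Function.Injective (A.subtype : A →+* L) :=
  Subtype.val_injective

/-- primitive scaling in one variable. -/
theorem exists_primitive (p : L[X]) (hp : p ≠ 0) :
    ∃ (c : L) (p₁ : (↥A)[X]), c ≠ 0 ∧ p₁.map A.subtype = C c⁻¹ * p ∧
      p₁.map (IsLocalRing.residue A) ≠ 0 := by
  obtain ⟨i₀, -, h0, hmax⟩ := exists_max_val A p.support (fun i => p.coeff i)
    (by
      obtain ⟨n, hn⟩ : ∃ n, p.coeff n ≠ 0 := by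
        by_contra hall
        rw [not_exists] at hall
        exact hp (Polynomial.ext fun n => by simpa using not_not.mp (hall n))
      exact ⟨n, mem_support_iff.2 hn, hn⟩)
  set c := p.coeff i₀ with hc
  have hmem : ∀ n, (C c⁻¹ * p).coeff n ∈ (A.subtype : A →+* L).range := by
    intro n
    rw [coeff_C_mul]
    by_cases hn : n ∈ p.support
    · exact ⟨⟨_, hmax n hn⟩, by simp [div_eq_inv_mul]⟩
    · rw [notMem_support_iff.1 hn, mul_zero]
      exact ⟨0, map_zero _⟩
  obtain ⟨p₁, hp₁⟩ := (Polynomial.mem_map_range _).2 hmem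
  rw [coe_mapRingHom] at hp₁
  refine ⟨c, p₁, h0, hp₁, fun hzero => ?_⟩
  have h1 : p₁.coeff i₀ = 1 := by
    apply subtype_injective' A
    have := congrArg (fun r => r.coeff i₀) hp₁
    simp only [coeff_map, coeff_C_mul] at this
    rw [this, map_one, ← hc, inv_mul_cancel₀ h0]
  have := congrArg (fun r => r.coeff i₀) hzero
  simp only [coeff_map, h1, map_one, coeff_zero] at this
  exact one_ne_zero this

/-- primitive scaling in two variables. -/
theorem exists_primitive₂ (G : L[X][X]) (hG : G ≠ 0) :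
    ∃ (c : L) (G₁ : (↥A)[X][X]), c ≠ 0 ∧
      G₁.map (mapRingHom A.subtype) = C (C c⁻¹) * G ∧
      G₁.map (mapRingHom (IsLocalRing.residue A)) ≠ 0 := by
  classical
  obtain ⟨i, hi⟩ : ∃ i, G.coeff i ≠ 0 := by
    by_contra hall
    rw [not_exists] at hall
    exact hG (Polynomial.ext fun i => by simpa using not_not.mp (hall i))
  obtain ⟨a, ha⟩ : ∃ a, (G.coeff i).coeff a ≠ 0 := by
    by_contra hall
    rw [not_exists] at hall
    exact hi (Polynomial.ext fun a => by simpa using not_not.mp (hall a))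
  obtain ⟨⟨i₀, a₀⟩, -, h0, hmax⟩ := exists_max_val A
    (G.support.sigma fun i => (G.coeff i).support)
    (fun x : (Σ _ : ℕ, ℕ) => (G.coeff x.1).coeff x.2)
    ⟨⟨i, a⟩, Finset.mem_sigma.2 ⟨mem_support_iff.2 hi, mem_support_iff.2 ha⟩, ha⟩
  set c := (G.coeff i₀).coeff a₀ with hc
  have hmem : ∀ n, (C (C c⁻¹) * G).coeff n ∈ (mapRingHom (A.subtype : A →+* L)).range := by
    intro n
    rw [coeff_C_mul, Polynomial.mem_map_range]
    intro b
    rw [coeff_C_mul]
    by_cases hb : (G.coeff n).coeff b = 0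
    · rw [hb, mul_zero]
      exact ⟨0, map_zero _⟩
    · have hn : G.coeff n ≠ 0 := fun h => hb (by rw [h, coeff_zero])
      have := hmax ⟨n, b⟩ (Finset.mem_sigma.2 ⟨mem_support_iff.2 hn, mem_support_iff.2 hb⟩)
      exact ⟨⟨_, this⟩, by simp [div_eq_inv_mul]⟩
  obtain ⟨G₁, hG₁⟩ := (Polynomial.mem_map_range _).2 hmem
  rw [coe_mapRingHom] at hG₁
  refine ⟨c, G₁, h0, hG₁, fun hzero => ?_⟩
  have h1 : (G₁.coeff i₀).coeff a₀ = 1 := by
    apply subtype_injective' A
    have := congrArg (fun r => (r.coeff i₀).coeff a₀) hG₁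
    simp only [coeff_map, coe_mapRingHom, coeff_C_mul] at this
    rw [this, map_one, ← hc, inv_mul_cancel₀ h0]
  have := congrArg (fun r => (r.coeff i₀).coeff a₀) hzero
  simp only [coeff_map, coe_mapRingHom, h1, map_one, coeff_zero] at this
  exact one_ne_zero this

/-- the scaled polynomial vanishes in the same `Y`-degrees. -/
theorem coeff_eq_zero_of_map_eq {G : L[X][X]} {G₁ : (↥A)[X][X]} {c : L}
    (h : G₁.map (mapRingHom A.subtype) = C (C c⁻¹) * G) {i : ℕ} (hi : G.coeff i = 0) :
    G₁.coeff i = 0 := by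
  have := congrArg (fun r => r.coeff i) h
  simp only [coeff_map, coe_mapRingHom, coeff_C_mul, hi, mul_zero] at this
  exact (Polynomial.map_eq_zero_iff (subtype_injective' A)).1 this

section Rel

variable (N : ℕ) [NeZero N]

theorem incl_ev1 (p : (↥A)[X]) : incl A (ev1 (↥A) p) = ev1 L (p.map A.subtype) :=
  coeffMap_ev1 A.subtype p

theorem red_ev1 (p : (↥A)[X]) :
    red A (ev1 (↥A) p) = ev1 (IsLocalRing.ResidueField A) (p.map (IsLocalRing.residue A)) :=
  coeffMap_ev1 (IsLocalRing.residue A) p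

theorem incl_ev2 (G : (↥A)[X][X]) :
    incl A (ev2 (↥A) N G) = ev2 L N (G.map (mapRingHom A.subtype)) :=
  coeffMap_ev2 (N := N) A.subtype G

theorem red_ev2 (G : (↥A)[X][X]) :
    red A (ev2 (↥A) N G) =
      ev2 (IsLocalRing.ResidueField A) N (G.map (mapRingHom (IsLocalRing.residue A))) :=
  coeffMap_ev2 (N := N) (IsLocalRing.residue A) G

variable {A N}

/-- independence of the reductions, in the `ev2`-form of `S28/Export.lean`. -/
def IndepRes (A : ValuationSubring L) (N : ℕ) [NeZero N] (n : ℕ) : Prop :=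
  ∀ G : (IsLocalRing.ResidueField A)[X][X], (∀ i, n ≤ i → G.coeff i = 0) →
    ev2 (IsLocalRing.ResidueField A) N G = 0 → G = 0

/-- the reduction of a primitive one-variable polynomial in `j` is nonzero. -/
theorem red_ev1_ne_zero {n : ℕ} (hn : 0 < n) (hind : IndepRes A N n) {p₁ : (↥A)[X]}
    (hp₁ : p₁.map (IsLocalRing.residue A) ≠ 0) : red A (ev1 (↥A) p₁) ≠ 0 := by
  rw [red_ev1]
  intro h0
  apply hp₁
  have := hind (C (p₁.map (IsLocalRing.residue A)))
    (fun i hi => by
      rw [coeff_C, if_neg]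
      omega)
    (by rw [ev2_C, h0])
  exact C_eq_zero.1 this

/-- the reduction of a primitive two-variable polynomial of `Y`-degree `< n` in `(j, j_N)` is
nonzero. -/
theorem red_ev2_ne_zero {n : ℕ} (hind : IndepRes A N n) {G₁ : (↥A)[X][X]}
    (hdeg : ∀ i, n ≤ i → G₁.coeff i = 0)
    (hG₁ : G₁.map (mapRingHom (IsLocalRing.residue A)) ≠ 0) : red A (ev2 (↥A) N G₁) ≠ 0 := by
  rw [red_ev2]
  intro h0
  apply hG₁
  exact hind _ (fun i hi => by rw [coeff_map, hdeg i hi, map_zero]) h0

/-- a nonzero one-variable polynomial in `j` is a nonzero series. -/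
theorem ev1_ne_zero {n : ℕ} (hn : 0 < n) (hind : IndepRes A N n) {q : L[X]} (hq : q ≠ 0) :
    ev1 L q ≠ 0 := by
  obtain ⟨c, q₁, hc, hmap, hred⟩ := exists_primitive A q hq
  have h1 := red_ev1_ne_zero hn hind hred
  have h2 : incl A (ev1 (↥A) q₁) = HahnSeries.C c⁻¹ * ev1 L q := by
    rw [incl_ev1, hmap, map_mul, ev1_C]
  intro h0
  rw [h0, mul_zero, incl_eq_zero_iff] at h2
  exact red_ne_zero_imp_ne_zero A h1 h2

/-- **Scalability from a polynomial relation.** -/
theorem scalableElt_of_rel {n : ℕ} (hn : 0 < n) (hind : IndepRes A N n)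
    {x : LaurentSeries L} (hx : x ≠ 0) {q : L[X]} (hq : q ≠ 0) {G : L[X][X]}
    (hdeg : ∀ i, n ≤ i → G.coeff i = 0) (h : x * ev1 L q = ev2 L N G) : ScalableElt A x := by
  have hG : G ≠ 0 := by
    rintro rfl
    rw [map_zero] at h
    rcases mul_eq_zero.1 h with h1 | h1
    · exact hx h1
    · exact ev1_ne_zero hn hind hq h1
  obtain ⟨cq, q₁, hcq, hqmap, hqred⟩ := exists_primitive A q hq
  obtain ⟨cG, G₁, hcG, hGmap, hGred⟩ := exists_primitive₂ A G hG
  have hdeg₁ : ∀ i, n ≤ i → G₁.coeff i = 0 := fun i hi =>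
    coeff_eq_zero_of_map_eq A hGmap (hdeg i hi)
  refine ⟨cG / cq, ev2 (↥A) N G₁, ev1 (↥A) q₁, div_ne_zero hcG hcq,
    red_ev2_ne_zero hind hdeg₁ hGred, red_ev1_ne_zero hn hind hqred, ?_⟩
  rw [incl_ev1, incl_ev2, hqmap, hGmap, map_mul, map_mul, ev1_C, ev2_C, ev1_C, ← h]
  have hCq : (HahnSeries.C cq : LaurentSeries L) ≠ 0 := fun h0 =>
    hcq ((map_eq_zero_iff _ HahnSeries.C_injective).1 h0)
  have hCG : (HahnSeries.C cG : LaurentSeries L) ≠ 0 := fun h0 =>
    hcG ((map_eq_zero_iff _ HahnSeries.C_injective).1 h0)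
  rw [map_div₀, map_inv₀, map_inv₀]
  field_simp

end Rel

end Fermat.Agent.S18.Gauss.PolyScale
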