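import Mathlib
import Fermat.Agent.S28.ExportFinal

/-!
# S18, block D, leaf D2a: Igusa's independence over an arbitrary field of characteristic `ℓ`

`S28` (`ExportFinal.E2`) says that for `ℓ ∤ N` the powers `1, j̄_N, …, j̄_N^{ψ(N)-1}` of
`j̄_N = j(q^N)` are linearly independent over `𝔽_ℓ[j̄]` inside `𝔽_ℓ((q))`.  Here the statement is
transported to `k((q))` for **every** field `k` of characteristic `ℓ`, by applying `𝔽_ℓ`-linear
functionals `k → 𝔽_ℓ` coefficientwise (`indep_of_char`).  The generic step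
(`eq_zero_of_base`: independence over `k₀[j]` in `k₀((q))` ⇒ over `k[j]` in `k((q))` for any field
extension `k / k₀`) is stated separately.
-/

set_option autoImplicit false

namespace Fermat.Agent.S18.Gauss.IndepK

open ModularCurve Polynomial Fermat.Agent.S28.Export

noncomputable section

section Generic

variable {k₀ k : Type*} [Field k₀] [Field k] [Algebra k₀ k]

/-- a `k₀`-linear functional on `k` which is `1` at a given nonzero element. -/
lemma exists_functional_base {c : k} (hc : c ≠ 0) : ∃ φ : k →ₗ[k₀] k₀, φ c = 1 := by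
  have hker : LinearMap.ker (LinearMap.toSpanSingleton k₀ k c) = ⊥ :=
    LinearMap.ker_toSpanSingleton k₀ hc
  obtain ⟨g, hg⟩ := LinearMap.exists_leftInverse_of_injective _ hker
  refine ⟨g, ?_⟩
  have := congrArg (fun ψ => ψ 1) hg
  simpa using this

/-- apply a `k₀`-linear functional to all coefficients of a two-variable polynomial -/
def phi2 (φ : k →ₗ[k₀] k₀) : Polynomial (Polynomial k) →+ Polynomial (Polynomial k₀) :=
  mapAdd (mapAdd φ.toAddMonoidHom)

lemma coeff_phi2 (φ : k →ₗ[k₀] k₀) (G : Polynomial (Polynomial k)) (i a : ℕ) :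
    ((phi2 φ G).coeff i).coeff a = φ ((G.coeff i).coeff a) := by
  simp [phi2, coeff_mapAdd]

lemma coeff_phi2' (φ : k →ₗ[k₀] k₀) (G : Polynomial (Polynomial k)) (i : ℕ) :
    (phi2 φ G).coeff i = mapAdd φ.toAddMonoidHom (G.coeff i) := by
  simp [phi2, coeff_mapAdd]

lemma phi2_monomial (φ : k →ₗ[k₀] k₀) (a b : ℕ) (g : k) :
    phi2 φ (monomial b (monomial a g)) = monomial b (monomial a (φ g)) := by
  simp [phi2, mapAdd_monomial]

variable (N : ℕ) [NeZero N]

/-- functionals commute with evaluation at `(j, j_N)`, coefficientwise -/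
lemma coeff_ev2_phi2 (φ : k →ₗ[k₀] k₀) (G : Polynomial (Polynomial k)) (m : ℤ) :
    (ev2 k₀ N (phi2 φ G)).coeff m = φ ((ev2 k N G).coeff m) := by
  induction G using Polynomial.induction_on' with
  | add p q hp hq =>
    rw [map_add, map_add, map_add, HahnSeries.coeff_add, HahnSeries.coeff_add, map_add, hp, hq]
  | monomial b p =>
    induction p using Polynomial.induction_on' with
    | add p q hp hq =>
      rw [map_add, map_add, map_add, map_add, HahnSeries.coeff_add, HahnSeries.coeff_add,
        map_add, hp, hq]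
    | monomial a g =>
      rw [phi2_monomial]
      set s : LaurentSeries k₀ := (jqModC k₀) ^ a * (jqNModC k₀ N) ^ b with hs
      have h1 : ev2 k₀ N (monomial b (monomial a (φ g))) = HahnSeries.C (φ g) * s := by
        rw [ev2_apply, Polynomial.eval₂_monomial, ev1, Polynomial.coe_eval₂RingHom,
          Polynomial.eval₂_monomial, hs, mul_assoc]
      have h2 : ev2 k N (monomial b (monomial a g)) =
          HahnSeries.C g * coeffMap (algebraMap k₀ k) s := by
        rw [ev2_apply, Polynomial.eval₂_monomial, ev1, Polynomial.coe_eval₂RingHom,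
          Polynomial.eval₂_monomial, hs, map_mul, map_pow, map_pow, coeffMap_jqModC,
          coeffMap_jqNModC, mul_assoc]
      rw [h1, h2, HahnSeries.C_mul_eq_smul, HahnSeries.C_mul_eq_smul, HahnSeries.coeff_smul,
        HahnSeries.coeff_smul, coeffMap_coeff, smul_eq_mul, smul_eq_mul]
      have h3 : g * algebraMap k₀ k (s.coeff m) = (s.coeff m) • g := by
        rw [Algebra.smul_def, mul_comm]
      rw [h3, map_smul, smul_eq_mul, mul_comm]

variable {N}

/-- **Base change of independence.**  If relations of `Y`-degree `< n` between `j(q)` and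
`j(q^N)` over `k₀` vanish, so do those over any extension field `k`. -/
theorem eq_zero_of_base {n : ℕ}
    (h : ∀ G : Polynomial (Polynomial k₀), (∀ i, n ≤ i → G.coeff i = 0) →
      ev2 k₀ N G = 0 → G = 0)
    {G : Polynomial (Polynomial k)} (hdeg : ∀ i, n ≤ i → G.coeff i = 0)
    (hG : ev2 k N G = 0) : G = 0 := by
  by_contra hne
  obtain ⟨i, hi⟩ : ∃ i, G.coeff i ≠ 0 := by
    by_contra hall
    rw [not_exists] at hall
    exact hne (Polynomial.ext fun i => by simpa using not_not.mp (hall i))
  obtain ⟨a, ha⟩ : ∃ a, (G.coeff i).coeff a ≠ 0 := by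
    by_contra hall
    rw [not_exists] at hall
    exact hi (Polynomial.ext fun a => by simpa using not_not.mp (hall a))
  obtain ⟨φ, hφ⟩ := exists_functional_base (k₀ := k₀) ha
  have h0 : phi2 φ G = 0 := by
    apply h
    · intro j hj
      rw [coeff_phi2', hdeg j hj, map_zero]
    · ext m
      rw [coeff_ev2_phi2, hG, HahnSeries.coeff_zero, map_zero, HahnSeries.coeff_zero]
  have h1 := coeff_phi2 φ G i a
  rw [h0, hφ] at h1
  simp at h1

end Generic

section CharL

variable (N : ℕ) [NeZero N] (ℓ : ℕ) [Fact ℓ.Prime]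

/-- `S28` in `ev2`-form over `𝔽_ℓ`. -/
theorem eq_zero_zmod (hℓN : ¬ ℓ ∣ N) {G : Polynomial (Polynomial (ZMod ℓ))}
    (hdeg : ∀ i, dedekindPsi N ≤ i → G.coeff i = 0) (hG : ev2 (ZMod ℓ) N G = 0) : G = 0 := by
  refine eq_zero_of_indepMod (N := N) (l := ℓ) (n := dedekindPsi N) ?_ hdeg hG
  intro a ha i
  refine Fermat.Agent.S28.ExportFinal.E2 N ℓ hℓN a ?_ i
  rw [← ha]
  refine Finset.sum_congr rfl fun i _ => ?_
  rw [ev1_eq_aeval]

variable (k : Type*) [Field k] [CharP k ℓ]

/-- **Igusa over any field of characteristic `ℓ`, `ev2`-form**: a relation of `Y`-degree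
`< ψ(N)` between `j̄` and `j̄_N` in `k((q))` vanishes. -/
theorem eq_zero_of_char (hℓN : ¬ ℓ ∣ N) {G : Polynomial (Polynomial k)}
    (hdeg : ∀ i, dedekindPsi N ≤ i → G.coeff i = 0) (hG : ev2 k N G = 0) : G = 0 := by
  let _ : Algebra (ZMod ℓ) k := ZMod.algebra k ℓ
  exact eq_zero_of_base (k₀ := ZMod ℓ) (fun G' hdeg' hG' => eq_zero_zmod N ℓ hℓN hdeg' hG')
    hdeg hG

/-- **Igusa over any field of characteristic `ℓ`, family form** (the shape of `S28`'s `E2`). -/
theorem indep_of_char (hℓN : ¬ ℓ ∣ N) :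
    ∀ a : Fin (dedekindPsi N) → Polynomial k,
      ∑ i, aeval (jqModC k) (a i) * (jqNModC k N) ^ (i : ℕ) = 0 → ∀ i, a i = 0 := by
  intro a ha i
  classical
  set G : Polynomial (Polynomial k) := ∑ i : Fin (dedekindPsi N), monomial (i : ℕ) (a i) with hGdef
  have hcoeff : ∀ j : Fin (dedekindPsi N), G.coeff (j : ℕ) = a j := by
    intro j
    rw [hGdef, finsetSum_coeff]
    simp only [coeff_monomial]
    rw [Finset.sum_eq_single j]
    · simp
    · intro b _ hb
      have : (b : ℕ) ≠ (j : ℕ) := fun h => hb (Fin.ext h)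
      simp [this]
    · intro hj
      exact absurd (Finset.mem_univ j) hj
  have hdeg : ∀ m, dedekindPsi N ≤ m → G.coeff m = 0 := by
    intro m hm
    rw [hGdef, finsetSum_coeff]
    refine Finset.sum_eq_zero fun b _ => ?_
    rw [coeff_monomial]
    have : (b : ℕ) ≠ m := fun h => absurd (h ▸ b.2) (not_lt.mpr hm)
    simp [this]
  have hG : ev2 k N G = 0 := by
    rw [hGdef, map_sum, ← ha]
    refine Finset.sum_congr rfl fun b _ => ?_
    rw [ev2_apply, Polynomial.eval₂_monomial, ev1_eq_aeval]
  have := eq_zero_of_char N ℓ k hℓN hdeg hG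
  rw [← hcoeff i, this, coeff_zero]

end CharL

end

end Fermat.Agent.S18.Gauss.IndepK
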