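import Mathlib
import Fermat.Prelude.Def_ModularCurve_X0ModL
import Fermat.Agent.S18.ValExt.UniqueOfResidue
import Fermat.Agent.S18.Gauss.IndepK
import Fermat.Agent.S28.SeriesRed

/-!
# S18, block D, leaf D2: residue data of a Gauss-type valuation on a modular function field

`K` a field with a valuation subring `A` and a surjective reduction `π : A → k` (`char k = ℓ`).
`F ⊆ K((q))` a subfield containing `J = j(q)` and `J_M = j(q^M)` (`ℓ ∤ M`).  A valuation subring
`O'` of `F` with a ring homomorphism `ρ : O' → k((q))` is of **Gauss type** (`IsGaussRed`) if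

* every element of `F` whose `q`-coefficients lie in `A` belongs to `O'`, and `ρ` is the
  coefficientwise reduction on such elements;
* `ρ` kills the maximal ideal of `O'`.

(This is the interface of block D1; it holds for the `q`-coefficient Gauss valuation.)
From `S28` (in the form `IndepK.indep_of_char`) we derive:

* `resIndep_pow` : the powers `J_M ^ i`, `i < ψ(M)`, are residually independent over `K(J)`;
* `eq_of_comap_eq` : if `[F : K(J)] = ψ(M)`, then `O'` is the unique valuation subring of `F`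
  with its trace on `K(J)` (the `huniq` of `KummerDescent`), `e = 1`, and `O' = ⊕ O • J_M ^ i`;
* `map_mem_modularFunctionFieldC` : `ρ` takes values in `k(j̄, j̄_M)`; if `F` contains all
  `j(q^d)`, `d ∣ M`, then `range ρ = modularFunctionFieldFullC k M = k(j̄, j̄_M)`, of degree
  `ψ(M)` over `k(j̄)`.
-/

set_option autoImplicit false

namespace Fermat.Agent.S18.Gauss.Residue

open ModularCurve Polynomial Fermat.Agent.S28.Export Fermat.Agent.S18.ValExt.UniqueOfResidue
open Fermat.Agent.S18.Gauss.IndepK IntermediateField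

noncomputable section

variable {K : Type*} [Field K] (A : ValuationSubring K) {k : Type*} [Field k] (π : A →+* k)
  (F : IntermediateField K (LaurentSeries K)) (O' : ValuationSubring F)
  (ρ : O' →+* LaurentSeries k)

/-- The interface of a Gauss-type valuation subring of `F ⊆ K((q))` with its reduction map. -/
structure IsGaussRed : Prop where
  mem_of_integral : ∀ (y : LaurentSeries A) (hy : coeffMap A.subtype y ∈ F),
    (⟨coeffMap A.subtype y, hy⟩ : F) ∈ O'
  map_integral : ∀ (y : LaurentSeries A) (hy : coeffMap A.subtype y ∈ F)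
    (h : (⟨coeffMap A.subtype y, hy⟩ : F) ∈ O'),
    ρ ⟨⟨coeffMap A.subtype y, hy⟩, h⟩ = coeffMap π y
  map_eq_zero : ∀ x : O', O'.valuation (x : F) < 1 → ρ x = 0
  surj : Function.Surjective π

variable {A π F O' ρ}

namespace IsGaussRed

variable (hG : IsGaussRed A π F O' ρ)
include hG

/-- `π` kills exactly the maximal ideal of `A`. -/
theorem map_eq_zero_iff (a : A) : π a = 0 ↔ A.valuation (a : K) < 1 := by
  have hmax : (RingHom.ker π).IsMaximal := RingHom.ker_isMaximal_of_surjective π hG.surj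
  have hker : RingHom.ker π = IsLocalRing.maximalIdeal A := IsLocalRing.eq_maximalIdeal hmax
  rw [← RingHom.mem_ker, hker, ValuationSubring.valuation_lt_one_iff]

/-- an element of `O'` with nonzero reduction is a unit. -/
theorem valuation_eq_one_of_map_ne_zero {x : O'} (hx : ρ x ≠ 0) : O'.valuation (x : F) = 1 := by
  have hle : O'.valuation (x : F) ≤ 1 := (ValuationSubring.valuation_le_one_iff _ _).mpr x.2
  by_contra hne
  exact hx (hG.map_eq_zero x (lt_of_le_of_ne hle hne))

/-- integral constants lie in `O'` and reduce to constants. -/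
theorem algebraMap_mem (a : A) : algebraMap K F (a : K) ∈ O' := by
  have hy : coeffMap A.subtype (HahnSeries.C a) ∈ F := by
    have : coeffMap A.subtype (HahnSeries.C a) = algebraMap K (LaurentSeries K) (a : K) := by
      rw [algebraMap_eq_C, HahnSeries.C_apply, HahnSeries.C_apply, coeffMap_single]
      rfl
    rw [this]
    exact F.algebraMap_mem _
  have := hG.mem_of_integral (HahnSeries.C a) hy
  convert this using 1
  apply Subtype.ext
  show algebraMap K (LaurentSeries K) (a : K) = coeffMap A.subtype (HahnSeries.C a)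
  rw [algebraMap_eq_C, HahnSeries.C_apply, HahnSeries.C_apply, coeffMap_single]
  rfl

theorem map_algebraMap (a : A) :
    ρ ⟨algebraMap K F (a : K), hG.algebraMap_mem a⟩ = HahnSeries.C (π a) := by
  have hy : coeffMap A.subtype (HahnSeries.C a) ∈ F := by
    have : coeffMap A.subtype (HahnSeries.C a) = algebraMap K (LaurentSeries K) (a : K) := by
      rw [algebraMap_eq_C, HahnSeries.C_apply, HahnSeries.C_apply, coeffMap_single]
      rfl
    rw [this]
    exact F.algebraMap_mem _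
  have h1 := hG.map_integral (HahnSeries.C a) hy (hG.mem_of_integral _ hy)
  have h2 : coeffMap π (HahnSeries.C a) = HahnSeries.C (π a) := by
    rw [HahnSeries.C_apply, HahnSeries.C_apply, coeffMap_single]
  rw [← h2, ← h1]
  congr 1
  apply Subtype.ext
  apply Subtype.ext
  show algebraMap K (LaurentSeries K) (a : K) = coeffMap A.subtype (HahnSeries.C a)
  rw [algebraMap_eq_C, HahnSeries.C_apply, HahnSeries.C_apply, coeffMap_single]
  rfl

/-- a constant of `K` lying in `O'` lies in `A`. -/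
theorem mem_of_algebraMap_mem {c : K} (hc : algebraMap K F c ∈ O') : c ∈ A := by
  by_contra hcA
  have hc0 : c ≠ 0 := fun h => hcA (h ▸ A.zero_mem)
  have hinv : c⁻¹ ∈ A := (A.mem_or_inv_mem c).resolve_left hcA
  have hlt : A.valuation ((⟨c⁻¹, hinv⟩ : A) : K) < 1 := by
    show A.valuation c⁻¹ < 1
    rw [map_inv₀]
    have : 1 < A.valuation c := by
      rw [← not_le, ValuationSubring.valuation_le_one_iff]
      exact hcA
    exact inv_lt_one_of_one_lt₀ this
  have h0 : π ⟨c⁻¹, hinv⟩ = 0 := (hG.map_eq_zero_iff _).mpr hlt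
  have h1 := hG.map_algebraMap ⟨c⁻¹, hinv⟩
  rw [h0, map_zero] at h1
  have hmul : (⟨algebraMap K F c, hc⟩ : O') *
      ⟨algebraMap K F ((⟨c⁻¹, hinv⟩ : A) : K), hG.algebraMap_mem ⟨c⁻¹, hinv⟩⟩ = 1 := by
    apply Subtype.ext
    show algebraMap K F c * algebraMap K F c⁻¹ = 1
    rw [← map_mul, mul_inv_cancel₀ hc0, map_one]
  have := congrArg ρ hmul
  rw [map_mul, h1, mul_zero, map_one] at this
  exact zero_ne_one this

end IsGaussRed

/-! ### polynomials in `J` -/

section PolyJ

variable (hJ : jqModC K ∈ F)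

/-- the element `J = j(q)` of `F`. -/
abbrev Jel : F := ⟨jqModC K, hJ⟩

theorem coe_aeval_Jel (p : Polynomial K) :
    ((aeval (Jel hJ) p : F) : LaurentSeries K) = ev1 K p := by
  have h := Polynomial.aeval_algHom_apply F.val (Jel hJ) p
  rw [ev1_eq_aeval]
  exact h.symm

omit [Field k] in
include hJ in
theorem coeffMap_ev1_mem (P : Polynomial A) : coeffMap A.subtype (ev1 A P) ∈ F := by
  rw [coeffMap_ev1, ← coe_aeval_Jel hJ]
  exact (aeval (Jel hJ) (P.map A.subtype)).2

namespace IsGaussRed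

variable (hG : IsGaussRed A π F O' ρ)
include hG

/-- polynomials in `J` with coefficients in `A` lie in `O'`. -/
theorem aeval_mem (P : Polynomial A) : aeval (Jel hJ) (P.map A.subtype) ∈ O' := by
  have := hG.mem_of_integral (ev1 A P) (coeffMap_ev1_mem hJ P)
  convert this using 1
  apply Subtype.ext
  show ((aeval (Jel hJ) (P.map A.subtype) : F) : LaurentSeries K) = coeffMap A.subtype (ev1 A P)
  rw [coe_aeval_Jel, coeffMap_ev1]

/-- and reduce to the reduced polynomial in `j̄`. -/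
theorem map_aeval (P : Polynomial A) :
    ρ ⟨aeval (Jel hJ) (P.map A.subtype), hG.aeval_mem hJ P⟩ = ev1 k (P.map π) := by
  have h1 := hG.map_integral (ev1 A P) (coeffMap_ev1_mem hJ P)
    (hG.mem_of_integral _ (coeffMap_ev1_mem hJ P))
  rw [← coeffMap_ev1, ← h1]
  congr 1
  apply Subtype.ext
  apply Subtype.ext
  show ((aeval (Jel hJ) (P.map A.subtype) : F) : LaurentSeries K) = coeffMap A.subtype (ev1 A P)
  rw [coe_aeval_Jel, coeffMap_ev1]

end IsGaussRed

end PolyJ

/-! ### primitive scaling of a polynomial over the fraction field of a valuation ring -/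

section Primitive

variable (A π)

/-- Every nonzero polynomial over `K` is a constant times a polynomial over `A` one of whose
coefficients is `1`. -/
theorem exists_primitive (Q : Polynomial K) (hQ : Q ≠ 0) :
    ∃ (c : K) (Q' : Polynomial A) (n : ℕ), c ≠ 0 ∧ Q = C c * Q'.map A.subtype ∧ Q'.coeff n = 1 := by
  classical
  have hne : Q.support.Nonempty := by
    rw [Finset.nonempty_iff_ne_empty, Ne, Polynomial.support_eq_empty]
    exact hQ
  obtain ⟨n₀, hn₀, hmax⟩ := Finset.exists_max_image Q.support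
    (fun n => A.valuation (Q.coeff n)) hne
  set c : K := Q.coeff n₀ with hc
  have hc0 : c ≠ 0 := Polynomial.mem_support_iff.mp hn₀
  have hvc : A.valuation c ≠ 0 := by rwa [Ne, (A.valuation).zero_iff]
  have hmem : ∀ n, Q.coeff n / c ∈ A := by
    intro n
    rw [← ValuationSubring.valuation_le_one_iff, map_div₀]
    by_cases hn : n ∈ Q.support
    · exact div_le_one_of_le₀ (hmax n hn) zero_le
    · rw [Polynomial.notMem_support_iff.mp hn, map_zero, zero_div]
      exact zero_le_one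
  refine ⟨c, ∑ n ∈ Q.support, monomial n (⟨Q.coeff n / c, hmem n⟩ : A), n₀, hc0, ?_, ?_⟩
  · rw [Polynomial.map_sum]
    simp only [Polynomial.map_monomial]
    ext m
    rw [coeff_C_mul, finsetSum_coeff]
    simp only [coeff_monomial]
    rw [Finset.sum_ite_eq']
    split_ifs with hm
    · show Q.coeff m = c * (Q.coeff m / c)
      field_simp
    · rw [Polynomial.notMem_support_iff.mp hm, mul_zero]
  · rw [finsetSum_coeff]
    simp only [coeff_monomial]
    rw [Finset.sum_ite_eq', if_pos hn₀]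
    apply Subtype.ext
    show Q.coeff n₀ / c = 1
    rw [hc, div_self hc0]

theorem exists_primitive_map_ne_zero (Q : Polynomial K) (hQ : Q ≠ 0) :
    ∃ (c : K) (Q' : Polynomial A), c ≠ 0 ∧ Q = C c * Q'.map A.subtype ∧ Q'.map π ≠ 0 := by
  obtain ⟨c, Q', n, hc, hQ', hn⟩ := exists_primitive A Q hQ
  refine ⟨c, Q', hc, hQ', fun h => ?_⟩
  have := congrArg (fun p => p.coeff n) h
  simp only [coeff_map, hn, map_one, coeff_zero] at this
  exact one_ne_zero this

end Primitive

/-! ### the trace of `O'` on `K(J)` -/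

section Trace

theorem ev1_ne_zero {p : Polynomial k} (hp : p ≠ 0) : ev1 k p ≠ 0 := by
  intro h
  apply hp
  apply Fermat.Agent.S28.SeriesRed.eval₂_jqModC_eq_zero p
  rw [ev1, Polynomial.coe_eval₂RingHom] at h
  exact h

variable (hJ : jqModC K ∈ F)

omit [Field k] in
/-- every nonzero element of `K(J)` is `κ · P'(J) / Q'(J)` with `P'`, `Q'` primitive over `A`. -/
theorem exists_scaled (c : K⟮Jel hJ⟯) (hc : (c : F) ≠ 0) :
    ∃ (κ : K) (P' Q' : Polynomial A) (n m : ℕ), κ ≠ 0 ∧ P'.coeff n = 1 ∧ Q'.coeff m = 1 ∧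
      (c : F) * aeval (Jel hJ) (Q'.map A.subtype) =
        algebraMap K F κ * aeval (Jel hJ) (P'.map A.subtype) := by
  obtain ⟨r, s, hrs⟩ := (IntermediateField.mem_adjoin_simple_iff K (c : F)).mp c.2
  have hs0 : aeval (Jel hJ) s ≠ 0 := by
    intro h
    rw [h, div_zero] at hrs
    exact hc hrs
  have hr0 : aeval (Jel hJ) r ≠ 0 := by
    intro h
    rw [h, zero_div] at hrs
    exact hc hrs
  have hs : s ≠ 0 := fun h => hs0 (by rw [h, map_zero])
  have hr : r ≠ 0 := fun h => hr0 (by rw [h, map_zero])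
  obtain ⟨cr, R', n, hcr, hR', hn⟩ := exists_primitive A r hr
  obtain ⟨cs, S', m, hcs, hS', hm⟩ := exists_primitive A s hs
  refine ⟨cr / cs, R', S', n, m, div_ne_zero hcr hcs, hn, hm, ?_⟩
  have e1 : aeval (Jel hJ) r = algebraMap K F cr * aeval (Jel hJ) (R'.map A.subtype) := by
    conv_lhs => rw [hR']
    rw [map_mul, aeval_C]
  have e2 : aeval (Jel hJ) s = algebraMap K F cs * aeval (Jel hJ) (S'.map A.subtype) := by
    conv_lhs => rw [hS']
    rw [map_mul, aeval_C]
  have hcs' : algebraMap K F cs ≠ 0 := by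
    rwa [Ne, map_eq_zero_iff _ (algebraMap K F).injective]
  have hS0 : aeval (Jel hJ) (S'.map A.subtype) ≠ 0 := by
    intro h
    rw [h, mul_zero] at e2
    exact hs0 e2
  rw [hrs, e1, e2, map_div₀]
  field_simp

namespace IsGaussRed

variable (hG : IsGaussRed A π F O' ρ)
include hG

/-- the reduction of an element of `K(J) ∩ O'` is a quotient of polynomials in `j̄`. -/
theorem exists_ev1_eq (c : K⟮Jel hJ⟯) (hc : (c : F) ∈ O') :
    ∃ P Q : Polynomial k, Q ≠ 0 ∧ ρ ⟨(c : F), hc⟩ * ev1 k Q = ev1 k P := by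
  by_cases hc0 : (c : F) = 0
  · refine ⟨0, 1, one_ne_zero, ?_⟩
    have : (⟨(c : F), hc⟩ : O') = 0 := Subtype.ext hc0
    rw [this, map_zero, zero_mul, map_zero]
  obtain ⟨κ, P', Q', n, m, hκ, hn, hm, hrel⟩ := exists_scaled hJ c hc0
  have hP'π : P'.map π ≠ 0 := by
    intro h
    have := congrArg (fun p => p.coeff n) h
    simp only [coeff_map, hn, map_one, coeff_zero] at this
    exact one_ne_zero this
  have hQ'π : Q'.map π ≠ 0 := by
    intro h
    have := congrArg (fun p => p.coeff m) h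
    simp only [coeff_map, hm, map_one, coeff_zero] at this
    exact one_ne_zero this
  have hvP : O'.valuation (aeval (Jel hJ) (P'.map A.subtype)) = 1 :=
    hG.valuation_eq_one_of_map_ne_zero (x := ⟨_, hG.aeval_mem hJ P'⟩)
      (by rw [hG.map_aeval hJ P']; exact ev1_ne_zero hP'π)
  have hvQ : O'.valuation (aeval (Jel hJ) (Q'.map A.subtype)) = 1 :=
    hG.valuation_eq_one_of_map_ne_zero (x := ⟨_, hG.aeval_mem hJ Q'⟩)
      (by rw [hG.map_aeval hJ Q']; exact ev1_ne_zero hQ'π)
  have hvκ : O'.valuation (algebraMap K F κ) = O'.valuation (c : F) := by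
    have := congrArg O'.valuation hrel
    rw [map_mul, map_mul, hvP, hvQ, mul_one, mul_one] at this
    exact this.symm
  have hκO : algebraMap K F κ ∈ O' := by
    rw [← ValuationSubring.valuation_le_one_iff, hvκ, ValuationSubring.valuation_le_one_iff]
    exact hc
  have hκA : κ ∈ A := hG.mem_of_algebraMap_mem hκO
  refine ⟨C (π ⟨κ, hκA⟩) * P'.map π, Q'.map π, hQ'π, ?_⟩
  have hmul : (⟨(c : F), hc⟩ : O') * ⟨_, hG.aeval_mem hJ Q'⟩ =
      ⟨algebraMap K F ((⟨κ, hκA⟩ : A) : K), hG.algebraMap_mem ⟨κ, hκA⟩⟩ *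
        ⟨_, hG.aeval_mem hJ P'⟩ := Subtype.ext hrel
  have := congrArg ρ hmul
  rw [map_mul, map_mul, hG.map_aeval hJ Q', hG.map_aeval hJ P', hG.map_algebraMap] at this
  rw [this, map_mul, ev1_C]

end IsGaussRed

end Trace

/-! ### a quotient form of Igusa's independence -/

section Quot

variable {ℓ : ℕ} [Fact ℓ.Prime] [CharP k ℓ] {M : ℕ} [NeZero M]

/-- `1, j̄_M, …` are independent over `k(j̄)`: coefficients which are quotients of polynomials
in `j̄`. -/
theorem eq_zero_of_sum_quot (hℓM : ¬ ℓ ∣ M) (c : Fin (dedekindPsi M) → LaurentSeries k)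
    (P Q : Fin (dedekindPsi M) → Polynomial k) (hQ : ∀ j, Q j ≠ 0)
    (hPQ : ∀ j, c j * ev1 k (Q j) = ev1 k (P j))
    (hsum : ∑ j, c j * jqNModC k M ^ (j : ℕ) = 0) : ∀ j, c j = 0 := by
  classical
  intro i
  set R : Fin (dedekindPsi M) → Polynomial k := fun j => ∏ j' ∈ Finset.univ.erase j, Q j'
    with hR
  have hR0 : ∀ j, R j ≠ 0 := fun j => Finset.prod_ne_zero_iff.mpr fun j' _ => hQ j'
  have hQR : ∀ j, Q j * R j = ∏ j', Q j' := fun j =>
    Finset.mul_prod_erase Finset.univ Q (Finset.mem_univ j)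
  have key : ∀ j, c j * ev1 k (∏ j', Q j') = ev1 k (P j * R j) := by
    intro j
    rw [← hQR j, map_mul, ← mul_assoc, hPQ j, map_mul]
  have hrel : ∑ j, aeval (jqModC k) (P j * R j) * jqNModC k M ^ (j : ℕ) = 0 := by
    have h1 := congrArg (fun x => x * ev1 k (∏ j', Q j')) hsum
    simp only [zero_mul, Finset.sum_mul] at h1
    rw [← h1]
    refine Finset.sum_congr rfl fun j _ => ?_
    rw [← ev1_eq_aeval, ← key j]
    ring
  have hzero := indep_of_char M ℓ k hℓM (fun j => P j * R j) hrel i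
  have hPi : P i = 0 := (mul_eq_zero.mp hzero).resolve_right (hR0 i)
  have := hPQ i
  rw [hPi, map_zero] at this
  exact (mul_eq_zero.mp this).resolve_right (ev1_ne_zero (hQ i))

end Quot

/-! ### residual independence of the powers of `J_M` -/

section Indep

variable (hJ : jqModC K ∈ F) {M : ℕ} [NeZero M] (hJM : jqNModC K M ∈ F)

/-- the element `J_M = j(q^M)` of `F`. -/
abbrev JMel : F := ⟨jqNModC K M, hJM⟩

namespace IsGaussRed

variable (hG : IsGaussRed A π F O' ρ)
include hG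

theorem JMel_mem : JMel hJM ∈ O' := by
  have hy : coeffMap A.subtype (jqNModC A M) ∈ F := by
    rw [coeffMap_jqNModC]; exact hJM
  have := hG.mem_of_integral (jqNModC A M) hy
  convert this using 1
  apply Subtype.ext
  show jqNModC K M = coeffMap A.subtype (jqNModC A M)
  rw [coeffMap_jqNModC]

theorem map_JMel : ρ ⟨JMel hJM, hG.JMel_mem hJM⟩ = jqNModC k M := by
  have hy : coeffMap A.subtype (jqNModC A M) ∈ F := by
    rw [coeffMap_jqNModC]; exact hJM
  have h1 := hG.map_integral (jqNModC A M) hy (hG.mem_of_integral _ hy)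
  rw [← coeffMap_jqNModC π, ← h1]
  congr 1
  apply Subtype.ext
  apply Subtype.ext
  show jqNModC K M = coeffMap A.subtype (jqNModC A M)
  rw [coeffMap_jqNModC]

theorem JMel_pow_mem (i : ℕ) : JMel hJM ^ i ∈ O' :=
  pow_mem (hG.JMel_mem hJM) i

theorem map_JMel_pow (i : ℕ) :
    ρ ⟨JMel hJM ^ i, hG.JMel_pow_mem hJM i⟩ = jqNModC k M ^ i := by
  have : (⟨JMel hJM ^ i, hG.JMel_pow_mem hJM i⟩ : O') = ⟨JMel hJM, hG.JMel_mem hJM⟩ ^ i :=
    Subtype.ext rfl
  rw [this, map_pow, hG.map_JMel hJM]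

variable {ℓ : ℕ} [Fact ℓ.Prime] [CharP k ℓ]

/-- **Residual independence** of `1, J_M, …, J_M^{ψ(M)-1}` over `K(J)` (Igusa, `S28`). -/
theorem resIndep_pow (hℓM : ¬ ℓ ∣ M) :
    ResIndep (F := K⟮Jel hJ⟯) O' (fun i : Fin (dedekindPsi M) => JMel hJM ^ (i : ℕ)) := by
  refine resIndep_of_ringHom ρ hG.map_eq_zero (fun i => hG.JMel_pow_mem hJM i) ?_
  intro a ha hsum i
  have hex : ∀ j, ∃ P Q : Polynomial k, Q ≠ 0 ∧
      ρ ⟨algebraMap K⟮Jel hJ⟯ F (a j), ha j⟩ * ev1 k Q = ev1 k P :=
    fun j => hG.exists_ev1_eq hJ (a j) (ha j)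
  choose P Q hQ hPQ using hex
  refine eq_zero_of_sum_quot hℓM _ P Q hQ hPQ ?_ i
  rw [← hsum]
  refine Finset.sum_congr rfl fun j _ => ?_
  rw [hG.map_JMel_pow hJM]

end IsGaussRed

end Indep

/-! ### consequences: uniqueness, `e = 1`, the shape of the residue field -/

theorem dedekindPsi_pos (M : ℕ) [NeZero M] : 0 < dedekindPsi M := by
  have hM : 0 < M := Nat.pos_of_ne_zero (NeZero.ne M)
  have h1 : (1 : ℕ) ∈ M.divisors.filter Squarefree := by
    rw [Finset.mem_filter]
    exact ⟨Nat.one_mem_divisors.mpr (NeZero.ne M), squarefree_one⟩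
  have h2 : M / 1 ≤ dedekindPsi M :=
    Finset.single_le_sum (f := fun d => M / d) (fun _ _ => Nat.zero_le _) h1
  rw [Nat.div_one] at h2
  exact lt_of_lt_of_le hM h2

section Consequences

variable (hJ : jqModC K ∈ F) {M : ℕ} [NeZero M] (hJM : jqNModC K M ∈ F)
  {ℓ : ℕ} [Fact ℓ.Prime] [CharP k ℓ]

namespace IsGaussRed

variable (hG : IsGaussRed A π F O' ρ)
include hG

omit hG [Field k] [Fact ℓ.Prime] [CharP k ℓ] in
theorem finiteDimensional_of_finrank
    (hdeg : Module.finrank K⟮Jel hJ⟯ F = dedekindPsi M) : FiniteDimensional K⟮Jel hJ⟯ F :=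
  FiniteDimensional.of_finrank_pos (hdeg ▸ dedekindPsi_pos M)

include hJM in
/-- **Unique extension** (`huniq` of `KummerDescent`, over `K(J)`): if `[F : K(J)] = ψ(M)` then
`O'` is the only valuation subring of `F` with trace `O' ∩ K(J)` on `K(J)`. -/
theorem eq_of_comap_eq (hℓM : ¬ ℓ ∣ M)
    (hdeg : Module.finrank K⟮Jel hJ⟯ F = dedekindPsi M) (O'' : ValuationSubring F)
    (h : O''.comap (algebraMap K⟮Jel hJ⟯ F) = O'.comap (algebraMap K⟮Jel hJ⟯ F)) : O'' = O' := by
  have := finiteDimensional_of_finrank hJ (M := M) hdeg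
  exact (hG.resIndep_pow hJ hJM hℓM).eq_of_comap_eq
    (by rw [Fintype.card_fin, hdeg]) O'' h

include hJM in
/-- `e = 1`: every nonzero element of `F` is an element of `K(J)` times a unit of `O'`. -/
theorem exists_mul_unit (hℓM : ¬ ℓ ∣ M)
    (hdeg : Module.finrank K⟮Jel hJ⟯ F = dedekindPsi M) {x : F} (hx : x ≠ 0) :
    ∃ (c : K⟮Jel hJ⟯) (u : F), c ≠ 0 ∧ O'.valuation u = 1 ∧
      x = algebraMap K⟮Jel hJ⟯ F c * u := by
  have := finiteDimensional_of_finrank hJ (M := M) hdeg
  exact (hG.resIndep_pow hJ hJM hℓM).exists_mul_unit (by rw [Fintype.card_fin, hdeg]) hx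

/-- `O' = ⊕ (O' ∩ K(J)) • J_M ^ i`. -/
theorem exists_repr_of_mem (hℓM : ¬ ℓ ∣ M)
    (hdeg : Module.finrank K⟮Jel hJ⟯ F = dedekindPsi M) {x : F} (hx : x ∈ O') :
    ∃ a : Fin (dedekindPsi M) → K⟮Jel hJ⟯, (∀ i, algebraMap K⟮Jel hJ⟯ F (a i) ∈ O') ∧
      ∑ i, a i • JMel hJM ^ (i : ℕ) = x := by
  have := finiteDimensional_of_finrank hJ (M := M) hdeg
  exact (hG.resIndep_pow hJ hJM hℓM).exists_repr_of_mem (by rw [Fintype.card_fin, hdeg]) hx

include hJM in
/-- the reduction of an element of `O'` is a `k(j̄)`-combination of the powers of `j̄_M`. -/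
theorem exists_repr_map (hℓM : ¬ ℓ ∣ M)
    (hdeg : Module.finrank K⟮Jel hJ⟯ F = dedekindPsi M) (x : O') :
    ∃ (c : Fin (dedekindPsi M) → LaurentSeries k) (P Q : Fin (dedekindPsi M) → Polynomial k),
      (∀ i, Q i ≠ 0) ∧ (∀ i, c i * ev1 k (Q i) = ev1 k (P i)) ∧
      ρ x = ∑ i, c i * jqNModC k M ^ (i : ℕ) := by
  obtain ⟨a, ha, hsum⟩ := hG.exists_repr_of_mem hJ hJM hℓM hdeg x.2
  have hex : ∀ j, ∃ P Q : Polynomial k, Q ≠ 0 ∧
      ρ ⟨algebraMap K⟮Jel hJ⟯ F (a j), ha j⟩ * ev1 k Q = ev1 k P :=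
    fun j => hG.exists_ev1_eq hJ (a j) (ha j)
  choose P Q hQ hPQ using hex
  refine ⟨fun j => ρ ⟨algebraMap K⟮Jel hJ⟯ F (a j), ha j⟩, P, Q, hQ, hPQ, ?_⟩
  have hx : x = ∑ i, (⟨algebraMap K⟮Jel hJ⟯ F (a i), ha i⟩ : O') *
      ⟨JMel hJM ^ (i : ℕ), hG.JMel_pow_mem hJM i⟩ := by
    apply Subtype.ext
    rw [← hsum, AddSubmonoidClass.coe_finsetSum]
    refine Finset.sum_congr rfl fun i _ => ?_
    rw [Algebra.smul_def]
    rfl
  conv_lhs => rw [hx]
  rw [map_sum]
  refine Finset.sum_congr rfl fun i _ => ?_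
  rw [map_mul, hG.map_JMel_pow hJM]

omit [Fact ℓ.Prime] [CharP k ℓ] hG in
theorem ev1_mem_adjoin (p : Polynomial k) : ev1 k p ∈ k⟮jqModC k⟯ := by
  rw [ev1_eq_aeval]
  have h := Polynomial.aeval_algHom_apply (k⟮jqModC k⟯).val
    (⟨jqModC k, mem_adjoin_simple_self k _⟩ : k⟮jqModC k⟯) p
  rw [IntermediateField.val_mk] at h
  rw [h]
  exact (aeval (⟨jqModC k, mem_adjoin_simple_self k _⟩ : k⟮jqModC k⟯) p).2

omit [Fact ℓ.Prime] [CharP k ℓ] hG in
theorem mem_adjoin_of_mul_ev1 {c : LaurentSeries k} {P Q : Polynomial k} (hQ : Q ≠ 0)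
    (h : c * ev1 k Q = ev1 k P) : c ∈ k⟮jqModC k⟯ := by
  have hQ0 := ev1_ne_zero hQ
  have : c = ev1 k P / ev1 k Q := by
    rw [eq_div_iff hQ0, h]
  rw [this]
  exact div_mem (ev1_mem_adjoin P) (ev1_mem_adjoin Q)

include hJM in
/-- `ρ` takes its values in `k(j̄, j̄_M)`. -/
theorem map_mem_modularFunctionFieldC (hℓM : ¬ ℓ ∣ M)
    (hdeg : Module.finrank K⟮Jel hJ⟯ F = dedekindPsi M) (x : O') :
    ρ x ∈ modularFunctionFieldC k M := by
  obtain ⟨c, P, Q, hQ, hPQ, hx⟩ := hG.exists_repr_map hJ hJM hℓM hdeg x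
  rw [hx]
  refine sum_mem fun i _ => mul_mem ?_ (pow_mem (jqNModC_mem k M) _)
  have h1 : c i ∈ k⟮jqModC k⟯ := mem_adjoin_of_mul_ev1 (hQ i) (hPQ i)
  have hle : k⟮jqModC k⟯ ≤ modularFunctionFieldC k M := by
    rw [adjoin_simple_le_iff]
    exact jqModC_mem k M
  exact hle h1

end IsGaussRed

end Consequences

end

end Fermat.Agent.S18.Gauss.Residue
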