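import Mathlib
import Fermat.Agent.S18.Gauss.Basic
import Fermat.Agent.S18.Gauss.Residue

/-!
# S18, block D: the Gauss valuation subring of `Gauss/Basic.lean` satisfies `IsGaussRed`

For a subfield `F ⊆ L((q))` (an `IntermediateField`) whose nonzero elements are scalable with
respect to a valuation subring `A` of `L`, the Gauss valuation subring `Basic.gaussSubring` with
its residue map `Basic.resMap` is of Gauss type in the sense of `Residue.IsGaussRed`, with
`π = IsLocalRing.residue A`.  So all results of `Gauss/Residue.lean` and
`Gauss/ResidueField.lean` (residual independence of the powers of `j_M`, unique extension,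
`e = 1`, `range resMap = F_{M,k}`, `[F_{M,k} : k(j̄)] = ψ(M)`) apply to it.
-/

set_option autoImplicit false

namespace Fermat.Agent.S18.Gauss.Adapter

open ModularCurve Fermat.Agent.S18.Gauss.Basic Fermat.Agent.S18.Gauss.Residue

variable {L : Type*} [Field L] {A : ValuationSubring L}
  {F : IntermediateField L (LaurentSeries L)}

/-- **Adapter.**  `gaussSubring` / `resMap` of `Basic.lean`, for the inclusion
`φ : F → L((q))` of a subfield, satisfy the interface `IsGaussRed`. -/
theorem isGaussRed_gaussSubring {φ : F →+* LaurentSeries L}
    (hφv : ∀ x : F, φ x = (x : LaurentSeries L)) (hφ : Scalable A φ) :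
    IsGaussRed A (IsLocalRing.residue A) F (gaussSubring hφ) (resMap hφ) where
  mem_of_integral y hy := by
    rw [mem_gaussSubring_iff, hφv]
    exact isInt_incl A y
  map_integral y hy h := by
    exact resMap_of_incl hφ ⟨⟨coeffMap A.subtype y, hy⟩, h⟩ (P := y) (hφv _)
  map_eq_zero x hx := by
    rw [resMap_eq_zero_iff, ValuationSubring.valuation_lt_one_iff]
    exact hx
  surj := IsLocalRing.residue_surjective

/-- The same for `φ = F.val`. -/
theorem isGaussRed_val (hφ : Scalable A (F.val : F →+* LaurentSeries L)) :
    IsGaussRed A (IsLocalRing.residue A) F (gaussSubring hφ) (resMap hφ) :=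
  isGaussRed_gaussSubring (fun _ => rfl) hφ

end Fermat.Agent.S18.Gauss.Adapter
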