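import Mathlib
import Fermat.Agent.S28.ExportFinal
import Fermat.Agent.S28.CoreFinal
import Fermat.Agent.S28.CoreField
import Fermat.Agent.S18.Gauss.IndepK
import Fermat.Agent.S18.Trans.ConstK

/-!
# S18, block D, leaf D2e: the special fibre function field is finite separable over `k(j̄)`

For a prime `ℓ`, a level `N` with `ℓ ∤ N` and **any** field `k` of characteristic `ℓ`, the field
`F_{N,k} = modularFunctionFieldFullC k N = k(j̄(q^d) : d ∣ N) ⊆ k((q))` is finite and separable over
`k(j̄)`: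

* `exists_PhiFl` : the modular polynomial `Φ_d mod ℓ ∈ 𝔽_ℓ[X][Y]` (reduction of `S28`'s `E1`);
* `separable_PhiFl` : `Φ_d(j̄, Y)` is a separable polynomial over `𝔽_ℓ((q))`: over the residue field
  `kRes ℓ` it splits into distinct linear factors in `k((q^{1/d}))` (`S28` `ConjSystem`,
  `CoreField.x_injective`) and it is the unique monic relation of its degree (`S28` `C1`);
* `isIntegral_jd`, `isSeparable_jd` : `j̄(q^d)` is integral and separable over `k(j̄)`;
* **`finiteDimensional_full`, `isSeparable_full`** : the two instances consumed by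
  `Trans.constK_of`.
-/

set_option autoImplicit false

namespace Fermat.Agent.S18.Gauss.Separable

open ModularCurve Polynomial IntermediateField
open Fermat.Agent.S28 Fermat.Agent.S28.Export Fermat.Agent.S28.Defs Fermat.Agent.S28.CoeffRing
open Fermat.Agent.S18.Trans

noncomputable section

variable (ℓ : ℕ) [Fact ℓ.Prime]

/-! ### the modular polynomial modulo `ℓ` -/

/-- the reduction mod `ℓ` of the modular polynomial of level `d`, `ℓ ∤ d`. -/
theorem exists_PhiFl (d : ℕ) [NeZero d] (hℓd : ¬ ℓ ∣ d) :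
    ∃ Φ₀ : Polynomial (Polynomial (ZMod ℓ)), Φ₀.Monic ∧ Φ₀.natDegree = dedekindPsi d ∧
      ev2 (ZMod ℓ) d Φ₀ = 0 := by
  obtain ⟨Φ, hmon, hdeg, hΦ⟩ := ExportFinal.E1' d ℓ hℓd
  rw [eval₂_evZl] at hΦ
  have h1 : coeffMap (GaloisRep.ratLocalizedAt ℓ).subtype (ev2 (ZlBasics.Zl ℓ) d Φ) = 0 := by
    rw [coeffMap_ev2]
    exact hΦ
  have h2 : ev2 (ZlBasics.Zl ℓ) d Φ = 0 :=
    coeffMap_injective _ Subtype.coe_injective (h1.trans (map_zero _).symm)
  refine ⟨Φ.map (Polynomial.mapRingHom (ZlBasics.res ℓ)), hmon.map _, ?_, ?_⟩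
  · rw [hmon.natDegree_map, hdeg]
  · rw [← coeffMap_ev2, h2, map_zero]

/-! ### separability over `𝔽_ℓ((q))` -/

section Sep

variable (d : ℕ) [NeZero d]

/-- `transfer` on `ev1`. -/
theorem transfer_ev1 {k₀ k : Type} [Field k₀] [Field k] (ι : k₀ →+* k) (p : Polynomial k₀) :
    ExportE2.transfer ι d (ev1 k₀ p) = evalJt k d (p.map ι) := by
  rw [ev1_eq_aeval, ExportE2.transfer_aeval]

theorem transfer_comp_ev1 {k₀ k : Type} [Field k₀] [Field k] (ι : k₀ →+* k) :
    (ExportE2.transfer ι d).comp (ev1 k₀) = (evalJt k d).comp (Polynomial.mapRingHom ι) :=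
  RingHom.ext fun p => transfer_ev1 d ι p

/-- a relation in the `q`-variable over `k₀` gives one in the `t`-variable over `k`. -/
theorem eval₂_evalJt_of_ev2 {k₀ k : Type} [Field k₀] [Field k] (ι : k₀ →+* k)
    (G : Polynomial (Polynomial k₀)) (hG : ev2 k₀ d G = 0) :
    (G.map (Polynomial.mapRingHom ι)).eval₂ (evalJt k d) (jNt k d) = 0 := by
  rw [Polynomial.eval₂_map, ← transfer_comp_ev1, ← ExportE2.transfer_jqN ι d,
    ← Polynomial.hom_eval₂, ← ev2_apply, hG, map_zero]

variable {ℓ d}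

/-- **`Φ_d(j̄, Y)` is separable over `𝔽_ℓ((q))`.** -/
theorem separable_PhiFl (hℓd : ¬ ℓ ∣ d) {Φ₀ : Polynomial (Polynomial (ZMod ℓ))} (hmon : Φ₀.Monic)
    (hdeg : Φ₀.natDegree = dedekindPsi d) (h0 : ev2 (ZMod ℓ) d Φ₀ = 0) :
    (Φ₀.map (ev1 (ZMod ℓ))).Separable := by
  classical
  set ι : ZMod ℓ →+* kRes ℓ := ZMod.castHom (dvd_refl ℓ) (kRes ℓ) with hι
  set S' : ConjSystem (kRes ℓ) d (Fermat.Agent.S20.Q d) :=
    MapSys.map (red ℓ) (ConjU.conjSystem d ℓ hℓd)
      (fun ζ ζ' hζ hζ' h => red_injOn_roots ℓ hℓd hζ hζ' h) with hS'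
  have hdegS : S'.Φ.natDegree = dedekindPsi d := by
    rw [Core.natDegree_Φ S', Core.card_Q]
  -- uniqueness of the monic relation of degree `ψ(d)` over `kRes ℓ`
  have huniq : Φ₀.map (Polynomial.mapRingHom ι) = S'.Φ := by
    set G : Polynomial (Polynomial (kRes ℓ)) := Φ₀.map (Polynomial.mapRingHom ι) with hG
    have hGmon : G.Monic := hmon.map _
    have hGdeg : G.natDegree = dedekindPsi d := by rw [hG, hmon.natDegree_map, hdeg]
    have hGev : G.eval₂ (evalJt (kRes ℓ) d) (jNt (kRes ℓ) d) = 0 :=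
      eval₂_evalJt_of_ev2 d ι Φ₀ h0
    have hSev : S'.Φ.eval₂ (evalJt (kRes ℓ) d) (jNt (kRes ℓ) d) = 0 := Core.eval₂_Φ S'
    by_contra hne
    have hsub : G - S'.Φ ≠ 0 := sub_ne_zero.mpr hne
    have hlt : (G - S'.Φ).natDegree < dedekindPsi d := by
      rw [← hGdeg]
      refine Polynomial.natDegree_lt_natDegree hsub ?_
      refine Polynomial.degree_sub_lt_left ?_ hGmon.ne_zero ?_
      · rw [Polynomial.degree_eq_natDegree hGmon.ne_zero,
          Polynomial.degree_eq_natDegree S'.hΦ_monic.ne_zero, hGdeg, hdegS]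
      · rw [hGmon.leadingCoeff, S'.hΦ_monic.leadingCoeff]
    have hev : (G - S'.Φ).eval₂ (evalJt (kRes ℓ) d) (jNt (kRes ℓ) d) = 0 := by
      rw [Polynomial.eval₂_sub, hGev, hSev, sub_zero]
    exact hsub (CoreFinal.C1 d ℓ hℓd _ hlt hev)
  have hmap : (Φ₀.map (ev1 (ZMod ℓ))).map (ExportE2.transfer ι d) =
      ∏ s : Fermat.Agent.S20.Q d, (X - C (S'.x s)) := by
    rw [Polynomial.map_map, transfer_comp_ev1, ← Polynomial.map_map, huniq, S'.hΦ]
  have hsep : ((Φ₀.map (ev1 (ZMod ℓ))).map (ExportE2.transfer ι d)).Separable := by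
    rw [hmap]
    exact Polynomial.separable_prod_X_sub_C_iff.mpr (CoreField.x_injective S')
  exact (Polynomial.separable_map (ExportE2.transfer ι d)).mp hsep

end Sep

/-! ### over an arbitrary field of characteristic `ℓ` -/

section OverK

set_option synthInstance.maxHeartbeats 400000

variable {ℓ}
variable (k : Type*) [Field k] [CharP k ℓ] (N : ℕ) [NeZero N] (d : ℕ) [NeZero d]

/-- the generator `j̄(q^d)` of `F_{N,k}`. -/
def jdBar (hd : d ∣ N) : modularFunctionFieldFullC k N :=
  ⟨qExpand k d (jqModC k), jqModCd_mem_full k N hd⟩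

/-- `j̄` as an element of `k(j̄) ⊆ F_{N,k}`. -/
def jE : (k⟮jBar k N⟯ : IntermediateField k (modularFunctionFieldFullC k N)) :=
  ⟨jBar k N, mem_adjoin_simple_self k _⟩

/-- the embedding `k(j̄) → k((q))`. -/
def inclE : (k⟮jBar k N⟯ : IntermediateField k (modularFunctionFieldFullC k N)) →+*
    LaurentSeries k :=
  ((modularFunctionFieldFullC k N).val.toRingHom).comp
    ((k⟮jBar k N⟯ : IntermediateField k (modularFunctionFieldFullC k N)).val.toRingHom)

/-- evaluation `k[X] → k(j̄)`, `X ↦ j̄`. -/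
def evE : Polynomial k →+* (k⟮jBar k N⟯ : IntermediateField k (modularFunctionFieldFullC k N)) :=
  (Polynomial.aeval (jE k N)).toRingHom

set_option linter.unusedSimpArgs false in
omit [NeZero N] in
theorem inclE_comp_evE : (inclE k N).comp (evE k N) = ev1 k := by
  refine Polynomial.ringHom_ext (fun c => ?_) ?_
  · simp only [RingHom.comp_apply, evE, AlgHom.toRingHom_eq_coe, RingHom.coe_coe, aeval_C,
      ev1_C]
    show ((algebraMap k (k⟮jBar k N⟯ : IntermediateField k (modularFunctionFieldFullC k N)) c :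
      modularFunctionFieldFullC k N) : LaurentSeries k) = HahnSeries.C c
    rw [← algebraMap_eq_C]
    rfl
  · simp only [RingHom.comp_apply, evE, AlgHom.toRingHom_eq_coe, RingHom.coe_coe, aeval_X,
      ev1_X]
    rfl

variable {k N d}

omit [NeZero N] in
/-- the polynomial over `k(j̄)` killing `j̄(q^d)`. -/
theorem exists_sep_poly (hℓN : ¬ ℓ ∣ N) (hd : d ∣ N) :
    ∃ g : Polynomial (k⟮jBar k N⟯ : IntermediateField k (modularFunctionFieldFullC k N)),
      g.Monic ∧ g.Separable ∧ Polynomial.aeval (jdBar k N d hd) g = 0 := by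
  have hℓd : ¬ ℓ ∣ d := fun h => hℓN (h.trans hd)
  obtain ⟨Φ₀, hmon, hdeg, h0⟩ := exists_PhiFl ℓ d hℓd
  have hsep₀ := separable_PhiFl hℓd hmon hdeg h0
  let _ : Algebra (ZMod ℓ) k := ZMod.algebra k ℓ
  set ιk : ZMod ℓ →+* k := algebraMap (ZMod ℓ) k with hιk
  set Φk : Polynomial (Polynomial k) := Φ₀.map (Polynomial.mapRingHom ιk) with hΦk
  have hev : ev2 k d Φk = 0 := by
    rw [hΦk, ← coeffMap_ev2, h0, map_zero]
  -- separability of `Φ_k(j̄, Y)` over `k((q))`
  have hcomp : (coeffMap ιk).comp (ev1 (ZMod ℓ)) = (ev1 k).comp (Polynomial.mapRingHom ιk) :=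
    RingHom.ext fun p => coeffMap_ev1 ιk p
  have hsepk : (Φk.map (ev1 k)).Separable := by
    have : Φk.map (ev1 k) = (Φ₀.map (ev1 (ZMod ℓ))).map (coeffMap ιk) := by
      rw [hΦk, Polynomial.map_map, Polynomial.map_map, hcomp]
    rw [this]
    exact (Polynomial.separable_map (coeffMap ιk)).mpr hsep₀
  refine ⟨Φk.map (evE k N), (hmon.map _).map _, ?_, ?_⟩
  · have : (Φk.map (evE k N)).map (inclE k N) = Φk.map (ev1 k) := by
      rw [Polynomial.map_map, inclE_comp_evE]
    exact (Polynomial.separable_map (inclE k N)).mp (this ▸ hsepk)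
  · apply Subtype.ext
    show ((Polynomial.aeval (jdBar k N d hd) (Φk.map (evE k N)) : modularFunctionFieldFullC k N) :
      LaurentSeries k) = 0
    have h1 : ((Polynomial.aeval (jdBar k N d hd) (Φk.map (evE k N)) :
        modularFunctionFieldFullC k N) : LaurentSeries k) =
        (Φk.map (evE k N)).eval₂ (inclE k N) (qExpand k d (jqModC k)) := by
      rw [Polynomial.aeval_def]
      exact Polynomial.hom_eval₂ _ _ (modularFunctionFieldFullC k N).val.toRingHom _
    rw [h1, Polynomial.eval₂_map, inclE_comp_evE]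
    exact hev

omit [NeZero N] in
theorem isIntegral_jd (hℓN : ¬ ℓ ∣ N) (hd : d ∣ N) :
    IsIntegral (k⟮jBar k N⟯ : IntermediateField k (modularFunctionFieldFullC k N))
      (jdBar k N d hd) := by
  obtain ⟨g, hg, -, h0⟩ := exists_sep_poly (ℓ := ℓ) (k := k) (N := N) (d := d) hℓN hd
  refine ⟨g, hg, ?_⟩
  rw [← Polynomial.aeval_def]
  exact h0

omit [NeZero N] in
theorem isSeparable_jd (hℓN : ¬ ℓ ∣ N) (hd : d ∣ N) :
    IsSeparable (k⟮jBar k N⟯ : IntermediateField k (modularFunctionFieldFullC k N))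
      (jdBar k N d hd) := by
  obtain ⟨g, -, hg, h0⟩ := exists_sep_poly (ℓ := ℓ) (k := k) (N := N) (d := d) hℓN hd
  exact hg.of_dvd (minpoly.dvd _ _ h0)

end OverK

/-! ### the two instances for `Trans.constK_of` -/

section Full

set_option synthInstance.maxHeartbeats 400000
set_option maxHeartbeats 1000000

variable {ℓ}
variable (k : Type*) [Field k] [CharP k ℓ] (N : ℕ) [NeZero N]

/-- the generators `j̄(q^d)`, `d ∣ N`, of `F_{N,k}`. -/
def gens : Set (modularFunctionFieldFullC k N) :=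
  {x | ∃ (d : ℕ) (_ : NeZero d) (hd : d ∣ N), x = jdBar k N d hd}

omit [CharP k ℓ] in
theorem finite_gens : (gens k N).Finite := by
  classical
  have hne : ∀ d : N.divisors, NeZero (d : ℕ) := fun d =>
    ⟨(Nat.pos_of_mem_divisors d.2).ne'⟩
  refine (Set.finite_range (fun d : N.divisors =>
    @jdBar k _ N (d : ℕ) (hne d) (Nat.dvd_of_mem_divisors d.2))).subset ?_
  rintro x ⟨d, hd0, hd, rfl⟩
  exact ⟨⟨d, Nat.mem_divisors.mpr ⟨hd, NeZero.ne N⟩⟩, rfl⟩

omit [CharP k ℓ] [NeZero N] in
theorem adjoin_gens_eq_top :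
    IntermediateField.adjoin
      (k⟮jBar k N⟯ : IntermediateField k (modularFunctionFieldFullC k N)) (gens k N) = ⊤ := by
  rw [eq_top_iff]
  rintro ⟨y, hy⟩ -
  induction hy using IntermediateField.adjoin_induction with
  | mem y hy =>
    obtain ⟨d, hd0, hd, rfl⟩ := hy
    exact IntermediateField.subset_adjoin _ _ ⟨d, hd0, hd, rfl⟩
  | algebraMap c =>
    have : (⟨algebraMap k (LaurentSeries k) c, (modularFunctionFieldFullC k N).algebraMap_mem c⟩ :
        modularFunctionFieldFullC k N) =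
        algebraMap (k⟮jBar k N⟯ : IntermediateField k (modularFunctionFieldFullC k N))
          (modularFunctionFieldFullC k N) (algebraMap k _ c) := rfl
    rw [this]
    exact IntermediateField.algebraMap_mem _ _
  | add x y hx hy h₁ h₂ =>
    have : (⟨x + y, add_mem hx hy⟩ : modularFunctionFieldFullC k N) = ⟨x, hx⟩ + ⟨y, hy⟩ := rfl
    rw [this]
    exact add_mem h₁ h₂
  | inv x hx h =>
    have : (⟨x⁻¹, inv_mem hx⟩ : modularFunctionFieldFullC k N) =
        (⟨x, hx⟩ : modularFunctionFieldFullC k N)⁻¹ := rfl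
    rw [this]
    exact inv_mem h
  | mul x y hx hy h₁ h₂ =>
    have : (⟨x * y, mul_mem hx hy⟩ : modularFunctionFieldFullC k N) = ⟨x, hx⟩ * ⟨y, hy⟩ := rfl
    rw [this]
    exact mul_mem h₁ h₂

variable {k N}

/-- **`F_{N,k}` is finite over `k(j̄)`** (`ℓ ∤ N`, any field `k` of characteristic `ℓ`). -/
theorem finiteDimensional_full (hℓN : ¬ ℓ ∣ N) :
    FiniteDimensional (IntermediateField.adjoin k {jBar k N})
      (modularFunctionFieldFullC k N) := by
  have : Finite (gens k N) := (finite_gens k N).to_subtype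
  have h1 : FiniteDimensional
      (k⟮jBar k N⟯ : IntermediateField k (modularFunctionFieldFullC k N))
      (IntermediateField.adjoin
        (k⟮jBar k N⟯ : IntermediateField k (modularFunctionFieldFullC k N)) (gens k N)) := by
    refine IntermediateField.finiteDimensional_adjoin ?_
    rintro x ⟨d, hd0, hd, rfl⟩
    exact isIntegral_jd (ℓ := ℓ) hℓN hd
  rw [adjoin_gens_eq_top] at h1
  exact LinearEquiv.finiteDimensional
    (IntermediateField.topEquiv (F := (k⟮jBar k N⟯ :
      IntermediateField k (modularFunctionFieldFullC k N)))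
      (E := modularFunctionFieldFullC k N)).toLinearEquiv

omit [NeZero N] in
/-- **`F_{N,k}` is separable over `k(j̄)`** (`ℓ ∤ N`, any field `k` of characteristic `ℓ`). -/
theorem isSeparable_full (hℓN : ¬ ℓ ∣ N) :
    Algebra.IsSeparable (IntermediateField.adjoin k {jBar k N})
      (modularFunctionFieldFullC k N) := by
  have h1 : Algebra.IsSeparable
      (k⟮jBar k N⟯ : IntermediateField k (modularFunctionFieldFullC k N))
      (IntermediateField.adjoin
        (k⟮jBar k N⟯ : IntermediateField k (modularFunctionFieldFullC k N)) (gens k N)) := by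
    rw [IntermediateField.isSeparable_adjoin_iff_isSeparable]
    rintro x ⟨d, hd0, hd, rfl⟩
    exact isSeparable_jd (ℓ := ℓ) hℓN hd
  rw [adjoin_gens_eq_top] at h1
  exact Algebra.IsSeparable.of_algHom _ _
    (IntermediateField.topEquiv (F := (k⟮jBar k N⟯ :
      IntermediateField k (modularFunctionFieldFullC k N)))
      (E := modularFunctionFieldFullC k N)).symm.toAlgHom

end Full

end

end Fermat.Agent.S18.Gauss.Separable
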