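import Mathlib
import Fermat.Agent.S18.Gauss.Residue
import Fermat.Agent.S18.Gauss.Separable

/-!
# S18, block D, leaf D2d: the residue field of a Gauss-type valuation is `F_{M,k}`

Under the interface `Residue.IsGaussRed A π F O' ρ` (block D1), for `ℓ ∤ M`, `char k = ℓ`,
`[F : K(J)] = ψ(M)` and `F ∋ j(q^d)` for all `d ∣ M`:

* `exists_map_eq_of_mem_full`, `map_mem_full` : `Set.range ρ = modularFunctionFieldFullC k M`;
* `full_eq_modularFunctionFieldC` : `k(j̄(q^d) : d ∣ M) = k(j̄, j̄_M)`;
* `finrank_full` : `[F_{M,k} : k(j̄)] = ψ(M)`, with basis `1, j̄_M, …, j̄_M^{ψ(M)-1}`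
  (`linearIndependent_pow`, `span_pow_eq_top`).
-/

set_option autoImplicit false

namespace Fermat.Agent.S18.Gauss.ResidueField

open ModularCurve Polynomial IntermediateField
open Fermat.Agent.S28.Export Fermat.Agent.S18.Gauss.Residue Fermat.Agent.S18.Gauss.Separable
open Fermat.Agent.S18.Trans

noncomputable section

variable {K : Type*} [Field K] {A : ValuationSubring K} {k : Type*} [Field k] {π : A →+* k}
  {F : IntermediateField K (LaurentSeries K)} {O' : ValuationSubring F}
  {ρ : O' →+* LaurentSeries k}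

section Range

variable (hG : IsGaussRed A π F O' ρ)
include hG

/-- the generators `j(q^d)` lie in `O'` and reduce to `j̄(q^d)`. -/
theorem exists_map_eq_qExpand (d : ℕ) [NeZero d] (hd : qExpand K d (jqModC K) ∈ F) :
    ∃ x : O', ρ x = qExpand k d (jqModC k) := by
  have hy : coeffMap A.subtype (qExpand A d (jqModC A)) ∈ F := by
    rw [coeffMap_qExpand, coeffMap_jqModC]; exact hd
  refine ⟨⟨⟨_, hy⟩, hG.mem_of_integral _ hy⟩, ?_⟩
  rw [hG.map_integral _ hy, coeffMap_qExpand, coeffMap_jqModC]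

/-- constants are in the range of `ρ`. -/
theorem exists_map_eq_C (c : k) : ∃ x : O', ρ x = HahnSeries.C c := by
  obtain ⟨a, rfl⟩ := hG.surj c
  exact ⟨⟨_, hG.algebraMap_mem a⟩, hG.map_algebraMap a⟩

/-- the range of `ρ` is closed under inversion. -/
theorem exists_map_eq_inv (x : O') : ∃ y : O', ρ y = (ρ x)⁻¹ := by
  by_cases h0 : ρ x = 0
  · exact ⟨0, by rw [h0, inv_zero, map_zero]⟩
  have hv : O'.valuation (x : F) = 1 := hG.valuation_eq_one_of_map_ne_zero h0
  have hx0 : (x : F) ≠ 0 := by
    intro h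
    rw [h, map_zero] at hv
    exact zero_ne_one hv
  have hinv : (x : F)⁻¹ ∈ O' := by
    rw [← ValuationSubring.valuation_le_one_iff, map_inv₀, hv, inv_one]
  refine ⟨⟨_, hinv⟩, ?_⟩
  have hmul : x * ⟨(x : F)⁻¹, hinv⟩ = 1 := Subtype.ext (mul_inv_cancel₀ hx0)
  have := congrArg ρ hmul
  rw [map_mul, map_one] at this
  exact eq_inv_of_mul_eq_one_right this

/-- every element of `F_{M,k}` is a reduction, provided `F ∋ j(q^d)` for `d ∣ M`. -/
theorem exists_map_eq_of_mem_full {M : ℕ}
    (hJd : ∀ (d : ℕ) [NeZero d], d ∣ M → qExpand K d (jqModC K) ∈ F)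
    {y : LaurentSeries k} (hy : y ∈ modularFunctionFieldFullC k M) : ∃ x : O', ρ x = y := by
  induction hy using IntermediateField.adjoin_induction with
  | mem y hy =>
    obtain ⟨d, hd0, hd, rfl⟩ := hy
    exact exists_map_eq_qExpand hG d (hJd d hd)
  | algebraMap c =>
    rw [algebraMap_eq_C]
    exact exists_map_eq_C hG c
  | add x y _ _ h₁ h₂ =>
    obtain ⟨x₁, rfl⟩ := h₁
    obtain ⟨x₂, rfl⟩ := h₂
    exact ⟨x₁ + x₂, map_add _ _ _⟩
  | inv x _ h =>
    obtain ⟨x₁, rfl⟩ := h
    exact exists_map_eq_inv hG x₁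
  | mul x y _ _ h₁ h₂ =>
    obtain ⟨x₁, rfl⟩ := h₁
    obtain ⟨x₂, rfl⟩ := h₂
    exact ⟨x₁ * x₂, map_mul _ _ _⟩

end Range

section Degree

set_option synthInstance.maxHeartbeats 400000
set_option maxHeartbeats 1000000

variable (hG : IsGaussRed A π F O' ρ) (hJ : jqModC K ∈ F) {M : ℕ} [NeZero M]
  (hJM : jqNModC K M ∈ F) {ℓ : ℕ} [Fact ℓ.Prime] [CharP k ℓ] (hℓM : ¬ ℓ ∣ M)
  (hdeg : Module.finrank K⟮Jel hJ⟯ F = dedekindPsi M)
  (hJd : ∀ (d : ℕ) [NeZero d], d ∣ M → qExpand K d (jqModC K) ∈ F)

include hG hJM hℓM hdeg in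
/-- `ρ` takes values in `F_{M,k}`. -/
theorem map_mem_full (x : O') : ρ x ∈ modularFunctionFieldFullC k M :=
  modularFunctionFieldC_le_full k M (hG.map_mem_modularFunctionFieldC hJ hJM hℓM hdeg x)

include hG hJM hℓM hdeg hJd in
/-- **the residue field of the Gauss valuation is `F_{M,k}`.** -/
theorem range_eq : Set.range ρ = (modularFunctionFieldFullC k M : Set (LaurentSeries k)) := by
  ext y
  constructor
  · rintro ⟨x, rfl⟩
    exact map_mem_full hG hJ hJM hℓM hdeg x
  · intro hy
    exact exists_map_eq_of_mem_full hG hJd hy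

include hG hJM hℓM hdeg hJd in
/-- `k(j̄(q^d) : d ∣ M) = k(j̄, j̄_M)`. -/
theorem full_eq_modularFunctionFieldC :
    modularFunctionFieldFullC k M = modularFunctionFieldC k M := by
  apply le_antisymm
  · intro y hy
    obtain ⟨x, rfl⟩ := exists_map_eq_of_mem_full hG hJd hy
    exact hG.map_mem_modularFunctionFieldC hJ hJM hℓM hdeg x
  · exact modularFunctionFieldC_le_full k M

/-! #### the degree over `k(j̄)` -/

omit [NeZero M] in
theorem inclE_evE (p : Polynomial k) : inclE k M (evE k M p) = ev1 k p :=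
  congrFun (congrArg DFunLike.coe (inclE_comp_evE k M)) p

omit [NeZero M] in
theorem inclE_injective : Function.Injective (inclE k M) := (inclE k M).injective

omit [NeZero M] in
/-- elements of `k(j̄)` are quotients of polynomials in `j̄`. -/
theorem exists_ev1_of_E (e : (k⟮jBar k M⟯ : IntermediateField k (modularFunctionFieldFullC k M))) :
    ∃ P Q : Polynomial k, Q ≠ 0 ∧ inclE k M e * ev1 k Q = ev1 k P := by
  obtain ⟨r, s, hrs⟩ := (IntermediateField.mem_adjoin_simple_iff k
    (e : modularFunctionFieldFullC k M)).mp e.2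
  have hcoe : ∀ p : Polynomial k,
      (((evE k M p : (k⟮jBar k M⟯ : IntermediateField k (modularFunctionFieldFullC k M))) :
        modularFunctionFieldFullC k M)) = Polynomial.aeval (jBar k M) p := by
    intro p
    have := Polynomial.aeval_algHom_apply
      (k⟮jBar k M⟯ : IntermediateField k (modularFunctionFieldFullC k M)).val (jE k M) p
    exact this.symm
  by_cases hs : Polynomial.aeval (jBar k M) s = 0
  · refine ⟨0, 1, one_ne_zero, ?_⟩
    have he : e = 0 := by
      apply Subtype.ext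
      rw [hrs, hs, div_zero]
      rfl
    rw [he, map_zero, zero_mul, map_zero]
  · have hs0 : s ≠ 0 := fun h => hs (by rw [h, map_zero])
    refine ⟨r, s, hs0, ?_⟩
    have he : e * evE k M s = evE k M r := by
      apply Subtype.ext
      show (e : modularFunctionFieldFullC k M) * ((evE k M s :
        (k⟮jBar k M⟯ : IntermediateField k (modularFunctionFieldFullC k M))) :
          modularFunctionFieldFullC k M) = _
      rw [hcoe, hcoe, hrs, div_mul_cancel₀ _ hs]
    have := congrArg (inclE k M) he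
    rwa [map_mul, inclE_evE, inclE_evE] at this

omit [NeZero M] in
theorem exists_E_of_ev1 {c : LaurentSeries k} {P Q : Polynomial k} (hQ : Q ≠ 0)
    (h : c * ev1 k Q = ev1 k P) :
    ∃ e : (k⟮jBar k M⟯ : IntermediateField k (modularFunctionFieldFullC k M)),
      inclE k M e = c := by
  refine ⟨evE k M P / evE k M Q, ?_⟩
  rw [map_div₀, inclE_evE, inclE_evE, ← h, mul_div_cancel_right₀ _ (ev1_ne_zero hQ)]

/-- the powers of `j̄_M` in `F_{M,k}`. -/
def powFam (k : Type*) [Field k] (M : ℕ) [NeZero M] :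
    Fin (dedekindPsi M) → modularFunctionFieldFullC k M :=
  fun i => jdBar k M M dvd_rfl ^ (i : ℕ)

theorem coe_sum_smul
    (g : Fin (dedekindPsi M) →
      (k⟮jBar k M⟯ : IntermediateField k (modularFunctionFieldFullC k M))) :
    ((∑ i, g i • powFam k M i : modularFunctionFieldFullC k M) : LaurentSeries k) =
      ∑ i, inclE k M (g i) * jqNModC k M ^ (i : ℕ) := by
  rw [AddSubmonoidClass.coe_finsetSum]
  refine Finset.sum_congr rfl fun i _ => ?_
  rfl

include hℓM in
/-- `1, j̄_M, …, j̄_M^{ψ(M)-1}` are linearly independent over `k(j̄)`. -/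
theorem linearIndependent_pow :
    LinearIndependent (k⟮jBar k M⟯ : IntermediateField k (modularFunctionFieldFullC k M))
      (powFam k M) := by
  rw [Fintype.linearIndependent_iff]
  intro g hg i
  have h1 := congrArg (fun z : modularFunctionFieldFullC k M => (z : LaurentSeries k)) hg
  simp only [coe_sum_smul] at h1
  have hex : ∀ j, ∃ P Q : Polynomial k, Q ≠ 0 ∧ inclE k M (g j) * ev1 k Q = ev1 k P :=
    fun j => exists_ev1_of_E (g j)
  choose P Q hQ hPQ using hex
  have := eq_zero_of_sum_quot hℓM (fun j => inclE k M (g j)) P Q hQ hPQ h1 i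
  exact inclE_injective (this.trans (map_zero _).symm)

include hG hJM hℓM hdeg hJd in
/-- and they span `F_{M,k}`. -/
theorem span_pow_eq_top :
    Submodule.span (k⟮jBar k M⟯ : IntermediateField k (modularFunctionFieldFullC k M))
      (Set.range (powFam k M)) = ⊤ := by
  rw [eq_top_iff]
  rintro y -
  obtain ⟨x, hx⟩ := exists_map_eq_of_mem_full hG hJd y.2
  obtain ⟨c, P, Q, hQ, hPQ, hrepr⟩ := hG.exists_repr_map hJ hJM hℓM hdeg x
  have hex : ∀ j, ∃ e : (k⟮jBar k M⟯ : IntermediateField k (modularFunctionFieldFullC k M)),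
      inclE k M e = c j := fun j => exists_E_of_ev1 (hQ j) (hPQ j)
  choose e he using hex
  have hy : y = ∑ i, e i • powFam k M i := by
    apply Subtype.ext
    rw [coe_sum_smul, ← hx, hrepr]
    refine Finset.sum_congr rfl fun i _ => ?_
    rw [he]
  rw [hy]
  exact Submodule.sum_mem _ fun i _ =>
    Submodule.smul_mem _ _ (Submodule.subset_span ⟨i, rfl⟩)

include hG hJM hℓM hdeg hJd in
/-- **`[F_{M,k} : k(j̄)] = ψ(M)`.** -/
theorem finrank_full :
    Module.finrank (k⟮jBar k M⟯ : IntermediateField k (modularFunctionFieldFullC k M))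
      (modularFunctionFieldFullC k M) = dedekindPsi M := by
  have hb := Module.Basis.mk (linearIndependent_pow (k := k) (M := M) hℓM)
    (span_pow_eq_top hG hJ hJM hℓM hdeg hJd).ge
  rw [Module.finrank_eq_card_basis hb, Fintype.card_fin]

end Degree

end

end Fermat.Agent.S18.Gauss.ResidueField
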