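import Mathlib
import Fermat.Agent.S18.Gauss.Residue
import Fermat.Agent.S18.Gauss.ResidueField
import Fermat.Agent.S18.Haupt.DegreeRat

/-!
# S18, block D, leaf D3c: the concrete field `laurentBaseChange L (modularFunctionFieldFull M)`

For ANY field `L` of characteristic zero (`[Algebra ℚ L]`) and
`FL := laurentBaseChange L (modularFunctionFieldFull M) ⊆ L((q))` we discharge the hypotheses
`hJ`, `hJM`, `hJd`, `hdeg` of `Gauss/Residue.lean` and `Gauss/ResidueField.lean`:

* `jqModC_mem`, `jqNModC_mem`, `qExpand_jqModC_mem` : `j(q)`, `j(q^M)`, `j(q^d)` (`d ∣ M`) lie in `FL`;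
* `linearIndependent_pow` / `span_pow_eq_top` : `1, J_M, …, J_M^{ψ(M)-1}` is a basis of `FL`
  over `L(J)`;
* `finrank_eq_psi` : `[FL : L(J)] = ψ(M)` (the `hdeg` of `Residue.eq_of_comap_eq`);
* for every Gauss-type pair `(O', ρ)` on `FL` (`IsGaussRed`), residue characteristic `ℓ ∤ M`:
  `eq_of_comap_eq` (unique extension from `L(J)`), `exists_mul_unit` (`e = 1`),
  `range_eq` (`range ρ = modularFunctionFieldFullC k M`), `finrank_full`.
-/

set_option autoImplicit false

namespace Fermat.Agent.S18.Gauss.Concrete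

open ModularCurve Polynomial IntermediateField
open Fermat.Agent.S28 Fermat.Agent.S28.RegDegree
open Fermat.Agent.S18.Gauss.Residue Fermat.Agent.S18.Haupt.DegreeRat

noncomputable section

variable (L : Type*) [Field L] [Algebra ℚ L] (M : ℕ) [NeZero M]

/-! ### membership of the generators -/

theorem coeffEmb_jq : coeffEmb L jq = jqModC L := by
  rw [← jqModC_rat, coeffEmb, coeffMap_jqModC]

omit [NeZero M] in
theorem coeffEmb_qExpand_jq (d : ℕ) [NeZero d] :
    coeffEmb L (qExpand ℚ d jq) = qExpand L d (jqModC L) := by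
  rw [coeffEmb, coeffMap_qExpand, ← coeffEmb, coeffEmb_jq]

theorem coeffEmb_jqN : coeffEmb L (jqN M) = jqNModC L M := by
  rw [jqN, coeffEmb_qExpand_jq]
  rfl

omit [NeZero M] in
theorem jqModC_mem : jqModC L ∈ laurentBaseChange L (modularFunctionFieldFull M) := by
  rw [← coeffEmb_jq]
  exact coeffEmb_mem_laurentBaseChange L (jq_mem_full' M)

omit [NeZero M] in
theorem qExpand_jqModC_mem (d : ℕ) [NeZero d] (hd : d ∣ M) :
    qExpand L d (jqModC L) ∈ laurentBaseChange L (modularFunctionFieldFull M) := by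
  rw [← coeffEmb_qExpand_jq]
  exact coeffEmb_mem_laurentBaseChange L (jqd_mem_full M hd)

theorem jqNModC_mem : jqNModC L M ∈ laurentBaseChange L (modularFunctionFieldFull M) := by
  rw [← coeffEmb_jqN]
  exact coeffEmb_mem_laurentBaseChange L (jqN_mem_full M)

/-! ### `J` is transcendental, regularity -/

omit [NeZero M] in
theorem transcendental_Jel : Transcendental L (Jel (jqModC_mem L M)) := by
  intro halg
  obtain ⟨p, hp0, hp⟩ := halg
  have h := congrArg
    (fun x : ↥(laurentBaseChange L (modularFunctionFieldFull M)) => (x : LaurentSeries L)) hp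
  simp only [ZeroMemClass.coe_zero] at h
  rw [coe_aeval_Jel] at h
  exact ev1_ne_zero hp0 h

/-- the element of `FL` with expansion `coeffEmb L x`, `x ∈ F_M`. -/
def emb (x : LaurentSeries ℚ) (hx : x ∈ modularFunctionFieldFull M) :
    ↥(laurentBaseChange L (modularFunctionFieldFull M)) :=
  ⟨coeffEmb L x, coeffEmb_mem_laurentBaseChange L hx⟩

omit [NeZero M] in
@[simp] theorem coe_emb (x : LaurentSeries ℚ) (hx : x ∈ modularFunctionFieldFull M) :
    ((emb L M x hx : ↥(laurentBaseChange L (modularFunctionFieldFull M))) : LaurentSeries L)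
      = coeffEmb L x := rfl

omit [NeZero M] in
/-- **Regularity**: a `ℚ(j)`-linearly independent family of `F_M` stays `L(J)`-linearly
independent in `FL`. -/
theorem linearIndependent_emb {ι : Type*} (b : ι → LaurentSeries ℚ)
    (hbF : ∀ i, b i ∈ modularFunctionFieldFull M) (hb : LinearIndependent ↥ℚ⟮jq⟯ b) :
    LinearIndependent ↥L⟮Jel (jqModC_mem L M)⟯ (fun i => emb L M (b i) (hbF i)) := by
  have hb1 : PolyIndep ℚ jq b :=
    (linearIndependent_adjoin_iff_polyIndep ℚ jq transcendental_jq b).mp hb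
  have hb2 := linearIndependent_monomials_of_polyIndep ℚ jq b hb1
  have hb3 := linearIndependent_coeffEmb' L _ hb2
  rw [linearIndependent_adjoin_iff_polyIndep L (Jel (jqModC_mem L M)) (transcendental_Jel L M)]
  apply polyIndep_of_linearIndependent_monomials
  have hpt : ∀ p : ι × ℕ,
      (((Jel (jqModC_mem L M)) ^ p.2 * emb L M (b p.1) (hbF p.1) :
        ↥(laurentBaseChange L (modularFunctionFieldFull M))) : LaurentSeries L)
        = coeffEmb L (jq ^ p.2 * b p.1) := by
    intro p
    rw [IntermediateField.coe_mul, IntermediateField.coe_pow, coe_emb, map_mul, map_pow,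
      coeffEmb_jq]
  have hb3' := (@linearIndependent_iff' _ L (LaurentSeries L) _ _ Algebra.toModule _).mp hb3
  rw [linearIndependent_iff']
  intro s g hg p hp
  refine hb3' s g ?_ p hp
  have h1 := congrArg (IntermediateField.val (laurentBaseChange L (modularFunctionFieldFull M))) hg
  rw [map_sum, map_zero] at h1
  rw [← h1]
  refine Finset.sum_congr rfl fun p _ => ?_
  rw [Algebra.smul_def, Algebra.smul_def,
    map_mul (IntermediateField.val (laurentBaseChange L (modularFunctionFieldFull M))),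
    AlgHom.commutes]
  congr 1
  exact (hpt p).symm

/-! ### generation -/

/-- the element `J_M = j(q^M)` of `FL`. -/
abbrev JM : ↥(laurentBaseChange L (modularFunctionFieldFull M)) := JMel (jqNModC_mem L M)

theorem emb_jqN_pow (n : ℕ) :
    emb L M (jqN M ^ n) (pow_mem (jqN_mem_full M) n) = JM L M ^ n := by
  apply Subtype.ext
  rw [coe_emb, map_pow, coeffEmb_jqN, IntermediateField.coe_pow]

omit [NeZero M] in
/-- elements of `ℚ(j)` become elements of `L(J)`. -/
theorem exists_adjoin_Jel_eq (c : LaurentSeries ℚ) (hc : c ∈ ℚ⟮jq⟯) :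
    ∃ y : ↥L⟮Jel (jqModC_mem L M)⟯,
      (((y : ↥(laurentBaseChange L (modularFunctionFieldFull M))) : LaurentSeries L))
        = coeffEmb L c := by
  obtain ⟨r, s, hrs⟩ := (mem_adjoin_simple_iff ℚ c).mp hc
  have hmem : aeval (Jel (jqModC_mem L M)) (r.map (algebraMap ℚ L)) /
      aeval (Jel (jqModC_mem L M)) (s.map (algebraMap ℚ L)) ∈ L⟮Jel (jqModC_mem L M)⟯ := by
    rw [mem_adjoin_simple_iff]
    exact ⟨_, _, rfl⟩
  refine ⟨⟨_, hmem⟩, ?_⟩
  show ((aeval (Jel (jqModC_mem L M)) (r.map (algebraMap ℚ L)) /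
      aeval (Jel (jqModC_mem L M)) (s.map (algebraMap ℚ L)) :
        ↥(laurentBaseChange L (modularFunctionFieldFull M))) : LaurentSeries L) = coeffEmb L c
  rw [IntermediateField.coe_div, coe_aeval_Jel, coe_aeval_Jel, hrs, map_div₀, coeffEmb_aeval,
    coeffEmb_aeval, coeffEmb_jq, Export.ev1_eq_aeval, Export.ev1_eq_aeval]

/-- every element of `F_M`, pushed to `FL`, is an `L(J)`-combination of `1, J_M, …` -/
theorem exists_repr_emb (x : LaurentSeries ℚ) (hx : x ∈ modularFunctionFieldFull M) :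
    ∃ a : Fin (dedekindPsi M) → ↥L⟮Jel (jqModC_mem L M)⟯,
      emb L M x hx = ∑ i, a i • JM L M ^ (i : ℕ) := by
  obtain ⟨c, hc, hsum⟩ := exists_coeff_of_card_eq_psi M
    (fun i : Fin (dedekindPsi M) => jqN M ^ (i : ℕ))
    (fun i => pow_mem (jqN_mem_full M) _) (linearIndependent_pow_jqN M)
    (Fintype.card_fin _) hx
  choose a ha using fun i => exists_adjoin_Jel_eq L M (c i) (hc i)
  refine ⟨a, ?_⟩
  apply Subtype.ext
  rw [coe_emb, hsum, map_sum, AddSubmonoidClass.coe_finsetSum]
  refine Finset.sum_congr rfl fun i _ => ?_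
  rw [map_mul, map_pow, coeffEmb_jqN, ← ha i, Algebra.smul_def]
  rfl

/-! ### the degree -/

set_option synthInstance.maxHeartbeats 400000
set_option maxHeartbeats 1000000

/-- `1, J_M, …, J_M^{ψ(M)-1}` are linearly independent over `L(J)`. -/
theorem linearIndependent_pow :
    LinearIndependent ↥L⟮Jel (jqModC_mem L M)⟯
      (fun i : Fin (dedekindPsi M) => JM L M ^ (i : ℕ)) := by
  have h := linearIndependent_emb L M (fun i : Fin (dedekindPsi M) => jqN M ^ (i : ℕ))
    (fun i => pow_mem (jqN_mem_full M) _) (linearIndependent_pow_jqN M)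
  have heq : (fun i : Fin (dedekindPsi M) => JM L M ^ (i : ℕ)) =
      fun i : Fin (dedekindPsi M) => emb L M (jqN M ^ (i : ℕ)) (pow_mem (jqN_mem_full M) _) :=
    funext fun i => (emb_jqN_pow L M i).symm
  rw [heq]
  exact h

/-- `FL = L(J)(J_M)`, series form. -/
theorem exists_mem_adjoin_JM (y : LaurentSeries L)
    (hy : y ∈ laurentBaseChange L (modularFunctionFieldFull M)) :
    ∃ z : ↥(laurentBaseChange L (modularFunctionFieldFull M)),
      z ∈ (L⟮Jel (jqModC_mem L M)⟯)⟮JM L M⟯ ∧ (z : LaurentSeries L) = y := by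
  unfold laurentBaseChange at hy
  induction hy using IntermediateField.adjoin_induction with
  | mem y hy =>
    obtain ⟨x, hx, rfl⟩ := hy
    obtain ⟨a, ha⟩ := exists_repr_emb L M x hx
    refine ⟨emb L M x hx, ?_, rfl⟩
    rw [ha]
    exact sum_mem fun i _ => (L⟮Jel (jqModC_mem L M)⟯)⟮JM L M⟯.smul_mem
      (pow_mem (mem_adjoin_simple_self _ _) _)
  | algebraMap c =>
    exact ⟨algebraMap L _ c, (L⟮Jel (jqModC_mem L M)⟯)⟮JM L M⟯.algebraMap_mem
      (algebraMap L ↥L⟮Jel (jqModC_mem L M)⟯ c), rfl⟩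
  | add x y _ _ h₁ h₂ =>
    obtain ⟨z₁, hz₁, rfl⟩ := h₁
    obtain ⟨z₂, hz₂, rfl⟩ := h₂
    exact ⟨z₁ + z₂, add_mem hz₁ hz₂, rfl⟩
  | inv x _ h =>
    obtain ⟨z₁, hz₁, rfl⟩ := h
    exact ⟨z₁⁻¹, inv_mem hz₁, rfl⟩
  | mul x y _ _ h₁ h₂ =>
    obtain ⟨z₁, hz₁, rfl⟩ := h₁
    obtain ⟨z₂, hz₂, rfl⟩ := h₂
    exact ⟨z₁ * z₂, mul_mem hz₁ hz₂, rfl⟩

/-- `FL = L(J)(J_M)`. -/
theorem mem_adjoin_JM (y : ↥(laurentBaseChange L (modularFunctionFieldFull M))) :
    y ∈ (L⟮Jel (jqModC_mem L M)⟯)⟮JM L M⟯ := by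
  obtain ⟨z, hz, hzy⟩ := exists_mem_adjoin_JM L M y.1 y.2
  have : z = y := Subtype.ext hzy
  rwa [← this]

/-- `1, J_M, …, J_M^{ψ(M)-1}` span `FL` over `L(J)`. -/
theorem span_pow_eq_top :
    Submodule.span ↥L⟮Jel (jqModC_mem L M)⟯
      (Set.range fun i : Fin (dedekindPsi M) => JM L M ^ (i : ℕ)) = ⊤ := by
  set E := L⟮Jel (jqModC_mem L M)⟯ with hE
  set S := Submodule.span ↥E (Set.range fun i : Fin (dedekindPsi M) => JM L M ^ (i : ℕ)) with hS
  have hemb : ∀ x hx, emb L M x hx ∈ S := by
    intro x hx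
    obtain ⟨a, ha⟩ := exists_repr_emb L M x hx
    rw [ha]
    exact Submodule.sum_mem _ fun i _ =>
      Submodule.smul_mem _ _ (Submodule.subset_span ⟨i, rfl⟩)
  have hpow : ∀ n : ℕ, JM L M ^ n ∈ S := fun n => by
    rw [← emb_jqN_pow]
    exact hemb _ _
  have hA : ∀ y ∈ Algebra.adjoin ↥E {JM L M}, y ∈ S := by
    intro y hy
    rw [Algebra.adjoin_singleton_eq_range_aeval] at hy
    obtain ⟨p, rfl⟩ := hy
    rw [AlgHom.toRingHom_eq_coe, RingHom.coe_coe, aeval_eq_sum_range]
    exact Submodule.sum_mem _ fun n _ => Submodule.smul_mem _ _ (hpow n)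
  have hfin : FiniteDimensional ↥E ↥S := FiniteDimensional.span_of_finite ↥E (Set.finite_range _)
  have hint : IsIntegral ↥E (JM L M) := by
    have hle : Subalgebra.toSubmodule (Algebra.adjoin ↥E {JM L M}) ≤ S := hA
    have h1 : FiniteDimensional ↥E ↥(Subalgebra.toSubmodule (Algebra.adjoin ↥E {JM L M})) :=
      Submodule.finiteDimensional_of_le hle
    have h2 : Module.Finite ↥E ↥(Algebra.adjoin ↥E {JM L M}) := h1
    have h3 : IsIntegral ↥E (⟨JM L M, Algebra.self_mem_adjoin_singleton ↥E _⟩ :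
        ↥(Algebra.adjoin ↥E {JM L M})) := Algebra.IsIntegral.isIntegral _
    exact h3.map (Algebra.adjoin ↥E {JM L M}).val
  have hfield : (E⟮JM L M⟯).toSubalgebra = Algebra.adjoin ↥E {JM L M} :=
    IntermediateField.adjoin_simple_toSubalgebra_of_isAlgebraic hint.isAlgebraic
  rw [eq_top_iff]
  intro y _
  have hy : y ∈ (E⟮JM L M⟯).toSubalgebra := mem_adjoin_JM L M y
  rw [hfield] at hy
  exact hA y hy

/-- **`[FL : L(J)] = ψ(M)`** for every field `L` of characteristic zero. -/
theorem finrank_eq_psi :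
    Module.finrank ↥L⟮Jel (jqModC_mem L M)⟯ ↥(laurentBaseChange L (modularFunctionFieldFull M))
      = dedekindPsi M := by
  have b := Module.Basis.mk (linearIndependent_pow L M) (span_pow_eq_top L M).ge
  rw [Module.finrank_eq_card_basis b, Fintype.card_fin]

theorem finiteDimensional :
    FiniteDimensional ↥L⟮Jel (jqModC_mem L M)⟯
      ↥(laurentBaseChange L (modularFunctionFieldFull M)) :=
  IsGaussRed.finiteDimensional_of_finrank (jqModC_mem L M) (M := M) (finrank_eq_psi L M)

/-! ### Gauss-type valuations on `FL`: unconditional consequences -/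

section Gauss

variable {L M}
variable {A : ValuationSubring L} {k : Type*} [Field k] {π : A →+* k}
  {O' : ValuationSubring ↥(laurentBaseChange L (modularFunctionFieldFull M))}
  {ρ : O' →+* LaurentSeries k}
  (hG : IsGaussRed A π (laurentBaseChange L (modularFunctionFieldFull M)) O' ρ)
  {ℓ : ℕ} [Fact ℓ.Prime] [CharP k ℓ] (hℓM : ¬ ℓ ∣ M)

include hG hℓM

/-- residual independence of `1, J_M, …, J_M^{ψ(M)-1}` over `L(J)`. -/
theorem resIndep_pow :
    Fermat.Agent.S18.ValExt.UniqueOfResidue.ResIndep (F := ↥L⟮Jel (jqModC_mem L M)⟯) O'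
      (fun i : Fin (dedekindPsi M) => JM L M ^ (i : ℕ)) :=
  hG.resIndep_pow (jqModC_mem L M) (jqNModC_mem L M) hℓM

/-- **Unique extension**: `O'` is the only valuation subring of `FL` with its trace on
`L(J)`. -/
theorem eq_of_comap_eq
    (O'' : ValuationSubring ↥(laurentBaseChange L (modularFunctionFieldFull M)))
    (h : O''.comap (algebraMap ↥L⟮Jel (jqModC_mem L M)⟯
          ↥(laurentBaseChange L (modularFunctionFieldFull M))) =
        O'.comap (algebraMap ↥L⟮Jel (jqModC_mem L M)⟯
          ↥(laurentBaseChange L (modularFunctionFieldFull M)))) : O'' = O' :=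
  hG.eq_of_comap_eq (jqModC_mem L M) (jqNModC_mem L M) hℓM (finrank_eq_psi L M) O'' h

/-- **Unique extension over any bigger subfield** (`huniq` of `KummerDescent` / `Charts`):
if `K' → FL` is a field embedding whose image contains `L` and `J` (e.g. `K' = L(t)` for a
Hauptmodul `t`, or `K' = ` the function field of a lower level), then `O'` is the only valuation
subring of `FL` with its trace on `K'`. -/
theorem eq_of_comap_algebraMap_eq {K' : Type*} [Field K']
    [Algebra K' ↥(laurentBaseChange L (modularFunctionFieldFull M))]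
    (hL : ∀ c : L, algebraMap L ↥(laurentBaseChange L (modularFunctionFieldFull M)) c ∈
      (algebraMap K' ↥(laurentBaseChange L (modularFunctionFieldFull M))).range)
    (hJ' : Jel (jqModC_mem L M) ∈
      (algebraMap K' ↥(laurentBaseChange L (modularFunctionFieldFull M))).range)
    (O'' : ValuationSubring ↥(laurentBaseChange L (modularFunctionFieldFull M)))
    (h : O''.comap (algebraMap K' ↥(laurentBaseChange L (modularFunctionFieldFull M))) =
        O'.comap (algebraMap K' ↥(laurentBaseChange L (modularFunctionFieldFull M)))) :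
    O'' = O' := by
  apply eq_of_comap_eq hG hℓM
  let T : IntermediateField L ↥(laurentBaseChange L (modularFunctionFieldFull M)) :=
    { (algebraMap K' ↥(laurentBaseChange L (modularFunctionFieldFull M))).fieldRange with
      algebraMap_mem' := hL }
  have hT : L⟮Jel (jqModC_mem L M)⟯ ≤ T := by
    rw [adjoin_simple_le_iff]
    exact hJ'
  ext c
  rw [ValuationSubring.mem_comap, ValuationSubring.mem_comap]
  obtain ⟨c', hc'⟩ : (c : ↥(laurentBaseChange L (modularFunctionFieldFull M))) ∈ T := hT c.2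
  have hc : algebraMap ↥L⟮Jel (jqModC_mem L M)⟯
      ↥(laurentBaseChange L (modularFunctionFieldFull M)) c =
      algebraMap K' ↥(laurentBaseChange L (modularFunctionFieldFull M)) c' := hc'.symm
  rw [hc, ← ValuationSubring.mem_comap, ← ValuationSubring.mem_comap, h]

/-- the same for an intermediate field `K'` of `FL / L` containing `J`. -/
theorem eq_of_comap_eq_of_mem
    (K' : IntermediateField L ↥(laurentBaseChange L (modularFunctionFieldFull M)))
    (hJ' : Jel (jqModC_mem L M) ∈ K')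
    (O'' : ValuationSubring ↥(laurentBaseChange L (modularFunctionFieldFull M)))
    (h : O''.comap (algebraMap ↥K' ↥(laurentBaseChange L (modularFunctionFieldFull M))) =
        O'.comap (algebraMap ↥K' ↥(laurentBaseChange L (modularFunctionFieldFull M)))) :
    O'' = O' := by
  refine eq_of_comap_algebraMap_eq hG hℓM (K' := ↥K') ?_ ?_ O'' h
  · intro c
    exact ⟨algebraMap L ↥K' c, rfl⟩
  · exact ⟨⟨_, hJ'⟩, rfl⟩

/-- `e = 1` over `L(J)`. -/
theorem exists_mul_unit {x : ↥(laurentBaseChange L (modularFunctionFieldFull M))} (hx : x ≠ 0) :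
    ∃ (c : ↥L⟮Jel (jqModC_mem L M)⟯) (u : ↥(laurentBaseChange L (modularFunctionFieldFull M))),
      c ≠ 0 ∧ O'.valuation u = 1 ∧
        x = algebraMap ↥L⟮Jel (jqModC_mem L M)⟯ _ c * u :=
  hG.exists_mul_unit (jqModC_mem L M) (jqNModC_mem L M) hℓM (finrank_eq_psi L M) hx

/-- `O' = ⊕ (O' ∩ L(J)) • J_M ^ i`. -/
theorem exists_repr_of_mem {x : ↥(laurentBaseChange L (modularFunctionFieldFull M))}
    (hx : x ∈ O') :
    ∃ a : Fin (dedekindPsi M) → ↥L⟮Jel (jqModC_mem L M)⟯,
      (∀ i, algebraMap ↥L⟮Jel (jqModC_mem L M)⟯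
        ↥(laurentBaseChange L (modularFunctionFieldFull M)) (a i) ∈ O') ∧
      ∑ i, a i • JM L M ^ (i : ℕ) = x :=
  hG.exists_repr_of_mem (jqModC_mem L M) (jqNModC_mem L M) hℓM (finrank_eq_psi L M) hx

/-- **the residue field of a Gauss-type valuation on `FL` is `F_{M,k}`.** -/
theorem range_eq : Set.range ρ = (modularFunctionFieldFullC k M : Set (LaurentSeries k)) :=
  ResidueField.range_eq hG (jqModC_mem L M) (jqNModC_mem L M) hℓM (finrank_eq_psi L M)
    (fun d _ hd => qExpand_jqModC_mem L M d hd)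

theorem map_mem_full (x : O') : ρ x ∈ modularFunctionFieldFullC k M :=
  ResidueField.map_mem_full hG (jqModC_mem L M) (jqNModC_mem L M) hℓM (finrank_eq_psi L M) x

omit hℓM [Fact ℓ.Prime] [CharP k ℓ] [NeZero M] in
theorem exists_map_eq_of_mem_full {y : LaurentSeries k}
    (hy : y ∈ modularFunctionFieldFullC k M) : ∃ x : O', ρ x = y :=
  ResidueField.exists_map_eq_of_mem_full hG
    (fun d _ hd => qExpand_jqModC_mem L M d hd) hy

/-- `k(j̄(q^d) : d ∣ M) = k(j̄, j̄_M)`. -/
theorem full_eq_modularFunctionFieldC :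
    modularFunctionFieldFullC k M = modularFunctionFieldC k M :=
  ResidueField.full_eq_modularFunctionFieldC hG (jqModC_mem L M) (jqNModC_mem L M) hℓM
    (finrank_eq_psi L M) (fun d _ hd => qExpand_jqModC_mem L M d hd)

/-- `[F_{M,k} : k(j̄)] = ψ(M)`. -/
theorem finrank_full :
    Module.finrank
      (k⟮Fermat.Agent.S18.Trans.jBar k M⟯ :
        IntermediateField k (modularFunctionFieldFullC k M))
      (modularFunctionFieldFullC k M) = dedekindPsi M :=
  ResidueField.finrank_full hG (jqModC_mem L M) (jqNModC_mem L M) hℓM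
    (finrank_eq_psi L M) (fun d _ hd => qExpand_jqModC_mem L M d hd)

end Gauss

end

end Fermat.Agent.S18.Gauss.Concrete
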