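import Mathlib
import Fermat.Agent.S18.Gauss.Concrete
import Fermat.Agent.S18.Gauss.PolyScale
import Fermat.Agent.S18.Gauss.Adapter

/-!
# S18, block D: the Gauss valuation of `laurentBaseChange L (modularFunctionFieldFull M)`

`L` any field of characteristic zero, `A` a valuation subring of `L` whose residue field has
characteristic `ℓ ∤ M`, `FL := laurentBaseChange L (modularFunctionFieldFull M) ⊆ L((q))`.

* `exists_rel` : every `x ∈ FL` satisfies `x * S(J) = G(J, J_M)` with `S ≠ 0`, `deg_Y G < ψ(M)`
  (from the power basis of `Gauss/Concrete.lean`);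
* `indepRes` : relations of `Y`-degree `< ψ(M)` between `j̄`, `j̄_M` over the residue field vanish
  (`IndepK.eq_zero_of_char`);
* `scalable` : every nonzero element of `FL` is scalable (`PolyScale.scalableElt_of_rel`), hence
  `gaussVS`, `gaussRes` (the Gauss valuation subring of `FL` and its residue map) and
  `isGaussRed` : they satisfy `Residue.IsGaussRed`; `exists_isGaussRed`.
* consequences (`Gauss/Concrete.lean`): `eq_of_comap_eq` (unique extension from `L(J)`, from any
  intermediate field containing `J`), `range_gaussRes = F_{M,k}`, `e = 1`.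
-/

set_option autoImplicit false

namespace Fermat.Agent.S18.Gauss.ModularH

open ModularCurve Polynomial IntermediateField
open Fermat.Agent.S28.Export
open Fermat.Agent.S18.Gauss.Basic Fermat.Agent.S18.Gauss.Residue
open Fermat.Agent.S18.Gauss.Concrete

noncomputable section

variable (L : Type*) [Field L] [Algebra ℚ L] (M : ℕ) [NeZero M]

set_option synthInstance.maxHeartbeats 400000
set_option maxHeartbeats 1000000

omit [NeZero M] in
/-- every element of `L(J)` is a quotient of polynomials in `J` with nonzero denominator. -/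
theorem exists_num_denom (c : ↥L⟮Jel (Concrete.jqModC_mem L M)⟯) :
    ∃ r s : L[X], s ≠ 0 ∧
      ((c : ↥(laurentBaseChange L (modularFunctionFieldFull M))) : LaurentSeries L) * ev1 L s
        = ev1 L r := by
  obtain ⟨r, s, hrs⟩ := (mem_adjoin_simple_iff L
    (c : ↥(laurentBaseChange L (modularFunctionFieldFull M)))).mp c.2
  by_cases hs : aeval (Jel (Concrete.jqModC_mem L M)) s = 0
  · refine ⟨0, 1, one_ne_zero, ?_⟩
    rw [hs, div_zero] at hrs
    rw [hrs]
    simp
  · have hs0 : s ≠ 0 := fun h => hs (by rw [h, map_zero])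
    refine ⟨r, s, hs0, ?_⟩
    rw [← coe_aeval_Jel (Concrete.jqModC_mem L M), ← coe_aeval_Jel (Concrete.jqModC_mem L M),
      ← IntermediateField.coe_mul, hrs, div_mul_cancel₀ _ hs]

/-- **rational form**: every element of `FL` is `G(J, J_M) / S(J)` with `deg_Y G < ψ(M)`. -/
theorem exists_rel (x : LaurentSeries L)
    (hx : x ∈ laurentBaseChange L (modularFunctionFieldFull M)) :
    ∃ S : L[X], S ≠ 0 ∧ ∃ G : L[X][X], (∀ i, dedekindPsi M ≤ i → G.coeff i = 0) ∧
      x * ev1 L S = ev2 L M G := by
  classical
  have hmem : (⟨x, hx⟩ : ↥(laurentBaseChange L (modularFunctionFieldFull M))) ∈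
      Submodule.span ↥L⟮Jel (Concrete.jqModC_mem L M)⟯
        (Set.range fun i : Fin (dedekindPsi M) => JM L M ^ (i : ℕ)) := by
    rw [span_pow_eq_top]
    exact Submodule.mem_top
  rw [Submodule.mem_span_range_iff_exists_fun] at hmem
  obtain ⟨a, ha⟩ := hmem
  choose r s hs hrs using fun i => exists_num_denom L M (a i)
  set d : L[X] := ∏ i, s i with hd
  set p : Fin (dedekindPsi M) → L[X] := fun i => r i * ∏ k ∈ Finset.univ.erase i, s k with hp
  have hd0 : d ≠ 0 := Finset.prod_ne_zero_iff.mpr fun i _ => hs i
  have hap : ∀ i, ((a i : ↥(laurentBaseChange L (modularFunctionFieldFull M))) :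
      LaurentSeries L) * ev1 L d = ev1 L (p i) := by
    intro i
    rw [hd, hp, ← Finset.mul_prod_erase Finset.univ s (Finset.mem_univ i), map_mul, map_mul,
      ← mul_assoc, hrs i]
  set G : L[X][X] := ∑ i : Fin (dedekindPsi M), C (p i) * X ^ (i : ℕ) with hG
  have hcoeff : ∀ k : ℕ, G.coeff k =
      ∑ i : Fin (dedekindPsi M), if k = (i : ℕ) then p i else 0 := by
    intro k
    rw [hG, finsetSum_coeff]
    refine Finset.sum_congr rfl fun i _ => ?_
    rw [coeff_C_mul, coeff_X_pow]
    split_ifs <;> simp
  have hdeg : ∀ k, dedekindPsi M ≤ k → G.coeff k = 0 := by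
    intro k hk
    rw [hcoeff]
    refine Finset.sum_eq_zero fun i _ => ?_
    rw [if_neg]
    have := i.2
    omega
  have hGi : ∀ i : Fin (dedekindPsi M), G.coeff (i : ℕ) = p i := by
    intro i
    rw [hcoeff, Finset.sum_eq_single i]
    · rw [if_pos rfl]
    · intro j _ hji
      rw [if_neg]
      exact fun h => hji (Fin.ext h.symm)
    · intro h
      exact absurd (Finset.mem_univ i) h
  refine ⟨d, hd0, G, hdeg, ?_⟩
  rw [ev2_eq_sum hdeg]
  have hx' : x = ∑ i : Fin (dedekindPsi M),
      ((a i : ↥(laurentBaseChange L (modularFunctionFieldFull M))) : LaurentSeries L) *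
        jqNModC L M ^ (i : ℕ) := by
    have h1 := congrArg
      (fun z : ↥(laurentBaseChange L (modularFunctionFieldFull M)) => (z : LaurentSeries L)) ha
    simp only at h1
    rw [← h1, AddSubmonoidClass.coe_finsetSum]
    refine Finset.sum_congr rfl fun i _ => ?_
    rw [Algebra.smul_def]
    rfl
  rw [hx', Finset.sum_mul]
  refine Finset.sum_congr rfl fun i _ => ?_
  rw [hGi, ← hap i]
  ring

/-! ### scalability, the Gauss valuation subring -/

section Gauss

variable {L M}
variable (A : ValuationSubring L) {ℓ : ℕ} [Fact ℓ.Prime]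
  [CharP (IsLocalRing.ResidueField A) ℓ] (hℓM : ¬ ℓ ∣ M)

include hℓM

omit [Algebra ℚ L] in
/-- relations of `Y`-degree `< ψ(M)` between `j̄`, `j̄_M` over the residue field vanish. -/
theorem indepRes : PolyScale.IndepRes A M (dedekindPsi M) :=
  fun _ hdeg hG => IndepK.eq_zero_of_char M ℓ _ hℓM hdeg hG

/-- **every nonzero element of `FL` is scalable.** -/
theorem scalable :
    Scalable A ((laurentBaseChange L (modularFunctionFieldFull M)).val :
      ↥(laurentBaseChange L (modularFunctionFieldFull M)) →+* LaurentSeries L) := by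
  intro x hx0
  obtain ⟨S, hS, G, hdeg, h⟩ := exists_rel L M x.1 x.2
  have hx0' : (x : LaurentSeries L) ≠ 0 := fun h0 => hx0 (Subtype.ext h0)
  exact PolyScale.scalableElt_of_rel (dedekindPsi_pos M) (indepRes A hℓM) hx0' hS hdeg h

/-- the Gauss valuation subring of `FL`. -/
def gaussVS : ValuationSubring ↥(laurentBaseChange L (modularFunctionFieldFull M)) :=
  gaussSubring (scalable A hℓM)

/-- its residue map, with values in `k((q))`. -/
def gaussRes : ↥(gaussVS A hℓM) →+* LaurentSeries (IsLocalRing.ResidueField A) :=
  resMap (scalable A hℓM)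

/-- **the Gauss valuation of `FL` is of Gauss type.** -/
theorem isGaussRed :
    IsGaussRed A (IsLocalRing.residue A) (laurentBaseChange L (modularFunctionFieldFull M))
      (gaussVS A hℓM) (gaussRes A hℓM) :=
  Adapter.isGaussRed_val (scalable A hℓM)

theorem exists_isGaussRed :
    ∃ (O' : ValuationSubring ↥(laurentBaseChange L (modularFunctionFieldFull M)))
      (ρ : ↥O' →+* LaurentSeries (IsLocalRing.ResidueField A)),
      IsGaussRed A (IsLocalRing.residue A) (laurentBaseChange L (modularFunctionFieldFull M))
        O' ρ :=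
  ⟨gaussVS A hℓM, gaussRes A hℓM, isGaussRed A hℓM⟩

/-- **the residue field of the Gauss valuation of `FL` is `F_{M,k}`.** -/
theorem range_gaussRes :
    Set.range (gaussRes A hℓM) =
      (modularFunctionFieldFullC (IsLocalRing.ResidueField A) M :
        Set (LaurentSeries (IsLocalRing.ResidueField A))) :=
  Concrete.range_eq (isGaussRed A hℓM) hℓM

/-- **unique extension** of the Gauss valuation from any intermediate field containing `J`. -/
theorem gaussVS_unique
    (K' : IntermediateField L ↥(laurentBaseChange L (modularFunctionFieldFull M)))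
    (hJ' : Jel (Concrete.jqModC_mem L M) ∈ K')
    (O'' : ValuationSubring ↥(laurentBaseChange L (modularFunctionFieldFull M)))
    (h : O''.comap (algebraMap ↥K' ↥(laurentBaseChange L (modularFunctionFieldFull M))) =
        (gaussVS A hℓM).comap
          (algebraMap ↥K' ↥(laurentBaseChange L (modularFunctionFieldFull M)))) :
    O'' = gaussVS A hℓM :=
  Concrete.eq_of_comap_eq_of_mem (isGaussRed A hℓM) hℓM K' hJ' O'' h

end Gauss

end

end Fermat.Agent.S18.Gauss.ModularH
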