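import Mathlib
import Fermat.Agent.S18.Gauss.ModularH

/-!
# S18, block D: `Scalable` for `laurentBaseChange L (modularFunctionFieldFull M)` — names of #1177

Thin wrappers around `Gauss/ModularH.lean` under the names announced by the architect
(`scalable_full`, `isGaussRed_full`, `exists_isGaussRed`, `hconst`).
-/

set_option autoImplicit false

namespace Fermat.Agent.S18.Gauss.ScalableFull

open ModularCurve Polynomial
open Fermat.Agent.S28.Export
open Fermat.Agent.S18.Gauss.Basic Fermat.Agent.S18.Gauss.Residue

noncomputable section

variable {L : Type*} [Field L] [Algebra ℚ L] (M : ℕ) [NeZero M]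

/-- (a) rational form of the elements of `FL`. -/
theorem exists_rel (x : LaurentSeries L)
    (hx : x ∈ laurentBaseChange L (modularFunctionFieldFull M)) :
    ∃ q : L[X], q ≠ 0 ∧ ∃ G : L[X][X], (∀ i, dedekindPsi M ≤ i → G.coeff i = 0) ∧
      x * ev1 L q = ev2 L M G :=
  ModularH.exists_rel L M x hx

omit [NeZero M] in
/-- (f) constants of `FL` are constant series. -/
theorem hconst (c : L) :
    (laurentBaseChange L (modularFunctionFieldFull M)).val
      (algebraMap L ↥(laurentBaseChange L (modularFunctionFieldFull M)) c) = HahnSeries.C c := by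
  show algebraMap L (LaurentSeries L) c = HahnSeries.C c
  exact algebraMap_eq_C L c

variable (A : ValuationSubring L) {ℓ : ℕ} [Fact ℓ.Prime]
  [CharP (IsLocalRing.ResidueField A) ℓ] (hℓM : ¬ ℓ ∣ M)

include hℓM

omit [Algebra ℚ L] in
/-- (b) -/
theorem indepRes : PolyScale.IndepRes A M (dedekindPsi M) :=
  ModularH.indepRes A hℓM

/-- (c) every nonzero element of `FL` is scalable. -/
theorem scalable_full :
    Scalable A ((laurentBaseChange L (modularFunctionFieldFull M)).val :
      ↥(laurentBaseChange L (modularFunctionFieldFull M)) →+* LaurentSeries L) :=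
  ModularH.scalable A hℓM

/-- (d) the Gauss subring / residue map of `FL` are of Gauss type. -/
theorem isGaussRed_full :
    IsGaussRed A (IsLocalRing.residue A) (laurentBaseChange L (modularFunctionFieldFull M))
      (gaussSubring (scalable_full M A hℓM)) (resMap (scalable_full M A hℓM)) :=
  Adapter.isGaussRed_val (scalable_full M A hℓM)

/-- (e) -/
theorem exists_isGaussRed :
    ∃ (O' : ValuationSubring ↥(laurentBaseChange L (modularFunctionFieldFull M)))
      (ρ : ↥O' →+* LaurentSeries (IsLocalRing.ResidueField A)),
      IsGaussRed A (IsLocalRing.residue A) (laurentBaseChange L (modularFunctionFieldFull M))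
        O' ρ :=
  ModularH.exists_isGaussRed A hℓM

/-- the residue field is `F_{M,k}`. -/
theorem range_resMap :
    Set.range (resMap (scalable_full M A hℓM)) =
      (modularFunctionFieldFullC (IsLocalRing.ResidueField A) M :
        Set (LaurentSeries (IsLocalRing.ResidueField A))) :=
  Concrete.range_eq (isGaussRed_full M A hℓM) hℓM

end

end Fermat.Agent.S18.Gauss.ScalableFull
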