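/-
S18 block D, leaf D1b part 2 (helper28): the Gauss valuation of the modular function field
`F_{M,L} = laurentBaseChange L (modularFunctionFieldFull M) ⊆ L((q))`, for ANY field `L ⊇ ℚ` with a
valuation subring `A` of residue characteristic `ℓ ∤ M`.

* `IsFrac L M x` : `x * q(j) = G(j, j_M)` for polynomials `q`, `G` over `L` with `q(j) ≠ 0`; these
  `x` form a subfield (`fracField`) of `L((q))` because `j_M` is integral over `L[j]`
  (`S28` `E1`), and it contains `F_{M,L}` as soon as every `j_d`, `d ∣ M`, lies in `ℚ(j)[j_M]`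
  (`RatGenHyp M`, proved in `Gauss/RatGen.lean` from `S24` `T0`).
* `exists_rel` : every element of `F_{M,L}` satisfies `x * q(j) = G(j, j_M)`, `deg_Y G < ψ(M)`.
* `scalable` : `Scalable A (emb L M)`, hence `gaussVS`, `gaussRes` (from `Gauss/Basic.lean`).
-/
import Mathlib
import Fermat.Prelude.Def_ModularCurve_ReductionModL
import Fermat.Agent.S28.ExportFinal
import Fermat.Agent.S18.Gauss.IndepK
import Fermat.Agent.S18.Gauss.PolyScale

set_option autoImplicit false

noncomputable section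

open Polynomial ModularCurve Fermat.Agent.S28.Export Fermat.Agent.S18.Gauss.Basic
  Fermat.Agent.S18.Gauss.PolyScale

namespace Fermat.Agent.S18.Gauss.Modular

/-! ### a general lemma on integral elements -/

/-- a nonzero integral element `y` of a domain divides a nonzero element of the base ring, the
quotient being a polynomial in `y`. -/
theorem exists_mul_eq_map_of_isIntegralElem {R S : Type*} [CommRing R] [CommRing S] [IsDomain S]
    (f : R →+* S) {y : S} (hy : f.IsIntegralElem y) (hy0 : y ≠ 0) :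
    ∃ (a : R) (P' : R[X]), f a ≠ 0 ∧ y * P'.eval₂ f y = f a := by
  obtain ⟨P, hP, h0⟩ := hy
  induction hn : P.natDegree using Nat.strong_induction_on generalizing P with
  | _ n ih =>
    have hdec := Polynomial.divX_mul_X_add P
    have hev : (divX P).eval₂ f y * y + f (P.coeff 0) = 0 := by
      rw [← h0]
      conv_rhs => rw [← hdec]
      rw [eval₂_add, eval₂_mul, eval₂_X, eval₂_C]
    by_cases ha : f (P.coeff 0) = 0
    · rw [ha, add_zero] at hev
      have hev' : (divX P).eval₂ f y = 0 := by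
        rcases mul_eq_zero.1 hev with h | h
        · exact h
        · exact absurd h hy0
      have hn0 : n ≠ 0 := by
        intro hn0
        rw [hn0] at hn
        have : P = 1 := eq_one_of_monic_natDegree_zero hP hn
        rw [this, eval₂_one] at h0
        exact one_ne_zero h0
      have hdeg : (divX P).natDegree = n - 1 := by
        rw [natDegree_divX_eq_natDegree_tsub_one, hn]
      have hmon : (divX P).Monic := by
        rw [Monic, leadingCoeff, hdeg, coeff_divX]
        have : n - 1 + 1 = P.natDegree := by omega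
        rw [this]
        exact hP.leadingCoeff
      exact ih (n - 1) (by omega) (divX P) hmon hev' hdeg
    · refine ⟨-P.coeff 0, divX P, ?_, ?_⟩
      · rw [map_neg]
        exact neg_ne_zero.2 ha
      · rw [map_neg, mul_comm]
        exact eq_neg_of_add_eq_zero_left hev

/-! ### fractions `G(j, j_M) / q(j)` -/

section Frac

variable (L : Type*) [Field L] (M : ℕ) [NeZero M]

/-- `x = G(j, j_M) / q(j)`. -/
def IsFrac (x : LaurentSeries L) : Prop :=
  ∃ q : L[X], ev1 L q ≠ 0 ∧ ∃ G : L[X][X], x * ev1 L q = ev2 L M G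

variable {L M}

theorem isFrac_ev2 (G : L[X][X]) : IsFrac L M (ev2 L M G) :=
  ⟨1, by rw [map_one]; exact one_ne_zero, G, by rw [map_one, mul_one]⟩

theorem IsFrac.add {x y : LaurentSeries L} (hx : IsFrac L M x) (hy : IsFrac L M y) :
    IsFrac L M (x + y) := by
  obtain ⟨q, hq, G, h⟩ := hx
  obtain ⟨q', hq', G', h'⟩ := hy
  refine ⟨q * q', by rw [map_mul]; exact mul_ne_zero hq hq', G * C q' + G' * C q, ?_⟩
  rw [map_mul, map_add, map_mul, map_mul, ev2_C, ev2_C, ← h, ← h']
  ring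

theorem IsFrac.mul {x y : LaurentSeries L} (hx : IsFrac L M x) (hy : IsFrac L M y) :
    IsFrac L M (x * y) := by
  obtain ⟨q, hq, G, h⟩ := hx
  obtain ⟨q', hq', G', h'⟩ := hy
  refine ⟨q * q', by rw [map_mul]; exact mul_ne_zero hq hq', G * G', ?_⟩
  rw [map_mul, map_mul, ← h, ← h']
  ring

theorem IsFrac.neg {x : LaurentSeries L} (hx : IsFrac L M x) : IsFrac L M (-x) := by
  obtain ⟨q, hq, G, h⟩ := hx
  exact ⟨q, hq, -G, by rw [map_neg, ← h]; ring⟩

/-- every element of `L[j, j_M]` is integral over `L[j]`. -/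
theorem isIntegralElem_ev2 (hΦ : ∃ Φ : L[X][X], Φ.Monic ∧ ev2 L M Φ = 0) (G : L[X][X]) :
    (ev1 L).IsIntegralElem (ev2 L M G) := by
  letI : Algebra L[X] (LaurentSeries L) := (ev1 L).toAlgebra
  have hj : IsIntegral L[X] (jqNModC L M) := by
    obtain ⟨Φ, hmon, h0⟩ := hΦ
    exact ⟨Φ, hmon, h0⟩
  show IsIntegral L[X] (ev2 L M G)
  rw [ev2_apply, eval₂_eq_sum_range]
  refine IsIntegral.sum _ fun i _ => ?_
  exact IsIntegral.mul isIntegral_algebraMap (hj.pow i)

theorem IsFrac.inv (hΦ : ∃ Φ : L[X][X], Φ.Monic ∧ ev2 L M Φ = 0) {x : LaurentSeries L}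
    (hx : IsFrac L M x) : IsFrac L M x⁻¹ := by
  by_cases hx0 : x = 0
  · rw [hx0, inv_zero, ← map_zero (ev2 L M)]
    exact isFrac_ev2 0
  obtain ⟨q, hq, G, h⟩ := hx
  have hy0 : ev2 L M G ≠ 0 := by
    rw [← h]
    exact mul_ne_zero hx0 hq
  obtain ⟨a, P', ha, hmul⟩ :=
    exists_mul_eq_map_of_isIntegralElem (ev1 L) (isIntegralElem_ev2 hΦ G) hy0
  refine ⟨a, ha, C q * P'.eval₂ C G, ?_⟩
  have hcomp : (ev2 L M) (P'.eval₂ C G) = P'.eval₂ (ev1 L) (ev2 L M G) := by
    have hc : (ev2 L M).comp C = ev1 L := RingHom.ext (ev2_C L M)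
    rw [Polynomial.hom_eval₂, hc]
  rw [map_mul, ev2_C, hcomp, ← hmul, ← h]
  field_simp

variable (L M)

/-- the subfield `L(j)[j_M]` of `L((q))`. -/
def fracField (hΦ : ∃ Φ : L[X][X], Φ.Monic ∧ ev2 L M Φ = 0) : Subfield (LaurentSeries L) where
  carrier := {x | IsFrac L M x}
  mul_mem' hx hy := hx.mul hy
  one_mem' := by simpa using isFrac_ev2 (L := L) (M := M) 1
  add_mem' hx hy := hx.add hy
  zero_mem' := by simpa using isFrac_ev2 (L := L) (M := M) 0
  neg_mem' hx := hx.neg
  inv_mem' _ hx := hx.inv hΦ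

variable {L M}

theorem mem_fracField {hΦ : ∃ Φ : L[X][X], Φ.Monic ∧ ev2 L M Φ = 0} {x : LaurentSeries L} :
    x ∈ fracField L M hΦ ↔ IsFrac L M x := Iff.rfl

/-- reduce the `Y`-degree below the degree of a monic relation. -/
theorem IsFrac.exists_lt {Φ : L[X][X]} (hmon : Φ.Monic) (hΦ0 : ev2 L M Φ = 0)
    (hpos : 0 < Φ.natDegree) {x : LaurentSeries L} (hx : IsFrac L M x) :
    ∃ q : L[X], ev1 L q ≠ 0 ∧ ∃ G : L[X][X], (∀ i, Φ.natDegree ≤ i → G.coeff i = 0) ∧
      x * ev1 L q = ev2 L M G := by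
  obtain ⟨q, hq, G, h⟩ := hx
  have hne1 : Φ ≠ 1 := by
    rintro rfl
    simp at hpos
  refine ⟨q, hq, G %ₘ Φ, fun i hi => ?_, ?_⟩
  · exact coeff_eq_zero_of_natDegree_lt (lt_of_lt_of_le (natDegree_modByMonic_lt G hmon hne1) hi)
  · have := congrArg (ev2 L M) (modByMonic_add_div G Φ)
    rw [map_add, map_mul, hΦ0, zero_mul, add_zero] at this
    rw [this, h]

end Frac

/-! ### the monic relation over any field containing `ℚ` -/

section Monic

variable (L : Type*) [Field L] [Algebra ℚ L] (M : ℕ) [NeZero M]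

theorem dedekindPsi_pos : 0 < dedekindPsi M := by
  rw [dedekindPsi]
  have h1 : (1 : ℕ) ∈ M.divisors.filter (fun d => Squarefree d) := by
    rw [Finset.mem_filter, Nat.mem_divisors]
    exact ⟨⟨one_dvd M, NeZero.ne M⟩, squarefree_one⟩
  have h2 := Finset.single_le_sum (f := fun d => M / d) (fun d _ => Nat.zero_le (M / d)) h1
  simp only [Nat.div_one] at h2
  exact lt_of_lt_of_le (Nat.pos_of_ne_zero (NeZero.ne M)) h2

/-- `S28` `E1` over any field containing `ℚ`. -/
theorem exists_monic (ℓ : ℕ) [Fact ℓ.Prime] (hℓM : ¬ ℓ ∣ M) :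
    ∃ Φ : L[X][X], Φ.Monic ∧ Φ.natDegree = dedekindPsi M ∧ ev2 L M Φ = 0 := by
  obtain ⟨Ψ, hmon, hdeg, h0⟩ := Fermat.Agent.S28.ExportFinal.E1' M ℓ hℓM
  rw [eval₂_evZl] at h0
  set Φℚ : ℚ[X][X] := Ψ.map (mapRingHom (GaloisRep.ratLocalizedAt ℓ).subtype) with hΦℚ
  have hmonℚ : Φℚ.Monic := hmon.map _
  have hdegℚ : Φℚ.natDegree = dedekindPsi M := by
    rw [hΦℚ, hmon.natDegree_map, hdeg]
  refine ⟨Φℚ.map (mapRingHom (algebraMap ℚ L)), hmonℚ.map _, ?_, ?_⟩
  · rw [hmonℚ.natDegree_map, hdegℚ]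
  · rw [← coeffMap_ev2, h0, map_zero]

end Monic

/-! ### the function field -/

section Field

variable (L : Type*) [Field L] [Algebra ℚ L] (M : ℕ) [NeZero M]

/-- `j_d ∈ ℚ(j)[j_M]` for every `d ∣ M` (the output of `Gauss/RatGen.lean`). -/
def RatGenHyp : Prop :=
  ∀ (d : ℕ) [NeZero d], d ∣ M → ∃ q : ℚ[X], q ≠ 0 ∧ ∃ G : ℚ[X][X],
    qExpand ℚ d jq * ev1 ℚ q = ev2 ℚ M G

/-- the modular function field of level `M` over `L`, as a type. -/
abbrev FL : Type _ := ↥(laurentBaseChange L (modularFunctionFieldFull M))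

/-- the inclusion of the function field into `L((q))`. -/
def emb : FL L M →+* LaurentSeries L :=
  (IntermediateField.val (laurentBaseChange L (modularFunctionFieldFull M))).toRingHom

@[simp]
theorem emb_apply (x : FL L M) : emb L M x = (x : LaurentSeries L) := rfl

theorem emb_algebraMap (c : L) : emb L M (algebraMap L (FL L M) c) = HahnSeries.C c := by
  rw [emb_apply, IntermediateField.coe_algebraMap_apply, algebraMap_eq_C]

theorem coeffEmb_jqN (d : ℕ) [NeZero d] : coeffEmb L (qExpand ℚ d jq) = jqNModC L d := by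
  rw [coeffEmb, ← coeffMap_jqNModC (algebraMap ℚ L) d]
  rfl

variable {L M}

/-- the generators lie in `L(j)[j_M]`. -/
theorem isFrac_jqN (hrat : RatGenHyp M) (hev : ∀ q : L[X], q ≠ 0 → ev1 L q ≠ 0)
    (d : ℕ) [NeZero d] (hd : d ∣ M) : IsFrac L M (jqNModC L d) := by
  obtain ⟨q, hq, G, h⟩ := hrat d hd
  refine ⟨q.map (algebraMap ℚ L),
    hev _ ((Polynomial.map_ne_zero_iff (algebraMap ℚ L).injective).2 hq),
    G.map (mapRingHom (algebraMap ℚ L)), ?_⟩
  rw [← coeffMap_ev1 (algebraMap ℚ L) q, ← coeffMap_ev2 (N := M) (algebraMap ℚ L) G, ← h, map_mul,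
    ← coeffEmb_jqN]
  rfl

/-- the image of `ℚ(j_d : d ∣ M)` lies in `L(j)[j_M]`. -/
theorem coeffEmb_mem_fracField (hrat : RatGenHyp M) (hev : ∀ q : L[X], q ≠ 0 → ev1 L q ≠ 0)
    (hΦ : ∃ Φ : L[X][X], Φ.Monic ∧ ev2 L M Φ = 0) {z : LaurentSeries ℚ}
    (hz : z ∈ Subfield.closure
      (Set.range (algebraMap ℚ (LaurentSeries ℚ)) ∪ divisorExpansions M)) :
    coeffEmb L z ∈ fracField L M hΦ := by
  induction hz using Subfield.closure_induction with
  | mem w hw =>
    rcases hw with ⟨c, rfl⟩ | ⟨d, hne, hd, rfl⟩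
    · have : coeffEmb L (algebraMap ℚ (LaurentSeries ℚ) c)
          = HahnSeries.C (algebraMap ℚ L c) := by
        rw [algebraMap_eq_C, coeffEmb, HahnSeries.C_apply, coeffMap_single,
          HahnSeries.C_apply]
      rw [this, ← ev1_C L, ← ev2_C L M]
      exact isFrac_ev2 _
    · haveI := hne
      rw [coeffEmb_jqN]
      exact isFrac_jqN hrat hev d hd
  | one => rw [map_one]; exact one_mem _
  | add a b _ _ ha hb => rw [map_add]; exact add_mem ha hb
  | neg a _ ha => rw [map_neg]; exact neg_mem ha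
  | inv a _ ha => rw [map_inv₀]; exact inv_mem ha
  | mul a b _ _ ha hb => rw [map_mul]; exact mul_mem ha hb

/-- the function field is contained in `L(j)[j_M]`. -/
theorem le_fracField (hrat : RatGenHyp M) (hev : ∀ q : L[X], q ≠ 0 → ev1 L q ≠ 0)
    (hΦ : ∃ Φ : L[X][X], Φ.Monic ∧ ev2 L M Φ = 0) {x : LaurentSeries L}
    (hx : x ∈ laurentBaseChange L (modularFunctionFieldFull M)) : x ∈ fracField L M hΦ := by
  rw [mem_laurentBaseChange_iff] at hx
  induction hx using Subfield.closure_induction with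
  | mem y hy =>
    rcases hy with ⟨c, rfl⟩ | ⟨z, hz, rfl⟩
    · rw [algebraMap_eq_C, ← ev1_C L, ← ev2_C L M]
      exact isFrac_ev2 _
    · exact coeffEmb_mem_fracField hrat hev hΦ hz
  | one => exact one_mem _
  | add a b _ _ ha hb => exact add_mem ha hb
  | neg a _ ha => exact neg_mem ha
  | inv a _ ha => exact inv_mem ha
  | mul a b _ _ ha hb => exact mul_mem ha hb

end Field

/-! ### scalability and the Gauss valuation -/

section Gauss

variable {L : Type*} [Field L] [Algebra ℚ L] (A : ValuationSubring L) (M : ℕ) [NeZero M]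
  (ℓ : ℕ) [Fact ℓ.Prime]

/-- the residue field of a valuation subring over `ℓ` has characteristic `ℓ`. -/
theorem charP_residueField (hA : A.LiesOverPrime ℓ) : CharP (IsLocalRing.ResidueField A) ℓ := by
  rw [CharP.charP_iff_prime_eq_zero (Fact.out : ℓ.Prime)]
  obtain ⟨hmem, hmax⟩ := (ValuationSubring.mem_nonunits_iff_exists_mem_maximalIdeal).1 hA
  have h1 : (ℓ : IsLocalRing.ResidueField A) = IsLocalRing.residue A (ℓ : A) :=
    (map_natCast _ _).symm
  have h2 : (ℓ : A) = ⟨(ℓ : L), hmem⟩ := Subtype.ext (by simp)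
  rw [h1, h2]
  exact (IsLocalRing.residue_eq_zero_iff _).2 hmax

variable [CharP (IsLocalRing.ResidueField A) ℓ]

/-- independence of the reductions (`S28` + `IndepK`). -/
theorem indepRes (hℓM : ¬ ℓ ∣ M) : IndepRes A M (dedekindPsi M) := fun _ hdeg hG =>
  IndepK.eq_zero_of_char M ℓ (IsLocalRing.ResidueField A) hℓM hdeg hG

variable {M ℓ}

include A in
/-- **generation**: every element of the function field is `G(j, j_M)/q(j)`, `deg_Y G < ψ(M)`. -/
theorem exists_rel (hℓM : ¬ ℓ ∣ M) (hrat : RatGenHyp M) {x : LaurentSeries L}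
    (hx : x ∈ laurentBaseChange L (modularFunctionFieldFull M)) :
    ∃ q : L[X], q ≠ 0 ∧ ∃ G : L[X][X], (∀ i, dedekindPsi M ≤ i → G.coeff i = 0) ∧
      x * ev1 L q = ev2 L M G := by
  obtain ⟨Φ, hmon, hdeg, h0⟩ := exists_monic L M ℓ hℓM
  have hev : ∀ q : L[X], q ≠ 0 → ev1 L q ≠ 0 := fun q hq =>
    ev1_ne_zero (dedekindPsi_pos M) (indepRes A M ℓ hℓM) hq
  have hfrac := le_fracField hrat hev ⟨Φ, hmon, h0⟩ hx
  obtain ⟨q, hq, G, hG, h⟩ := (mem_fracField.1 hfrac).exists_lt hmon h0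
    (by rw [hdeg]; exact dedekindPsi_pos M)
  refine ⟨q, fun hq0 => hq (by rw [hq0, map_zero]), G, ?_, h⟩
  rwa [hdeg] at hG

/-- **the modular function field is scalable.** -/
theorem scalable (hℓM : ¬ ℓ ∣ M) (hrat : RatGenHyp M) : Scalable A (emb L M) := by
  intro x hx
  obtain ⟨q, hq, G, hdeg, h⟩ := exists_rel A hℓM hrat x.2
  exact scalableElt_of_rel (dedekindPsi_pos M) (indepRes A M ℓ hℓM)
    (fun h0 => hx (Subtype.ext h0)) hq hdeg h

variable (M ℓ)

/-- the Gauss valuation subring of the modular function field of level `M` over `L`. -/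
def gaussVS (hℓM : ¬ ℓ ∣ M) (hrat : RatGenHyp M) : ValuationSubring (FL L M) :=
  gaussSubring (scalable (A := A) hℓM hrat)

/-- its residue map into `k((q))`. -/
def gaussRes (hℓM : ¬ ℓ ∣ M) (hrat : RatGenHyp M) :
    gaussVS A M ℓ hℓM hrat →+* LaurentSeries (IsLocalRing.ResidueField A) :=
  resMap (scalable (A := A) hℓM hrat)

end Gauss

end Fermat.Agent.S18.Gauss.Modular
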