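import Mathlib
import Fermat.Agent.S24.FiniteFibres
import Fermat.Agent.S28.CoreFinal
import Fermat.Agent.S28.Export

/-!
# S18, block D1c: `j_d ∈ ℚ(j)[j_M]` for `d ∣ M`

The full function field `ℚ(j_d : d ∣ M)` is generated over `ℚ(j)` by `j_M` alone, with the power
basis `1, j_M, …, j_M^(ψ(M)-1)`.  In the form consumed by the Gauss-valuation block:

`ratGen : ∃ q ≠ 0, ∃ G, deg_Y G < ψ(M) ∧ j_d * q(j) = G(j, j_M)` in `ℚ((q))`.

Proof: over `K = ℚ̄` the degree `[F : K(J)] = ψ(M)` (S24 `T0`) and the independence of the powers of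
`J_M` over `K[J]` (S28 core, transported to characteristic zero by `Export.eq_zero_field`) give
the power basis; a `ℚ`-linear functional `K → ℚ` brings the relation down to `ℚ`.
-/

set_option autoImplicit false
set_option linter.unusedSectionVars false
set_option linter.unusedVariables false

namespace Fermat.Agent.S18.Gauss.RatGen

open ModularCurve Polynomial IntermediateField
open Fermat.Agent.S24.BridgeInv Fermat.Agent.S24.PlaceAt Fermat.Agent.S24.FiniteFibres
open Fermat.Agent.S28.Export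

noncomputable section

variable (M : ℕ) [NeZero M]

/-- a prime not dividing `M`. -/
theorem exists_prime_not_dvd : ∃ l : ℕ, l.Prime ∧ ¬ l ∣ M := by
  obtain ⟨p, hp, hprime⟩ := Nat.exists_infinite_primes (M + 1)
  refine ⟨p, hprime, fun h => ?_⟩
  have := Nat.le_of_dvd (Nat.pos_of_ne_zero (NeZero.ne M)) h
  omega

/-- independence of the powers of `j_M` over `K[j]`, family form, over `K = ℚ̄`. -/
theorem indep_bar (a : Fin (dedekindPsi M) → Kbar[X])
    (h : ∑ i, ev1 Kbar (a i) * (jqNModC Kbar M) ^ (i : ℕ) = 0) : ∀ i, a i = 0 := by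
  obtain ⟨l, hl, hlM⟩ := exists_prime_not_dvd M
  have : Fact l.Prime := ⟨hl⟩
  have hInd : IndepMod M l (dedekindPsi M) :=
    indepMod_of_core M l _ (Fermat.Agent.S28.CoreFinal.C1 M l hlM)
  refine family_of_poly (ev1 Kbar) (jqNModC Kbar M) (dedekindPsi M) ?_ a h
  intro g hg hev
  exact eq_zero_field hInd
    (fun i hi => coeff_eq_zero_of_natDegree_lt (lt_of_lt_of_le hg hi)) hev

/-! ### the dictionary `FF M ↔ K((q))` -/

/-- the generator `θ = J_M`. -/
abbrev theta : FF M := Jd M M dvd_rfl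

theorem coe_J : ((J M : FF M) : LaurentSeries Kbar) = jqModC Kbar := by
  show coeffEmb Kbar (qExpand ℚ 1 jq) = _
  rw [qExpand_one_apply, ← jqModC_rat, coeffEmb, coeffMap_jqModC]

theorem coe_Jd (d : ℕ) [NeZero d] (hd : d ∣ M) :
    ((Jd M d hd : FF M) : LaurentSeries Kbar) = jqNModC Kbar d := by
  show coeffEmb Kbar (qExpand ℚ d jq) = _
  rw [← coeffMap_jqNModC (algebraMap ℚ Kbar) d]
  rfl

theorem coe_aeval_J (p : Kbar[X]) :
    ((aeval (J M) p : FF M) : LaurentSeries Kbar) = ev1 Kbar p := by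
  rw [ev1_eq_aeval, ← coe_J M]
  exact (aeval_algHom_apply (modularFunctionFieldBar M).val (J M) p).symm

/-- every element of `K(J)` is a quotient of polynomials in `J` with non-zero denominator. -/
theorem exists_frac (x : Kbar⟮J M⟯) :
    ∃ r s : Kbar[X], s ≠ 0 ∧ (x : FF M) * aeval (J M) s = aeval (J M) r := by
  obtain ⟨r, s, hrs⟩ := (mem_adjoin_simple_iff Kbar (x : FF M)).mp x.2
  by_cases hs : aeval (J M) s = 0
  · refine ⟨0, 1, one_ne_zero, ?_⟩
    rw [hrs, hs, div_zero, zero_mul, map_zero]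
  · refine ⟨r, s, ?_, ?_⟩
    · rintro rfl
      exact hs (map_zero _)
    · rw [hrs, div_mul_cancel₀ _ hs]

theorem aeval_J_ne_zero {s : Kbar[X]} (hs : s ≠ 0) : aeval (J M) s ≠ 0 := fun h =>
  hs ((transcendental_iff.mp (transcendental_J M)) s h)

/-- the powers of `θ` are linearly independent over `K(J)`. -/
theorem linearIndependent_theta :
    LinearIndependent Kbar⟮J M⟯ (fun i : Fin (dedekindPsi M) => theta M ^ (i : ℕ)) := by
  classical
  rw [Fintype.linearIndependent_iff]
  intro g hg i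
  choose r s hs hrs using fun i => exists_frac M (g i)
  -- common denominator
  set c : Fin (dedekindPsi M) → Kbar[X] := fun i => r i * ∏ k ∈ Finset.univ.erase i, s k with hc
  have hS : ∀ i, (∏ k, s k) = s i * ∏ k ∈ Finset.univ.erase i, s k := fun i =>
    (Finset.mul_prod_erase Finset.univ s (Finset.mem_univ i)).symm
  have hgi : ∀ i, ((g i : Kbar⟮J M⟯) : FF M) * aeval (J M) (∏ k, s k) = aeval (J M) (c i) := by
    intro i
    rw [hS i, map_mul, ← mul_assoc, hrs i, hc, map_mul]
  have hrel : ∑ i, aeval (J M) (c i) * theta M ^ (i : ℕ) = 0 := by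
    have h1 : (∑ i, g i • theta M ^ (i : ℕ)) * aeval (J M) (∏ k, s k) = 0 := by
      rw [hg, zero_mul]
    rw [Finset.sum_mul] at h1
    rw [← h1]
    refine Finset.sum_congr rfl fun i _ => ?_
    rw [← hgi i, IntermediateField.smul_def, smul_eq_mul]
    ring
  have hrel' : ∑ i, ev1 Kbar (c i) * (jqNModC Kbar M) ^ (i : ℕ) = 0 := by
    have h2 : ((∑ i, aeval (J M) (c i) * theta M ^ (i : ℕ) : FF M) : LaurentSeries Kbar)
        = ((0 : FF M) : LaurentSeries Kbar) := congrArg Subtype.val hrel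
    rw [ZeroMemClass.coe_zero, AddSubmonoidClass.coe_finsetSum] at h2
    rw [← h2]
    refine Finset.sum_congr rfl fun i _ => ?_
    rw [MulMemClass.coe_mul, SubmonoidClass.coe_pow, coe_aeval_J, coe_Jd]
  have hc0 := indep_bar M c hrel' i
  have hprod : (∏ k ∈ Finset.univ.erase i, s k) ≠ 0 :=
    Finset.prod_ne_zero_iff.mpr fun k _ => hs k
  have hr0 : r i = 0 := (mul_eq_zero.mp hc0).resolve_right hprod
  have h3 := hrs i
  rw [hr0, map_zero] at h3
  have h4 := (mul_eq_zero.mp h3).resolve_right (aeval_J_ne_zero M (hs i))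
  exact Subtype.ext h4

theorem psi_pos : 0 < dedekindPsi M := by
  rw [← T0 M]
  exact Module.finrank_pos

instance nonempty_fin_psi : Nonempty (Fin (dedekindPsi M)) := ⟨⟨0, psi_pos M⟩⟩

/-- the power basis `1, θ, …, θ^(ψ-1)` of `FF M` over `K(J)`. -/
def thetaBasis : Module.Basis (Fin (dedekindPsi M)) Kbar⟮J M⟯ (FF M) :=
  basisOfLinearIndependentOfCardEqFinrank (linearIndependent_theta M)
    (by rw [Fintype.card_fin, T0 M])

theorem thetaBasis_apply (i : Fin (dedekindPsi M)) : thetaBasis M i = theta M ^ (i : ℕ) := by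
  rw [thetaBasis, coe_basisOfLinearIndependentOfCardEqFinrank]

/-- every element of `FF M`, multiplied by a non-zero polynomial in `J`, is a polynomial in `J` and
`θ` of `θ`-degree `< ψ(M)`. -/
theorem exists_rel_bar (x : FF M) :
    ∃ S : Kbar[X], S ≠ 0 ∧ ∃ G : Kbar[X][X], (∀ i, dedekindPsi M ≤ i → G.coeff i = 0) ∧
      (x : LaurentSeries Kbar) * ev1 Kbar S = ev2 Kbar M G := by
  classical
  choose r s hs hrs using fun i => exists_frac M ((thetaBasis M).repr x i)
  set c : Fin (dedekindPsi M) → Kbar[X] := fun i => r i * ∏ k ∈ Finset.univ.erase i, s k with hc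
  have hS : ∀ i, (∏ k, s k) = s i * ∏ k ∈ Finset.univ.erase i, s k := fun i =>
    (Finset.mul_prod_erase Finset.univ s (Finset.mem_univ i)).symm
  have hgi : ∀ i, (((thetaBasis M).repr x i : Kbar⟮J M⟯) : FF M) * aeval (J M) (∏ k, s k)
      = aeval (J M) (c i) := by
    intro i
    rw [hS i, map_mul, ← mul_assoc, hrs i, hc, map_mul]
  have hx : x * aeval (J M) (∏ k, s k) = ∑ i, aeval (J M) (c i) * theta M ^ (i : ℕ) := by
    conv_lhs => rw [← (thetaBasis M).sum_repr x]
    rw [Finset.sum_mul]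
    refine Finset.sum_congr rfl fun i _ => ?_
    rw [← hgi i, thetaBasis_apply, IntermediateField.smul_def, smul_eq_mul]
    ring
  refine ⟨∏ k, s k, Finset.prod_ne_zero_iff.mpr fun k _ => hs k,
    ∑ i : Fin (dedekindPsi M), monomial (i : ℕ) (c i), ?_, ?_⟩
  · intro j hj
    rw [finsetSum_coeff]
    refine Finset.sum_eq_zero fun i _ => ?_
    rw [coeff_monomial, if_neg]
    have := i.2
    omega
  · have h2 : ((x * aeval (J M) (∏ k, s k) : FF M) : LaurentSeries Kbar)
        = ((∑ i, aeval (J M) (c i) * theta M ^ (i : ℕ) : FF M) : LaurentSeries Kbar) :=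
      congrArg Subtype.val hx
    rw [MulMemClass.coe_mul, coe_aeval_J, AddSubmonoidClass.coe_finsetSum] at h2
    rw [h2, map_sum]
    refine Finset.sum_congr rfl fun i _ => ?_
    rw [MulMemClass.coe_mul, SubmonoidClass.coe_pow, coe_aeval_J, coe_Jd, ev2_apply,
      eval₂_monomial]

/-! ### descent to `ℚ` -/

theorem pi2_monomial_one (π : Kbar →ₗ[ℚ] ℚ) (S : Kbar[X]) :
    pi2 π (monomial 1 S) = monomial 1 (mapAdd π.toAddMonoidHom S) := by
  rw [pi2, mapAdd_monomial]

theorem ev2_monomial_one {R : Type*} [CommRing R] (d : ℕ) [NeZero d] (S : R[X]) :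
    ev2 R d (monomial 1 S) = ev1 R S * jqNModC R d := by
  rw [ev2_apply, eval₂_monomial, pow_one]

/-- **(D1c)** `j_d ∈ ℚ(j)[j_M]`: `j_d * q(j) = G(j, j_M)` with `deg_Y G < ψ(M)`. -/
theorem ratGen (d : ℕ) [NeZero d] (hd : d ∣ M) :
    ∃ q : Polynomial ℚ, q ≠ 0 ∧ ∃ G : Polynomial (Polynomial ℚ),
      (∀ i, ModularCurve.dedekindPsi M ≤ i → G.coeff i = 0) ∧
      ModularCurve.qExpand ℚ d ModularCurve.jq * Fermat.Agent.S28.Export.ev1 ℚ q
        = Fermat.Agent.S28.Export.ev2 ℚ M G := by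
  obtain ⟨S, hS0, G, hGdeg, hG⟩ := exists_rel_bar M (Jd M d hd)
  rw [coe_Jd] at hG
  have hlc : S.leadingCoeff ≠ 0 := leadingCoeff_ne_zero.mpr hS0
  obtain ⟨π, hπ⟩ := exists_functional hlc
  refine ⟨mapAdd π.toAddMonoidHom S, ?_, pi2 π G, ?_, ?_⟩
  · intro h0
    have h1 := coeff_mapAdd π.toAddMonoidHom S S.natDegree
    rw [h0, coeff_zero] at h1
    have h2 : π S.leadingCoeff = 0 := h1.symm
    rw [hπ] at h2
    exact one_ne_zero h2
  · intro i hi
    rw [coeff_pi2', hGdeg i hi, map_zero]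
  · ext k
    rw [coeff_ev2_pi2 M π G k, ← hG, mul_comm (jqNModC Kbar d), ← ev2_monomial_one d S,
      ← coeff_ev2_pi2 d π (monomial 1 S) k, pi2_monomial_one, ev2_monomial_one, mul_comm]
    rfl

end

end Fermat.Agent.S18.Gauss.RatGen
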