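import Mathlib
import Fermat.Agent.S18.Gauss.Residue
import Fermat.Agent.S18.Gauss.RatGen
import Fermat.Agent.S18.Trans.ConstK
import Fermat.Agent.S18.Gauss.PolyScale
import Fermat.Agent.S18.Gauss.Adapter

/-!
# S18, block D1b (i): the rational form of the elements of the function field, general `L`

`L` any field of characteristic zero, `F ⊆ L((q))` an intermediate field containing `j = jqModC L`
and `j_M = jqNModC L M`, with `[F : L(j)] = ψ(M)` (hypothesis `hdeg`, in the shape of
`Gauss/Residue.lean`; for `F = laurentBaseChange L (modularFunctionFieldFull M)` this is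
`Gauss/Concrete.lean`, for `F = FF M` it is S24 `T0`).  Then

* `indep` : `1, j_M, …, j_M^(ψ(M)-1)` are independent over `L[j]` (S28 core in characteristic 0);
* `linearIndependent_theta`, `thetaBasis` : the power basis of `F` over `L(j)`;
* **`exists_rel`** : every `x ∈ F` satisfies `x * S(j) = G(j, j_M)` with `S ≠ 0` and
  `deg_Y G < ψ(M)`.

This generalises `RatGen.exists_rel_bar` (`L = ℚ̄`) and is the generation half of the `Scalable`
instance of the Gauss valuation.
-/

set_option autoImplicit false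
set_option linter.unusedSectionVars false
set_option linter.unusedVariables false

namespace Fermat.Agent.S18.Gauss.RatForm

open ModularCurve Polynomial IntermediateField
open Fermat.Agent.S28.Export Fermat.Agent.S18.Gauss.Residue

noncomputable section

variable {L : Type*} [Field L] [CharZero L]

/-- independence of the powers of `j_M` over `L[j]`, family form, over any field of
characteristic zero. -/
theorem indep (M : ℕ) [NeZero M] (a : Fin (dedekindPsi M) → L[X])
    (h : ∑ i, ev1 L (a i) * (jqNModC L M) ^ (i : ℕ) = 0) : ∀ i, a i = 0 := by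
  obtain ⟨l, hl, hlM⟩ := Fermat.Agent.S18.Gauss.RatGen.exists_prime_not_dvd M
  have : Fact l.Prime := ⟨hl⟩
  have hInd : IndepMod M l (dedekindPsi M) :=
    indepMod_of_core M l _ (Fermat.Agent.S28.CoreFinal.C1 M l hlM)
  refine family_of_poly (ev1 L) (jqNModC L M) (dedekindPsi M) ?_ a h
  intro g hg hev
  exact eq_zero_field hInd
    (fun i hi => coeff_eq_zero_of_natDegree_lt (lt_of_lt_of_le hg hi)) hev

variable {F : IntermediateField L (LaurentSeries L)} (hJ : jqModC L ∈ F)

/-- `J` is transcendental over `L`. -/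
theorem transcendental_Jel : Transcendental L (Jel hJ) := by
  intro halg
  apply Fermat.Agent.S18.Trans.transcendental_jqModC L
  exact halg.algebraMap (A := LaurentSeries L)

theorem aeval_Jel_ne_zero {s : L[X]} (hs : s ≠ 0) : aeval (Jel hJ) s ≠ 0 := fun h =>
  hs ((transcendental_iff.mp (transcendental_Jel hJ)) s h)

/-- every element of `L(J)` is a quotient of polynomials in `J` with non-zero denominator. -/
theorem exists_frac (x : L⟮Jel hJ⟯) :
    ∃ r s : L[X], s ≠ 0 ∧ (x : F) * aeval (Jel hJ) s = aeval (Jel hJ) r := by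
  obtain ⟨r, s, hrs⟩ := (mem_adjoin_simple_iff L (x : F)).mp x.2
  by_cases hs : aeval (Jel hJ) s = 0
  · refine ⟨0, 1, one_ne_zero, ?_⟩
    rw [hrs, hs, div_zero, zero_mul, map_zero]
  · refine ⟨r, s, ?_, ?_⟩
    · rintro rfl
      exact hs (map_zero _)
    · rw [hrs, div_mul_cancel₀ _ hs]

variable {M : ℕ} [NeZero M] (hJM : jqNModC L M ∈ F)

/-- the powers of `θ = j_M` are linearly independent over `L(J)`. -/
theorem linearIndependent_theta :
    LinearIndependent L⟮Jel hJ⟯ (fun i : Fin (dedekindPsi M) => JMel hJM ^ (i : ℕ)) := by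
  classical
  rw [Fintype.linearIndependent_iff]
  intro g hg i
  choose r s hs hrs using fun i => exists_frac hJ (g i)
  -- common denominator
  set c : Fin (dedekindPsi M) → L[X] := fun i => r i * ∏ k ∈ Finset.univ.erase i, s k with hc
  have hS : ∀ i, (∏ k, s k) = s i * ∏ k ∈ Finset.univ.erase i, s k := fun i =>
    (Finset.mul_prod_erase Finset.univ s (Finset.mem_univ i)).symm
  have hgi : ∀ i, ((g i : L⟮Jel hJ⟯) : F) * aeval (Jel hJ) (∏ k, s k)
      = aeval (Jel hJ) (c i) := by
    intro i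
    rw [hS i, map_mul, ← mul_assoc, hrs i, hc, map_mul]
  have hrel : ∑ i, aeval (Jel hJ) (c i) * JMel hJM ^ (i : ℕ) = 0 := by
    have h1 : (∑ i, g i • JMel hJM ^ (i : ℕ)) * aeval (Jel hJ) (∏ k, s k) = 0 := by
      rw [hg, zero_mul]
    rw [Finset.sum_mul] at h1
    rw [← h1]
    refine Finset.sum_congr rfl fun i _ => ?_
    rw [← hgi i, IntermediateField.smul_def, smul_eq_mul]
    ring
  have hrel' : ∑ i, ev1 L (c i) * (jqNModC L M) ^ (i : ℕ) = 0 := by
    have h2 : ((∑ i, aeval (Jel hJ) (c i) * JMel hJM ^ (i : ℕ) : F) : LaurentSeries L)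
        = ((0 : F) : LaurentSeries L) := congrArg Subtype.val hrel
    rw [ZeroMemClass.coe_zero, AddSubmonoidClass.coe_finsetSum] at h2
    rw [← h2]
    refine Finset.sum_congr rfl fun i _ => ?_
    rw [MulMemClass.coe_mul, SubmonoidClass.coe_pow, coe_aeval_Jel]
  have hc0 := indep M c hrel' i
  have hprod : (∏ k ∈ Finset.univ.erase i, s k) ≠ 0 :=
    Finset.prod_ne_zero_iff.mpr fun k _ => hs k
  have hr0 : r i = 0 := (mul_eq_zero.mp hc0).resolve_right hprod
  have h3 := hrs i
  rw [hr0, map_zero] at h3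
  have h4 := (mul_eq_zero.mp h3).resolve_right (aeval_Jel_ne_zero hJ (hs i))
  exact Subtype.ext h4

variable (hdeg : Module.finrank L⟮Jel hJ⟯ F = dedekindPsi M)

/-- the power basis `1, θ, …, θ^(ψ-1)` of `F` over `L(J)`. -/
def thetaBasis : Module.Basis (Fin (dedekindPsi M)) L⟮Jel hJ⟯ F :=
  haveI : Nonempty (Fin (dedekindPsi M)) :=
    ⟨⟨0, Fermat.Agent.S18.Gauss.RatGen.psi_pos M⟩⟩
  basisOfLinearIndependentOfCardEqFinrank (linearIndependent_theta hJ hJM)
    (by rw [Fintype.card_fin, hdeg])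

theorem thetaBasis_apply (i : Fin (dedekindPsi M)) :
    thetaBasis hJ hJM hdeg i = JMel hJM ^ (i : ℕ) := by
  rw [thetaBasis, coe_basisOfLinearIndependentOfCardEqFinrank]

include hJ hJM hdeg in
/-- **the rational form**: every element of `F`, multiplied by a non-zero polynomial in `J`, is a
polynomial in `J` and `θ = J_M` of `θ`-degree `< ψ(M)`. -/
theorem exists_rel (x : F) :
    ∃ S : L[X], S ≠ 0 ∧ ∃ G : L[X][X], (∀ i, dedekindPsi M ≤ i → G.coeff i = 0) ∧
      (x : LaurentSeries L) * ev1 L S = ev2 L M G := by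
  classical
  choose r s hs hrs using fun i => exists_frac hJ ((thetaBasis hJ hJM hdeg).repr x i)
  set c : Fin (dedekindPsi M) → L[X] := fun i => r i * ∏ k ∈ Finset.univ.erase i, s k with hc
  have hS : ∀ i, (∏ k, s k) = s i * ∏ k ∈ Finset.univ.erase i, s k := fun i =>
    (Finset.mul_prod_erase Finset.univ s (Finset.mem_univ i)).symm
  have hgi : ∀ i, (((thetaBasis hJ hJM hdeg).repr x i : L⟮Jel hJ⟯) : F)
      * aeval (Jel hJ) (∏ k, s k) = aeval (Jel hJ) (c i) := by
    intro i
    rw [hS i, map_mul, ← mul_assoc, hrs i, hc, map_mul]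
  have hx : x * aeval (Jel hJ) (∏ k, s k)
      = ∑ i, aeval (Jel hJ) (c i) * JMel hJM ^ (i : ℕ) := by
    conv_lhs => rw [← (thetaBasis hJ hJM hdeg).sum_repr x]
    rw [Finset.sum_mul]
    refine Finset.sum_congr rfl fun i _ => ?_
    rw [← hgi i, thetaBasis_apply, IntermediateField.smul_def, smul_eq_mul]
    ring
  refine ⟨∏ k, s k, Finset.prod_ne_zero_iff.mpr fun k _ => hs k,
    ∑ i : Fin (dedekindPsi M), monomial (i : ℕ) (c i), ?_, ?_⟩
  · intro j hj
    rw [finsetSum_coeff]
    refine Finset.sum_eq_zero fun i _ => ?_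
    rw [coeff_monomial, if_neg]
    have := i.2
    omega
  · have h2 : ((x * aeval (Jel hJ) (∏ k, s k) : F) : LaurentSeries L)
        = ((∑ i, aeval (Jel hJ) (c i) * JMel hJM ^ (i : ℕ) : F) : LaurentSeries L) :=
      congrArg Subtype.val hx
    rw [MulMemClass.coe_mul, coe_aeval_Jel, AddSubmonoidClass.coe_finsetSum] at h2
    rw [h2, map_sum]
    refine Finset.sum_congr rfl fun i _ => ?_
    rw [MulMemClass.coe_mul, SubmonoidClass.coe_pow, coe_aeval_Jel, ev2_apply,
      eval₂_monomial]

include hJ hJM hdeg in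
/-- the same for a series known to lie in `F`. -/
theorem exists_rel' (x : LaurentSeries L) (hx : x ∈ F) :
    ∃ S : L[X], S ≠ 0 ∧ ∃ G : L[X][X], (∀ i, dedekindPsi M ≤ i → G.coeff i = 0) ∧
      x * ev1 L S = ev2 L M G :=
  exists_rel hJ hJM hdeg ⟨x, hx⟩

/-! ### the `Scalable` instance and the Gauss valuation -/

section GaussVS

open Fermat.Agent.S18.Gauss.Basic Fermat.Agent.S18.Gauss.PolyScale

variable (A : ValuationSubring L) {ℓ : ℕ} [Fact ℓ.Prime]
  [CharP (IsLocalRing.ResidueField A) ℓ]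

/-- independence of the reductions in the shape of `PolyScale` (Igusa, `ℓ ∤ M`). -/
theorem indepRes (hℓM : ¬ ℓ ∣ M) : IndepRes A M (dedekindPsi M) :=
  fun G hGdeg hG =>
    Fermat.Agent.S18.Gauss.IndepK.eq_zero_of_char M ℓ (IsLocalRing.ResidueField A) hℓM hGdeg hG

include hJ hJM hdeg in
/-- **`Scalable`**: every non-zero element of `F` is a constant times a quotient of integral
series with non-zero reductions (`ℓ ∤ M`, residue characteristic `ℓ`). -/
theorem scalable (hℓM : ¬ ℓ ∣ M) : Scalable A (F.val : F →+* LaurentSeries L) := by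
  intro x hx
  obtain ⟨S, hS, G, hGdeg, hrel⟩ := exists_rel hJ hJM hdeg x
  have hx' : (F.val x : LaurentSeries L) ≠ 0 := fun h => hx (Subtype.ext h)
  exact scalableElt_of_rel (Fermat.Agent.S18.Gauss.RatGen.psi_pos M) (indepRes A hℓM) hx' hS
    hGdeg hrel

/-- the Gauss valuation subring of `F`. -/
def gaussVS (hℓM : ¬ ℓ ∣ M) : ValuationSubring F :=
  gaussSubring (scalable hJ hJM hdeg A hℓM)

/-- the reduction map of the Gauss valuation subring of `F`. -/
def gaussRes (hℓM : ¬ ℓ ∣ M) :
    gaussVS hJ hJM hdeg A hℓM →+* LaurentSeries (IsLocalRing.ResidueField A) :=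
  resMap (scalable hJ hJM hdeg A hℓM)

/-- **the Gauss valuation of `F` satisfies the interface `IsGaussRed`.** -/
theorem isGaussRed (hℓM : ¬ ℓ ∣ M) :
    IsGaussRed A (IsLocalRing.residue A) F (gaussVS hJ hJM hdeg A hℓM)
      (gaussRes hJ hJM hdeg A hℓM) :=
  Fermat.Agent.S18.Gauss.Adapter.isGaussRed_val (scalable hJ hJM hdeg A hℓM)

include hJ hJM hdeg in
theorem exists_isGaussRed (hℓM : ¬ ℓ ∣ M) :
    ∃ (O' : ValuationSubring F) (ρ : O' →+* LaurentSeries (IsLocalRing.ResidueField A)),
      IsGaussRed A (IsLocalRing.residue A) F O' ρ :=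
  ⟨_, _, isGaussRed hJ hJM hdeg A hℓM⟩

end GaussVS

/-! ### the instance `F = FF M = modularFunctionFieldBar M` over `K = ℚ̄` -/

section Bar

open Fermat.Agent.S24.BridgeInv Fermat.Agent.S24.PlaceAt Fermat.Agent.S24.FiniteFibres
  Fermat.Agent.S18.Gauss.RatGen

variable (M : ℕ) [NeZero M]

theorem jqModC_mem_bar : jqModC Kbar ∈ modularFunctionFieldBar M := by
  rw [← Fermat.Agent.S18.Gauss.RatGen.coe_J M]
  exact (J M).2

theorem jqNModC_mem_bar (d : ℕ) [NeZero d] (hd : d ∣ M) :
    jqNModC Kbar d ∈ modularFunctionFieldBar M := by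
  rw [← Fermat.Agent.S18.Gauss.RatGen.coe_Jd M d hd]
  exact (Jd M d hd).2

theorem Jel_bar : Jel (jqModC_mem_bar M) = J M :=
  Subtype.ext (Fermat.Agent.S18.Gauss.RatGen.coe_J M).symm

/-- `[FF M : K(J)] = ψ(M)` in the shape of `Gauss/Residue.lean` (S24 `T0`). -/
theorem finrank_bar :
    Module.finrank Kbar⟮Jel (jqModC_mem_bar M)⟯ (modularFunctionFieldBar M) = dedekindPsi M := by
  rw [Jel_bar]
  exact T0 M

/-- **the Gauss valuation of `modularFunctionFieldBar M`** (`ℓ ∤ M`, `A` of residue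
characteristic `ℓ`): existence of `(O', ρ)` with `IsGaussRed`. -/
theorem exists_isGaussRed_bar (A : ValuationSubring Kbar) {ℓ : ℕ} [Fact ℓ.Prime]
    [CharP (IsLocalRing.ResidueField A) ℓ] (hℓM : ¬ ℓ ∣ M) :
    ∃ (O' : ValuationSubring (modularFunctionFieldBar M))
      (ρ : O' →+* LaurentSeries (IsLocalRing.ResidueField A)),
      IsGaussRed A (IsLocalRing.residue A) (modularFunctionFieldBar M) O' ρ :=
  exists_isGaussRed (jqModC_mem_bar M) (jqNModC_mem_bar M M dvd_rfl) (finrank_bar M) A hℓM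

end Bar

end

end Fermat.Agent.S18.Gauss.RatForm
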