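import Mathlib
import Fermat.Agent.S18.Gauss.RatForm
import Fermat.Agent.S18.Gauss.Concrete

/-!
# S18, block D1b: the Gauss valuation of `FL = laurentBaseChange L (modularFunctionFieldFull M)`

`L` any field of characteristic zero (given as `[Field L] [Algebra ℚ L]`, any instance),
`A : ValuationSubring L` with residue characteristic `ℓ ∤ M`.  Instantiation of
`Gauss/RatForm.lean` (generation + `Scalable`) with `Gauss/Concrete.lean`
(`[FL : L(J)] = ψ(M)`):

* `exists_rel` : every `x ∈ FL` satisfies `x * S(j) = G(j, j_M)`, `S ≠ 0`, `deg_Y G < ψ(M)`;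
* `scalable` : `Scalable A (FL).val`;
* `gaussVS`, `gaussRes`, `isGaussRed` : the Gauss valuation subring of `FL`, its reduction map
  into `κ((q))`, and the interface `Residue.IsGaussRed`;
* `exists_isGaussRed`.
-/

set_option autoImplicit false
set_option linter.unusedSectionVars false
set_option linter.unusedVariables false

namespace Fermat.Agent.S18.Gauss.RatFormFL

open ModularCurve Polynomial IntermediateField
open Fermat.Agent.S28.Export Fermat.Agent.S18.Gauss.Residue Fermat.Agent.S18.Gauss.Basic

noncomputable section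

variable (L : Type*) [Field L] [Algebra ℚ L] (M : ℕ) [NeZero M]

/-- every element of `FL` has the rational form `x * S(j) = G(j, j_M)`. -/
theorem exists_rel (x : ↥(laurentBaseChange L (modularFunctionFieldFull M))) :
    ∃ S : L[X], S ≠ 0 ∧ ∃ G : L[X][X], (∀ i, dedekindPsi M ≤ i → G.coeff i = 0) ∧
      (x : LaurentSeries L) * ev1 L S = ev2 L M G :=
  haveI : CharZero L := algebraRat.charZero L
  Fermat.Agent.S18.Gauss.RatForm.exists_rel (Concrete.jqModC_mem L M) (Concrete.jqNModC_mem L M)
    (Concrete.finrank_eq_psi L M) x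

theorem exists_rel' (x : LaurentSeries L)
    (hx : x ∈ laurentBaseChange L (modularFunctionFieldFull M)) :
    ∃ S : L[X], S ≠ 0 ∧ ∃ G : L[X][X], (∀ i, dedekindPsi M ≤ i → G.coeff i = 0) ∧
      x * ev1 L S = ev2 L M G :=
  exists_rel L M ⟨x, hx⟩

variable {L} (A : ValuationSubring L) {ℓ : ℕ} [Fact ℓ.Prime]
  [CharP (IsLocalRing.ResidueField A) ℓ]

/-- **`Scalable`** for `FL` (`ℓ ∤ M`). -/
theorem scalable (hℓM : ¬ ℓ ∣ M) :
    Scalable A ((laurentBaseChange L (modularFunctionFieldFull M)).val :
      ↥(laurentBaseChange L (modularFunctionFieldFull M)) →+* LaurentSeries L) :=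
  haveI : CharZero L := algebraRat.charZero L
  Fermat.Agent.S18.Gauss.RatForm.scalable (Concrete.jqModC_mem L M) (Concrete.jqNModC_mem L M)
    (Concrete.finrank_eq_psi L M) A hℓM

/-- **the Gauss valuation subring of `FL`.** -/
def gaussVS (hℓM : ¬ ℓ ∣ M) :
    ValuationSubring ↥(laurentBaseChange L (modularFunctionFieldFull M)) :=
  gaussSubring (scalable M A hℓM)

/-- **the reduction map of the Gauss valuation subring of `FL`.** -/
def gaussRes (hℓM : ¬ ℓ ∣ M) :
    gaussVS M A hℓM →+* LaurentSeries (IsLocalRing.ResidueField A) :=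
  resMap (scalable M A hℓM)

/-- `x ∈ gaussVS ↔ x = P / Q` with integral `P`, `Q`, `Q` of non-zero reduction. -/
theorem mem_gaussVS_iff (hℓM : ¬ ℓ ∣ M)
    (x : ↥(laurentBaseChange L (modularFunctionFieldFull M))) :
    x ∈ gaussVS M A hℓM ↔ IsInt A (x : LaurentSeries L) :=
  mem_gaussSubring_iff (scalable M A hℓM)

/-- **the Gauss valuation of `FL` satisfies the interface `IsGaussRed`.** -/
theorem isGaussRed (hℓM : ¬ ℓ ∣ M) :
    IsGaussRed A (IsLocalRing.residue A) (laurentBaseChange L (modularFunctionFieldFull M))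
      (gaussVS M A hℓM) (gaussRes M A hℓM) :=
  Fermat.Agent.S18.Gauss.Adapter.isGaussRed_val (scalable M A hℓM)

theorem exists_isGaussRed (hℓM : ¬ ℓ ∣ M) :
    ∃ (O' : ValuationSubring ↥(laurentBaseChange L (modularFunctionFieldFull M)))
      (ρ : O' →+* LaurentSeries (IsLocalRing.ResidueField A)),
      IsGaussRed A (IsLocalRing.residue A) (laurentBaseChange L (modularFunctionFieldFull M))
        O' ρ :=
  ⟨_, _, isGaussRed M A hℓM⟩

end

end Fermat.Agent.S18.Gauss.RatFormFL
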